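import Fermat.Agent.LT.Aleph.LocalAdele
import Mathlib.RingTheory.Ideal.Quotient.Operations

/-!
# The neighbours of a point for `T_v` at a prime of good level

For `v ∤ n` the double coset of `diag(ϖ, 1)` at `g κ` consists of the `q + 1` distinct classes
`g X κ`, `X` running through `n(r) diag(ϖ, 1)` and `diag(1, ϖ)`.
-/

set_option autoImplicit false
set_option maxHeartbeats 400000

noncomputable section

namespace Fermat.Agent.LT.Aleph

open IsDedekindDomain IsDedekindDomain.HeightOneSpectrum Matrix Fermat.Agent.LT.Adelic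

variable {R : Type*} [CommRing R] [IsDedekindDomain R] {K : Type*} [Field K] [Algebra R K]
  [IsFractionRing R K]

theorem localGL_unipotent (v : HeightOneSpectrum R) (t : FiniteAdeleRing R K) :
    localGL K v (unipotent t) = unipotent (t v) := by
  refine Units.ext (Matrix.ext fun i j => ?_)
  rw [localGL_apply]
  fin_cases i <;> fin_cases j <;> simp [coe_apply_one, coe_apply_zero]

theorem localGL_diag2 (v : HeightOneSpectrum R) (a b : (FiniteAdeleRing R K)ˣ) :
    localGL K v (diag2 a b) =
      diag2 (Units.map (evalAt K v : _ →* v.adicCompletion K) a)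
        (Units.map (evalAt K v : _ →* v.adicCompletion K) b) := by
  refine Units.ext (Matrix.ext fun i j => ?_)
  rw [localGL_apply]
  fin_cases i <;> fin_cases j <;> simp [coe_apply_zero]

theorem isIntLocal_of_det {v : HeightOneSpectrum R} {γ : GL (Fin 2) (v.adicCompletion K)}
    (h : ∀ i j, Valued.v ((γ : Matrix (Fin 2) (Fin 2) (v.adicCompletion K)) i j) ≤ 1)
    (hdet : Valued.v (γ : Matrix (Fin 2) (Fin 2) (v.adicCompletion K)).det = 1) :
    IsIntLocal γ := by
  intro i j
  refine ⟨h i j, ?_⟩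
  rw [Matrix.coe_units_inv, Matrix.inv_def, Matrix.smul_apply, smul_eq_mul, map_mul,
    Ring.inverse_eq_inv', map_inv₀, hdet, inv_one, one_mul, Matrix.adjugate_fin_two]
  fin_cases i <;> fin_cases j <;> simp [h 0 0, h 0 1, h 1 0, h 1 1]

theorem IsIntLocal.valued_det {v : HeightOneSpectrum R} {γ : GL (Fin 2) (v.adicCompletion K)}
    (h : IsIntLocal γ) :
    Valued.v (γ : Matrix (Fin 2) (Fin 2) (v.adicCompletion K)).det = 1 := by
  have hle : ∀ δ : GL (Fin 2) (v.adicCompletion K), IsIntLocal δ →
      Valued.v (δ : Matrix (Fin 2) (Fin 2) (v.adicCompletion K)).det ≤ 1 := by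
    intro δ hδ
    rw [Matrix.det_fin_two]
    refine le_trans (Valuation.map_sub _ _ _) (max_le ?_ ?_) <;> rw [map_mul]
    · exact mul_le_one' (hδ 0 0).1 (hδ 1 1).1
    · exact mul_le_one' (hδ 0 1).1 (hδ 1 0).1
  refine le_antisymm (hle γ h) ?_
  have h1 : Valued.v (γ : Matrix (Fin 2) (Fin 2) (v.adicCompletion K)).det *
      Valued.v ((γ⁻¹ : GL (Fin 2) (v.adicCompletion K)) :
        Matrix (Fin 2) (Fin 2) (v.adicCompletion K)).det = 1 := by
    rw [← map_mul, ← Matrix.det_mul, Units.mul_inv, Matrix.det_one, map_one]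
  calc (1 : _) = _ := h1.symm
    _ ≤ Valued.v (γ : Matrix (Fin 2) (Fin 2) (v.adicCompletion K)).det * 1 :=
      mul_le_mul_of_nonneg_left (hle _ h.inv) zero_le
    _ = _ := mul_one _

theorem isIntLocal_weyl {v : HeightOneSpectrum R} :
    IsIntLocal (weyl : GL (Fin 2) (v.adicCompletion K)) := by
  refine isIntLocal_of_det (fun i j => ?_) (by simp [Matrix.det_fin_two])
  fin_cases i <;> fin_cases j <;> simp

theorem isIntLocal_unipotent {v : HeightOneSpectrum R} {t : v.adicCompletion K}
    (ht : Valued.v t ≤ 1) : IsIntLocal (unipotent t) := by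
  refine isIntLocal_of_det (fun i j => ?_) (by simp [Matrix.det_fin_two])
  fin_cases i <;> fin_cases j <;> simp [ht]

variable (K) in
/-- The component of an element of `R` at `v`, zero elsewhere. -/
def atPlace (v : HeightOneSpectrum R) (r : R) : FiniteAdeleRing R K :=
  letI := Classical.decEq (HeightOneSpectrum R)
  intMk K (fun w => if w = v then algebraMap K (w.adicCompletion K) (algebraMap R K r) else 0)
    fun w => by
      split
      · rw [algebraMap_adicCompletion]
        simp only [Function.comp_apply, Algebra.algebraMap_self, RingHom.id_apply,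
          adicCompletion.valued_coe, valuation_of_algebraMap]
        exact intValuation_le_one w r
      · rw [map_zero]; exact zero_le

theorem atPlace_apply_self (v : HeightOneSpectrum R) (r : R) :
    atPlace K v r v = algebraMap K (v.adicCompletion K) (algebraMap R K r) := by
  simp [atPlace]

theorem atPlace_apply_of_ne {v w : HeightOneSpectrum R} (h : w ≠ v) (r : R) :
    atPlace K v r w = 0 := by
  simp [atPlace, h]

theorem valued_intMap (v : HeightOneSpectrum R) (r : R) :
    Valued.v (algebraMap K (v.adicCompletion K) (algebraMap R K r)) = v.intValuation r := by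
  rw [algebraMap_adicCompletion]
  simp only [Function.comp_apply, Algebra.algebraMap_self, RingHom.id_apply,
    adicCompletion.valued_coe, valuation_of_algebraMap]

/-- `ϖ` is a uniformiser at `v` and one elsewhere. -/
structure UnifAt (v : HeightOneSpectrum R) (ϖ : (FiniteAdeleRing R K)ˣ) : Prop where
  val : Valued.v ((ϖ : FiniteAdeleRing R K) v) = WithZero.exp (-1 : ℤ)
  one : ∀ w ≠ v, (ϖ : FiniteAdeleRing R K) w = 1

variable {v : HeightOneSpectrum R} {ϖ : (FiniteAdeleRing R K)ˣ}

/-- The representatives of the double coset of `diag(ϖ, 1)`. -/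
def cosetRep (ϖ : (FiniteAdeleRing R K)ˣ) : Option (R ⧸ v.asIdeal) → Gf R K
  | some r => unipotent (atPlace K v (Quotient.out r)) * diag2 ϖ 1
  | none => diag2 1 ϖ

theorem UnifAt.localGL_diag (h : UnifAt v ϖ) {w : HeightOneSpectrum R} (hw : w ≠ v) :
    localGL K w (diag2 ϖ 1) = 1 ∧ localGL K w (diag2 1 ϖ) = 1 := by
  constructor <;>
  · rw [localGL_diag2]
    refine Units.ext (Matrix.ext fun i j => ?_)
    fin_cases i <;> fin_cases j <;> simp [h.one w hw]

theorem UnifAt.localGL_cosetRep (h : UnifAt v ϖ) (o : Option (R ⧸ v.asIdeal))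
    {w : HeightOneSpectrum R} (hw : w ≠ v) : localGL K w (cosetRep ϖ o) = 1 := by
  cases o with
  | none => exact (h.localGL_diag hw).2
  | some r =>
    rw [cosetRep, map_mul, (h.localGL_diag hw).1, mul_one, localGL_unipotent,
      atPlace_apply_of_ne hw]
    refine Units.ext (Matrix.ext fun i j => ?_)
    fin_cases i <;> fin_cases j <;> simp

theorem UnifAt.val_ne_zero (h : UnifAt v ϖ) : (ϖ : FiniteAdeleRing R K) v ≠ 0 := fun h0 => by
  have := h.val
  rw [h0, map_zero] at this
  exact WithZero.exp_ne_zero this.symm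

theorem le_exp_neg_one_of_lt_one {x : WithZero (Multiplicative ℤ)} (h : x < 1) :
    x ≤ WithZero.exp (-1 : ℤ) := by
  rcases eq_or_ne x 0 with rfl | hx
  · exact zero_le
  · rw [← WithZero.exp_log hx, ← WithZero.exp_zero, WithZero.exp_lt_exp] at h
    rw [← WithZero.exp_log hx, WithZero.exp_le_exp]
    omega

theorem UnifAt.valued_div (h : UnifAt v ϖ) {x : v.adicCompletion K}
    (hx : Valued.v x ≤ WithZero.exp (-1 : ℤ)) :
    Valued.v (((ϖ : FiniteAdeleRing R K) v)⁻¹ * x) ≤ 1 := by
  rw [map_mul, map_inv₀, h.val, ← WithZero.exp_neg, neg_neg]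
  calc WithZero.exp (1 : ℤ) * Valued.v x ≤ WithZero.exp (1 : ℤ) * WithZero.exp (-1 : ℤ) :=
        mul_le_mul_of_nonneg_left hx zero_le
    _ = 1 := by rw [← WithZero.exp_add, add_neg_cancel, WithZero.exp_zero]

theorem evalUnit_inv (a : (FiniteAdeleRing R K)ˣ) :
    ((a⁻¹ : (FiniteAdeleRing R K)ˣ) : FiniteAdeleRing R K) v =
      ((a : FiniteAdeleRing R K) v)⁻¹ := by
  refine eq_inv_of_mul_eq_one_left ?_
  rw [← coe_apply_mul, Units.inv_mul, coe_apply_one]

theorem coe_local_diagA :
    ((localGL K v (diag2 ϖ 1)) : Matrix (Fin 2) (Fin 2) (v.adicCompletion K)) =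
      !![(ϖ : FiniteAdeleRing R K) v, 0; 0, 1] := by
  rw [localGL_diag2]; simp

theorem coe_local_diagB :
    ((localGL K v (diag2 1 ϖ)) : Matrix (Fin 2) (Fin 2) (v.adicCompletion K)) =
      !![1, 0; 0, (ϖ : FiniteAdeleRing R K) v] := by
  rw [localGL_diag2]; simp

theorem coe_local_diagB_inv :
    (((localGL K v (diag2 1 ϖ))⁻¹ : GL (Fin 2) (v.adicCompletion K)) :
      Matrix (Fin 2) (Fin 2) (v.adicCompletion K)) =
      !![1, 0; 0, ((ϖ : FiniteAdeleRing R K) v)⁻¹] := by
  rw [localGL_diag2]; simp [diag2]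

/-- The parameter of the representative at `v`. -/
def repParam (r : R ⧸ v.asIdeal) : v.adicCompletion K :=
  algebraMap K (v.adicCompletion K) (algebraMap R K (Quotient.out r))

theorem valued_repParam_le (r : R ⧸ v.asIdeal) : Valued.v (repParam (K := K) r) ≤ 1 := by
  rw [repParam, valued_intMap]; exact intValuation_le_one _ _

theorem coe_local_rep (r : R ⧸ v.asIdeal) :
    ((localGL K v (cosetRep ϖ (some r))) : Matrix (Fin 2) (Fin 2) (v.adicCompletion K)) =
      !![(ϖ : FiniteAdeleRing R K) v, repParam r; 0, 1] := by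
  rw [cosetRep, map_mul, Units.val_mul, coe_local_diagA, localGL_unipotent, atPlace_apply_self,
    coe_unipotent, Matrix.mul_fin_two]
  simp [repParam]

theorem coe_local_rep_inv (r : R ⧸ v.asIdeal) :
    (((localGL K v (cosetRep ϖ (some r)))⁻¹ : GL (Fin 2) (v.adicCompletion K)) :
      Matrix (Fin 2) (Fin 2) (v.adicCompletion K)) =
      !![((ϖ : FiniteAdeleRing R K) v)⁻¹, -(((ϖ : FiniteAdeleRing R K) v)⁻¹ * repParam r);
        0, 1] := by
  rw [cosetRep, map_mul, _root_.mul_inv_rev, localGL_unipotent, atPlace_apply_self,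
    localGL_diag2]
  simp [diag2, unipotent, repParam]

/-- The local decomposition of `GL₂(O_v) diag(ϖ, 1)`. -/
theorem UnifAt.exists_decomp (h : UnifAt v ϖ) {k : GL (Fin 2) (v.adicCompletion K)}
    (hk : IsIntLocal k) :
    ∃ o : Option (R ⧸ v.asIdeal),
      IsIntLocal ((localGL K v (cosetRep ϖ o))⁻¹ * (k * localGL K v (diag2 ϖ 1))) := by
  have hπ0 := h.val_ne_zero
  have hπ1 : Valued.v ((ϖ : FiniteAdeleRing R K) v) ≤ 1 := by
    rw [h.val, ← WithZero.exp_zero, WithZero.exp_le_exp]; omega
  have hdk := hk.valued_det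
  rw [Matrix.det_fin_two] at hdk
  set π := (ϖ : FiniteAdeleRing R K) v with hπ
  have hk' : (k : Matrix (Fin 2) (Fin 2) (v.adicCompletion K)) =
      !![k.1 0 0, k.1 0 1; k.1 1 0, k.1 1 1] := Matrix.eta_fin_two _
  rcases lt_or_eq_of_le (hk 1 1).1 with hd | hd
  · have hM : ((localGL K v (cosetRep (v := v) ϖ none))⁻¹ *
        (k * localGL K v (diag2 ϖ 1)) : GL (Fin 2) (v.adicCompletion K)).1 =
        !![k.1 0 0 * π, k.1 0 1; k.1 1 0, π⁻¹ * k.1 1 1] := by
      rw [cosetRep, Units.val_mul, Units.val_mul, coe_local_diagB_inv, coe_local_diagA, ← hπ,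
        hk', Matrix.mul_fin_two, Matrix.mul_fin_two]
      refine Matrix.ext fun i j => ?_
      fin_cases i <;> fin_cases j <;> simp <;> field_simp
    refine ⟨none, isIntLocal_of_det (fun i j => ?_) ?_⟩
    · rw [hM]
      have e := h.valued_div (le_exp_neg_one_of_lt_one hd)
      rw [← hπ] at e
      fin_cases i <;> fin_cases j
      · simpa using mul_le_one' (hk 0 0).1 hπ1
      · simpa using (hk 0 1).1
      · simpa using (hk 1 0).1
      · simpa using e
    · rw [hM, Matrix.det_fin_two_of, ← hdk]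
      congr 1
      field_simp
  · obtain ⟨r₀, hr₀⟩ := exists_int_sub_le v (x := (k.1 0 1) * (k.1 1 1)⁻¹)
      (by rw [map_mul, map_inv₀, hd, inv_one, mul_one]; exact (hk 0 1).1) 1
    set r := Ideal.Quotient.mk v.asIdeal r₀ with hr
    set t := repParam (K := K) r with ht
    have hrr : Valued.v (algebraMap K (v.adicCompletion K) (algebraMap R K r₀) - t) ≤
        WithZero.exp (-1 : ℤ) := by
      rw [ht, repParam, ← map_sub, ← map_sub, valued_intMap]
      have : r₀ - Quotient.out r ∈ v.asIdeal :=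
        Ideal.Quotient.eq.mp (Ideal.Quotient.mk_out r).symm
      exact le_exp_neg_one_of_lt_one ((intValuation_lt_one_iff_mem v _).mpr this)
    have hd0 : k.1 1 1 ≠ 0 := fun h0 => by rw [h0, map_zero] at hd; exact zero_ne_one hd
    have hkey : Valued.v (k.1 0 1 - t * k.1 1 1) ≤ WithZero.exp (-1 : ℤ) := by
      have e : k.1 0 1 - t * k.1 1 1 = (k.1 0 1 * (k.1 1 1)⁻¹ -
          algebraMap K (v.adicCompletion K) (algebraMap R K r₀) +
          (algebraMap K (v.adicCompletion K) (algebraMap R K r₀) - t)) * k.1 1 1 := by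
        field_simp; ring
      rw [e, map_mul, hd, mul_one]
      refine le_trans (Valuation.map_add _ _ _) (max_le ?_ hrr)
      simpa using hr₀
    have hM : ((localGL K v (cosetRep ϖ (some r)))⁻¹ *
        (k * localGL K v (diag2 ϖ 1)) : GL (Fin 2) (v.adicCompletion K)).1 =
        !![k.1 0 0 - t * k.1 1 0, π⁻¹ * (k.1 0 1 - t * k.1 1 1); k.1 1 0 * π, k.1 1 1] := by
      rw [Units.val_mul, Units.val_mul, coe_local_rep_inv, coe_local_diagA, ← hπ, ← ht,
        hk', Matrix.mul_fin_two, Matrix.mul_fin_two]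
      refine Matrix.ext fun i j => ?_
      fin_cases i <;> fin_cases j <;> simp <;> field_simp <;> ring
    refine ⟨some r, isIntLocal_of_det (fun i j => ?_) ?_⟩
    · rw [hM]
      have e := h.valued_div hkey
      rw [← hπ] at e
      have htle : Valued.v t ≤ 1 := valued_repParam_le r
      fin_cases i <;> fin_cases j
      · simpa using le_trans (Valuation.map_sub _ _ _)
          (max_le (hk 0 0).1 ((map_mul _ _ _).trans_le (mul_le_one' htle (hk 1 0).1)))
      · simpa using e
      · simpa using mul_le_one' (hk 1 0).1 hπ1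
      · simpa using (hk 1 1).1
    · rw [hM, Matrix.det_fin_two_of, ← hdk]
      congr 1
      field_simp
      ring

/-- Each representative occurs in the double coset. -/
theorem UnifAt.exists_mem_decomp (h : UnifAt v ϖ) (o : Option (R ⧸ v.asIdeal)) :
    ∃ k : GL (Fin 2) (v.adicCompletion K), IsIntLocal k ∧
      IsIntLocal ((localGL K v (cosetRep ϖ o))⁻¹ * (k * localGL K v (diag2 ϖ 1))) := by
  have hπ0 := h.val_ne_zero
  cases o with
  | some r =>
    refine ⟨unipotent (repParam r), isIntLocal_unipotent (valued_repParam_le r), ?_⟩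
    have : (localGL K v (cosetRep ϖ (some r)))⁻¹ *
        (unipotent (repParam r) * localGL K v (diag2 ϖ 1)) = 1 := by
      rw [inv_mul_eq_one]
      refine Units.ext ?_
      rw [coe_local_rep, Units.val_mul, coe_local_diagA, coe_unipotent, Matrix.mul_fin_two]
      simp
    rw [this]; exact isIntLocal_one
  | none =>
    refine ⟨weyl, isIntLocal_weyl, ?_⟩
    have : (localGL K v (cosetRep (v := v) ϖ none))⁻¹ *
        (weyl * localGL K v (diag2 ϖ 1)) = weyl := by
      rw [inv_mul_eq_iff_eq_mul, cosetRep]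
      refine Units.ext ?_
      rw [Units.val_mul, Units.val_mul, coe_local_diagB, coe_local_diagA, coe_weyl,
        Matrix.mul_fin_two, Matrix.mul_fin_two]
      simp
    rw [this]; exact isIntLocal_weyl

variable {n : R} {U : Subgroup (Gf R K)}

/-- Membership in `U` of an element supported at `v ∤ n`. -/
theorem mem_of_supported (hnU : principalLevel K n ≤ U) (hv : v.intValuation n = 1) {e : Gf R K}
    (he : IsIntLocal (localGL K v e)) (hne : ∀ w ≠ v, localGL K w e = 1) : e ∈ U := by
  classical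
  refine hnU (mem_principalLevel_of_local (mem_principalLevel_one_iff.mpr fun w => ?_)
    fun w hw => hne w fun hwv => ?_)
  · by_cases hwv : w = v
    · subst hwv; exact he
    · rw [hne w hwv]; exact isIntLocal_one
  · subst hwv; rw [hv] at hw; exact lt_irrefl _ hw

/-- The neighbours at `g κ` are the classes `g X κ`. -/
theorem UnifAt.nbrs_eq_range (h : UnifAt v ϖ) (hnU : principalLevel K n ≤ U)
    (hU1 : U ≤ principalLevel K (1 : R)) (hv : v.intValuation n = 1) (g : Gf R K) {κ : Gf R K}
    (hκ : κ ∈ principalLevel K (1 : R)) :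
    nbrs (diag2 ϖ 1) ((g * κ : Gf R K) : Yf U) =
      Set.range fun o : Option (R ⧸ v.asIdeal) => ((g * cosetRep ϖ o * κ : Gf R K) : Yf U) := by
  classical
  rw [nbrs_mk]
  have hκl := mem_principalLevel_one_iff.mp hκ
  have key : ∀ (o : Option (R ⧸ v.asIdeal)) (u : Gf R K), u ∈ U →
      IsIntLocal ((localGL K v (cosetRep ϖ o))⁻¹ *
        (localGL K v κ * localGL K v u * localGL K v (diag2 ϖ 1))) →
      ((g * κ * u * diag2 ϖ 1 : Gf R K) : Yf U) =
        ((g * cosetRep ϖ o * κ : Gf R K) : Yf U) := by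
    intro o u hu hint
    symm
    refine QuotientGroup.eq.mpr (le_levelZ U ?_)
    have e : (g * cosetRep ϖ o * κ)⁻¹ * (g * κ * u * diag2 ϖ 1) =
        u * (u⁻¹ * κ⁻¹ * ((cosetRep ϖ o)⁻¹ * (κ * u * diag2 ϖ 1))) := by group
    rw [e]
    refine U.mul_mem hu (mem_of_supported hnU hv ?_ fun w hw => ?_)
    · simp only [map_mul, map_inv]
      exact ((((mem_principalLevel_one_iff.mp (hU1 hu)) v).inv.mul (hκl v).inv).mul hint)
    · simp only [map_mul, map_inv, (h.localGL_diag hw).1, h.localGL_cosetRep o hw]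
      group
  ext y
  constructor
  · rintro ⟨u, hu, rfl⟩
    obtain ⟨o, ho⟩ := h.exists_decomp ((hκl v).mul (mem_principalLevel_one_iff.mp (hU1 hu) v))
    exact ⟨o, (key o u hu ho).symm⟩
  · rintro ⟨o, rfl⟩
    obtain ⟨k, hk, hint⟩ := h.exists_mem_decomp o
    let γ : ∀ w : HeightOneSpectrum R, GL (Fin 2) (w.adicCompletion K) :=
      Function.update (fun _ => 1) v ((localGL K v κ)⁻¹ * k)
    have hγ : ∀ w, IsIntLocal (γ w) := by
      intro w
      by_cases hw : w = v
      · subst hw; simpa [γ] using (hκl w).inv.mul hk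
      · simpa [γ, hw] using isIntLocal_one
    have hu : gfOfLocal K γ hγ ∈ U := mem_of_supported hnU hv
      (by rw [localGL_gfOfLocal]; exact hγ v)
      fun w hw => by rw [localGL_gfOfLocal]; simp [γ, hw]
    refine ⟨_, hu, key o _ hu ?_⟩
    rw [localGL_gfOfLocal]; simp only [γ, Function.update_self, mul_inv_cancel_left]
    exact hint

theorem localGL_scalar_det (c : (FiniteAdeleRing R K)ˣ) :
    ((localGL K v (scalarHom R K c)) : Matrix (Fin 2) (Fin 2) (v.adicCompletion K)).det =
      (c : FiniteAdeleRing R K) v * (c : FiniteAdeleRing R K) v := by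
  rw [Matrix.det_fin_two]
  simp [localGL_apply, scalarHom, coe_apply_zero]

theorem UnifAt.valued_det_cosetRep (h : UnifAt v ϖ) (o : Option (R ⧸ v.asIdeal)) :
    Valued.v ((localGL K v (cosetRep ϖ o)) :
      Matrix (Fin 2) (Fin 2) (v.adicCompletion K)).det = WithZero.exp (-1 : ℤ) := by
  cases o with
  | none => rw [cosetRep, coe_local_diagB, Matrix.det_fin_two_of]; simpa using h.val
  | some r => rw [coe_local_rep, Matrix.det_fin_two_of]; simpa using h.val

/-- The representatives are inequivalent modulo integral matrices at `v`. -/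
theorem UnifAt.eq_of_isIntLocal (h : UnifAt v ϖ) {o o' : Option (R ⧸ v.asIdeal)}
    (hi : IsIntLocal ((localGL K v (cosetRep ϖ o))⁻¹ * localGL K v (cosetRep ϖ o'))) : o = o' := by
  have hπ0 := h.val_ne_zero
  have hbad : ¬ Valued.v (((ϖ : FiniteAdeleRing R K) v)⁻¹) ≤ 1 := by
    rw [map_inv₀, h.val, ← WithZero.exp_neg, neg_neg, ← WithZero.exp_zero, WithZero.exp_le_exp]
    omega
  have some_none : ∀ r : R ⧸ v.asIdeal, ¬ IsIntLocal ((localGL K v (cosetRep ϖ (some r)))⁻¹ *
      localGL K v (cosetRep (v := v) ϖ none)) := by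
    intro r hi
    apply hbad
    have := (hi 0 0).1
    rw [Units.val_mul, coe_local_rep_inv, cosetRep, coe_local_diagB, Matrix.mul_fin_two] at this
    simpa using this
  rcases o with _ | r <;> rcases o' with _ | r'
  · rfl
  · exact absurd (by have := hi.inv; rwa [_root_.mul_inv_rev, inv_inv] at this) (some_none r')
  · exact absurd hi (some_none r)
  · have := (hi 0 1).1
    rw [Units.val_mul, coe_local_rep_inv, coe_local_rep, Matrix.mul_fin_two] at this
    simp only [Matrix.of_apply, Matrix.cons_val', Matrix.cons_val_zero, Matrix.cons_val_one,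
      Matrix.empty_val', Matrix.cons_val_fin_one] at this
    have e : ((ϖ : FiniteAdeleRing R K) v)⁻¹ * repParam r' +
        -(((ϖ : FiniteAdeleRing R K) v)⁻¹ * repParam r) * 1 =
        ((ϖ : FiniteAdeleRing R K) v)⁻¹ * algebraMap K (v.adicCompletion K)
          (algebraMap R K (Quotient.out r' - Quotient.out r)) := by
      rw [map_sub, map_sub]; simp only [repParam]; ring
    rw [e, map_mul, map_inv₀, h.val, valued_intMap, ← WithZero.exp_neg, neg_neg] at this
    have hlt : v.intValuation (Quotient.out r' - Quotient.out r) < 1 := by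
      rcases (intValuation_le_one v (Quotient.out r' - Quotient.out r)).lt_or_eq with h1 | h1
      · exact h1
      · rw [h1, mul_one, ← WithZero.exp_zero, WithZero.exp_le_exp] at this
        omega
    have hmem := (intValuation_lt_one_iff_mem v _).mp hlt
    have := Ideal.Quotient.eq.mpr hmem
    rw [Ideal.Quotient.mk_out, Ideal.Quotient.mk_out] at this
    rw [this]

theorem UnifAt.injective_class (h : UnifAt v ϖ) (hU1 : U ≤ principalLevel K (1 : R)) (g : Gf R K)
    {κ : Gf R K} (hκ : κ ∈ principalLevel K (1 : R)) :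
    Function.Injective
      fun o : Option (R ⧸ v.asIdeal) => ((g * cosetRep ϖ o * κ : Gf R K) : Yf U) := by
  intro o o' ho
  obtain ⟨u, hu, z, hz, he⟩ := mem_levelZ.mp (QuotientGroup.eq.mp ho)
  obtain ⟨c, rfl⟩ := hz
  have e : (cosetRep ϖ o)⁻¹ * cosetRep ϖ o' = κ * u * κ⁻¹ * scalarHom R K c := by
    have hc : scalarHom R K c * κ⁻¹ = κ⁻¹ * scalarHom R K c := centerGf_comm ⟨c, rfl⟩ _
    rw [mul_assoc _ κ⁻¹, ← hc, ← mul_assoc, mul_assoc κ u, he]
    group
  set k := localGL K v κ * localGL K v u * (localGL K v κ)⁻¹ with hk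
  have hki : IsIntLocal k := ((mem_principalLevel_one_iff.mp hκ v).mul
    (mem_principalLevel_one_iff.mp (hU1 hu) v)).mul (mem_principalLevel_one_iff.mp hκ v).inv
  have el : (localGL K v (cosetRep ϖ o))⁻¹ * localGL K v (cosetRep ϖ o') =
      k * localGL K v (scalarHom R K c) := by
    rw [hk, ← map_inv, ← map_mul, e, map_mul, map_mul, map_mul, map_inv]
  have hdet := congrArg (fun γ : GL (Fin 2) (v.adicCompletion K) =>
    Valued.v ((γ : Matrix (Fin 2) (Fin 2) (v.adicCompletion K))).det) el
  simp only [Units.val_mul, Matrix.det_mul, map_mul, Matrix.coe_units_inv, Matrix.det_nonsing_inv,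
    Ring.inverse_eq_inv', map_inv₀, h.valued_det_cosetRep, hki.valued_det, localGL_scalar_det,
    one_mul] at hdet
  rw [inv_mul_cancel₀ WithZero.exp_ne_zero] at hdet
  set x := Valued.v ((c : FiniteAdeleRing R K) v) with hx
  have hx1 : x = 1 := by
    rcases lt_trichotomy x 1 with hlt | heq | hgt
    · exact absurd hdet (ne_of_gt (mul_lt_one_of_nonneg_of_lt_one_left zero_le hlt hlt.le))
    · exact heq
    · exact absurd hdet (ne_of_lt (one_lt_mul_of_lt_of_le hgt hgt.le))
  refine h.eq_of_isIntLocal (el ▸ hki.mul (isIntLocal_of_det (fun i j => ?_) ?_))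
  · fin_cases i <;> fin_cases j <;> simp [localGL_apply, scalarHom, coe_apply_zero, ← hx, hx1]
  · rw [localGL_scalar_det, map_mul, ← hx, hx1, one_mul]

/-- **The coset formula for `T_v`.** -/
theorem UnifAt.finsum_nbrs (h : UnifAt v ϖ) [Fintype (R ⧸ v.asIdeal)]
    (hnU : principalLevel K n ≤ U) (hU1 : U ≤ principalLevel K (1 : R))
    (hv : v.intValuation n = 1) (g : Gf R K) {κ : Gf R K} (hκ : κ ∈ principalLevel K (1 : R))
    {M : Type*} [AddCommMonoid M] (c : Yf U → M) :
    ∑ᶠ y ∈ nbrs (diag2 ϖ 1) ((g * κ : Gf R K) : Yf U), c y =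
      c ((g * diag2 1 ϖ * κ : Gf R K) : Yf U) + ∑ r : R ⧸ v.asIdeal,
        c ((g * (unipotent (atPlace K v (Quotient.out r)) * diag2 ϖ 1) * κ : Gf R K) : Yf U) := by
  rw [h.nbrs_eq_range hnU hU1 hv g hκ, finsum_mem_range (h.injective_class hU1 g hκ),
    finsum_eq_sum_of_fintype, Fintype.sum_option]
  rfl

end Fermat.Agent.LT.Aleph

end
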