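import Fermat.Agent.LT.Adelic.Levels
import Fermat.Agent.LT.Adelic.Space
import Mathlib.LinearAlgebra.Matrix.GeneralLinearGroup.Basic

/-!
# Components of elements of `GL₂(𝔸_f)`

`localGL v g` is the component at `v`.  Families of componentwise integral matrices glue to
elements of `GL₂(Ô)`, which gives the Iwasawa decomposition.
-/

set_option autoImplicit false
set_option maxHeartbeats 400000

noncomputable section

namespace Fermat.Agent.LT.Aleph

open IsDedekindDomain IsDedekindDomain.HeightOneSpectrum Matrix Fermat.Agent.LT.Adelic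

variable {R : Type*} [CommRing R] [IsDedekindDomain R] {K : Type*} [Field K] [Algebra R K]
  [IsFractionRing R K]

variable (K) in
/-- Evaluation at a place. -/
def evalAt (v : HeightOneSpectrum R) : FiniteAdeleRing R K →+* v.adicCompletion K where
  toFun a := a v
  map_one' := coe_apply_one v
  map_zero' := coe_apply_zero v
  map_add' a b := coe_apply_add a b v
  map_mul' a b := coe_apply_mul a b v

@[simp] theorem evalAt_apply (v : HeightOneSpectrum R) (a : FiniteAdeleRing R K) :
    evalAt K v a = a v := rfl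

variable (K) in
/-- The component of an element of `GL₂(𝔸_f)` at a place. -/
def localGL (v : HeightOneSpectrum R) : Gf R K →* GL (Fin 2) (v.adicCompletion K) :=
  GeneralLinearGroup.map (evalAt K v)

theorem localGL_apply (v : HeightOneSpectrum R) (g : Gf R K) (i j : Fin 2) :
    (localGL K v g : Matrix (Fin 2) (Fin 2) (v.adicCompletion K)) i j =
      ((g : Matrix (Fin 2) (Fin 2) (FiniteAdeleRing R K)) i j) v := rfl

theorem gf_ext {g h : Gf R K} (H : ∀ v : HeightOneSpectrum R, localGL K v g = localGL K v h) :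
    g = h := by
  refine Units.ext (Matrix.ext fun i j => FiniteAdeleRing.ext K fun v => ?_)
  rw [← localGL_apply, ← localGL_apply, H v]

/-- All entries of a local matrix and of its inverse are integral. -/
def IsIntLocal {v : HeightOneSpectrum R} (γ : GL (Fin 2) (v.adicCompletion K)) : Prop :=
  ∀ i j, Valued.v ((γ : Matrix (Fin 2) (Fin 2) (v.adicCompletion K)) i j) ≤ 1 ∧
    Valued.v (((γ⁻¹ : GL (Fin 2) (v.adicCompletion K)) :
      Matrix (Fin 2) (Fin 2) (v.adicCompletion K)) i j) ≤ 1

theorem isIntLocal_one {v : HeightOneSpectrum R} :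
    IsIntLocal (1 : GL (Fin 2) (v.adicCompletion K)) := by
  intro i j
  rw [inv_one, Units.val_one, and_self, Matrix.one_apply]
  split <;> simp

theorem mem_principalLevel_one_iff {g : Gf R K} :
    g ∈ principalLevel K (1 : R) ↔ ∀ v : HeightOneSpectrum R, IsIntLocal (localGL K v g) := by
  rw [mem_principalLevel_one, matMemMul_one, matMemMul_one]
  simp only [mem_intAdele, IsIntLocal, ← map_inv, localGL_apply]
  exact ⟨fun h v i j => ⟨h.1 i j v, h.2 i j v⟩,
    fun h => ⟨fun i j v => (h v i j).1, fun i j v => (h v i j).2⟩⟩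

theorem IsIntLocal.mul {v : HeightOneSpectrum R} {γ δ : GL (Fin 2) (v.adicCompletion K)}
    (hγ : IsIntLocal γ) (hδ : IsIntLocal δ) : IsIntLocal (γ * δ) := by
  intro i j
  rw [_root_.mul_inv_rev, Units.val_mul, Units.val_mul, Matrix.mul_apply, Matrix.mul_apply]
  constructor
  · refine Valuation.map_sum_le _ fun k _ => ?_
    rw [map_mul]; exact mul_le_one' (hγ i k).1 (hδ k j).1
  · refine Valuation.map_sum_le _ fun k _ => ?_
    rw [map_mul]; exact mul_le_one' (hδ i k).2 (hγ k j).2

theorem IsIntLocal.inv {v : HeightOneSpectrum R} {γ : GL (Fin 2) (v.adicCompletion K)}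
    (hγ : IsIntLocal γ) : IsIntLocal γ⁻¹ := fun i j =>
  ⟨(hγ i j).2, by rw [inv_inv]; exact (hγ i j).1⟩

variable (K) in
/-- An integral finite adele from its components. -/
def intMk (x : ∀ v : HeightOneSpectrum R, v.adicCompletion K)
    (h : ∀ v, Valued.v (x v) ≤ 1) : FiniteAdeleRing R K :=
  ⟨x, Filter.Eventually.of_forall fun v => h v⟩

@[simp] theorem intMk_apply (x : ∀ v : HeightOneSpectrum R, v.adicCompletion K)
    (h : ∀ v, Valued.v (x v) ≤ 1) (v : HeightOneSpectrum R) : intMk K x h v = x v := rfl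

theorem mat_ext {M N : Matrix (Fin 2) (Fin 2) (FiniteAdeleRing R K)}
    (h : ∀ v : HeightOneSpectrum R, M.map (evalAt K v) = N.map (evalAt K v)) : M = N :=
  Matrix.ext fun i j => FiniteAdeleRing.ext K fun v => congrFun (congrFun (h v) i) j

variable (K) in
/-- An integral adelic matrix from its components. -/
def intMat (M : ∀ v : HeightOneSpectrum R, Matrix (Fin 2) (Fin 2) (v.adicCompletion K))
    (h : ∀ v i j, Valued.v (M v i j) ≤ 1) : Matrix (Fin 2) (Fin 2) (FiniteAdeleRing R K) :=
  Matrix.of fun i j => intMk K (fun v => M v i j) fun v => h v i j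

theorem intMat_map (M : ∀ v : HeightOneSpectrum R, Matrix (Fin 2) (Fin 2) (v.adicCompletion K))
    (h : ∀ v i j, Valued.v (M v i j) ≤ 1) (v : HeightOneSpectrum R) :
    (intMat K M h).map (evalAt K v) = M v := rfl

variable (K) in
/-- An element of `GL₂(Ô)` from its components. -/
def gfOfLocal (γ : ∀ v : HeightOneSpectrum R, GL (Fin 2) (v.adicCompletion K))
    (h : ∀ v, IsIntLocal (γ v)) : Gf R K where
  val := intMat K (fun v => (γ v).1) fun v i j => (h v i j).1
  inv := intMat K (fun v => ((γ v)⁻¹ : GL (Fin 2) (v.adicCompletion K)).1) fun v i j => (h v i j).2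
  val_inv := mat_ext fun v => by
    rw [Matrix.map_mul, intMat_map, intMat_map, Units.mul_inv,
      Matrix.map_one _ (map_zero _) (map_one _)]
  inv_val := mat_ext fun v => by
    rw [Matrix.map_mul, intMat_map, intMat_map, Units.inv_mul,
      Matrix.map_one _ (map_zero _) (map_one _)]

@[simp] theorem localGL_gfOfLocal
    (γ : ∀ v : HeightOneSpectrum R, GL (Fin 2) (v.adicCompletion K))
    (h : ∀ v, IsIntLocal (γ v)) (v : HeightOneSpectrum R) :
    localGL K v (gfOfLocal K γ h) = γ v :=
  Units.ext (Matrix.ext fun _ _ => rfl)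

theorem gfOfLocal_mem (γ : ∀ v : HeightOneSpectrum R, GL (Fin 2) (v.adicCompletion K))
    (h : ∀ v, IsIntLocal (γ v)) : gfOfLocal K γ h ∈ principalLevel K (1 : R) := by
  rw [mem_principalLevel_one_iff]; intro v; rw [localGL_gfOfLocal]; exact h v

/-- An integral element that is trivial at every prime dividing `n` lies in `principalLevel n`. -/
theorem mem_principalLevel_of_local {n : R} {g : Gf R K} (hg : g ∈ principalLevel K (1 : R))
    (h : ∀ v : HeightOneSpectrum R, v.intValuation n < 1 → localGL K v g = 1) :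
    g ∈ principalLevel K n := by
  have key : ∀ g : Gf R K, (∀ v, IsIntLocal (localGL K v g)) →
      (∀ v : HeightOneSpectrum R, v.intValuation n < 1 → localGL K v g = 1) →
      MatMemMul n ((g : Matrix (Fin 2) (Fin 2) (FiniteAdeleRing R K)) - 1) := by
    intro g hint hone i j v
    rw [Matrix.sub_apply, coe_apply_sub, ← localGL_apply]
    have h1 : ((1 : Matrix (Fin 2) (Fin 2) (FiniteAdeleRing R K)) i j) v =
        (1 : Matrix (Fin 2) (Fin 2) (v.adicCompletion K)) i j := by
      rw [Matrix.one_apply, Matrix.one_apply]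
      split
      · exact coe_apply_one v
      · exact coe_apply_zero v
    rw [h1]
    by_cases hv : v.intValuation n < 1
    · rw [hone v hv, Units.val_one, sub_self, map_zero]; exact zero_le
    · rw [show v.intValuation n = 1 from le_antisymm (intValuation_le_one v n) (not_lt.mp hv)]
      exact le_trans (Valuation.map_sub _ _ _) (max_le (hint v i j).1 (isIntLocal_one i j).1)
  rw [mem_principalLevel_one_iff] at hg
  exact ⟨key g hg h, key g⁻¹ (fun v => by rw [map_inv]; exact (hg v).inv)
    fun v hv => by rw [map_inv, h v hv, inv_one]⟩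

section Triangular

variable {F : Type*} [Field F]

/-- The lower unipotent matrix. -/
def lowerUnip (t : F) : GL (Fin 2) F :=
  ⟨!![1, 0; t, 1], !![1, 0; -t, 1], by ext i j; fin_cases i <;> fin_cases j <;> simp,
    by ext i j; fin_cases i <;> fin_cases j <;> simp⟩

/-- The matrix with rows `(0, 1)` and `(1, t)`. -/
def swapUnip (t : F) : GL (Fin 2) F :=
  ⟨!![0, 1; 1, t], !![-t, 1; 1, 0], by ext i j; fin_cases i <;> fin_cases j <;> simp,
    by ext i j; fin_cases i <;> fin_cases j <;> simp⟩

end Triangular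

theorem isIntLocal_lowerUnip {v : HeightOneSpectrum R} {t : v.adicCompletion K}
    (ht : Valued.v t ≤ 1) : IsIntLocal (lowerUnip t) := by
  intro i j
  fin_cases i <;> fin_cases j <;> simp [lowerUnip, ht]

theorem isIntLocal_swapUnip {v : HeightOneSpectrum R} {t : v.adicCompletion K}
    (ht : Valued.v t ≤ 1) : IsIntLocal (swapUnip t) := by
  intro i j
  fin_cases i <;> fin_cases j <;> simp [swapUnip, ht]

/-- The Iwasawa decomposition of `GL₂(𝔸_f)`. -/
theorem exists_iwasawa (g : Gf R K) :
    ∃ (t : FiniteAdeleRing R K) (a b : (FiniteAdeleRing R K)ˣ) (κ : Gf R K),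
      κ ∈ principalLevel K (1 : R) ∧ g = unipotent t * diag2 a b * κ := by
  classical
  have hloc : ∀ v : HeightOneSpectrum R, ∃ κ : GL (Fin 2) (v.adicCompletion K), IsIntLocal κ ∧
      (localGL K v g * κ⁻¹).1 1 0 = 0 := by
    intro v
    set G := (localGL K v g : Matrix (Fin 2) (Fin 2) (v.adicCompletion K)) with hG
    have hne : ¬(G 1 0 = 0 ∧ G 1 1 = 0) := by
      rintro ⟨h0, h1⟩
      have := (Matrix.GeneralLinearGroup.det (localGL K v g)).ne_zero
      apply this
      rw [Matrix.GeneralLinearGroup.val_det_apply, ← hG, Matrix.det_fin_two, h0, h1]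
      ring
    by_cases h : Valued.v (G 1 0) ≤ Valued.v (G 1 1)
    · have h11 : G 1 1 ≠ 0 := fun h0 => hne ⟨by
        rw [h0, map_zero] at h; exact (map_eq_zero _).mp (le_antisymm h zero_le), h0⟩
      refine ⟨lowerUnip (G 1 0 / G 1 1), isIntLocal_lowerUnip ?_, ?_⟩
      · rw [map_div₀]; exact div_le_one_of_le₀ h zero_le
      · rw [Units.val_mul, ← hG]
        simp only [lowerUnip, Units.inv_mk, Matrix.mul_apply, Fin.sum_univ_two]
        simp only [Matrix.cons_val', Matrix.cons_val_zero, Matrix.cons_val_one, Matrix.empty_val',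
          Matrix.cons_val_fin_one, Matrix.of_apply]
        field_simp
        ring
    · have h10 : G 1 0 ≠ 0 := fun h0 => h (by rw [h0, map_zero]; exact zero_le)
      refine ⟨swapUnip (G 1 1 / G 1 0), isIntLocal_swapUnip ?_, ?_⟩
      · rw [map_div₀]; exact div_le_one_of_le₀ (not_le.mp h).le zero_le
      · rw [Units.val_mul, ← hG]
        simp only [swapUnip, Units.inv_mk, Matrix.mul_apply, Fin.sum_univ_two]
        simp only [Matrix.cons_val', Matrix.cons_val_zero, Matrix.cons_val_one, Matrix.empty_val',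
          Matrix.cons_val_fin_one, Matrix.of_apply]
        field_simp
        ring
  choose κ hκ hκ0 using hloc
  set k := gfOfLocal K κ hκ
  obtain ⟨B, hB⟩ : ∃ B : Gf R K, B = g * k⁻¹ := ⟨_, rfl⟩
  have hB0 : (B : Matrix (Fin 2) (Fin 2) (FiniteAdeleRing R K)) 1 0 = 0 := by
    refine FiniteAdeleRing.ext K fun v => ?_
    rw [← localGL_apply, hB, map_mul, map_inv, localGL_gfOfLocal, coe_apply_zero]
    exact hκ0 v
  have hdet : IsUnit ((B : Matrix (Fin 2) (Fin 2) (FiniteAdeleRing R K)) 0 0 *
      (B : Matrix (Fin 2) (Fin 2) (FiniteAdeleRing R K)) 1 1) := by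
    have := (Matrix.GeneralLinearGroup.det B).isUnit
    rwa [Matrix.GeneralLinearGroup.val_det_apply, Matrix.det_fin_two, hB0, mul_zero, sub_zero]
      at this
  obtain ⟨a, ha⟩ := isUnit_of_mul_isUnit_left hdet
  obtain ⟨b, hb⟩ := isUnit_of_mul_isUnit_right hdet
  refine ⟨(B : Matrix (Fin 2) (Fin 2) (FiniteAdeleRing R K)) 0 1 * (b⁻¹ : (FiniteAdeleRing R K)ˣ),
    a, b, k, gfOfLocal_mem κ hκ, ?_⟩
  have hg : g = B * k := by rw [hB, inv_mul_cancel_right]
  rw [hg]
  congr 1
  refine Units.ext ?_
  rw [Units.val_mul, coe_unipotent, coe_diag2]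
  ext i j : 2
  fin_cases i <;> fin_cases j <;> simp [Matrix.mul_apply, ha, hb, hB0, mul_assoc]
  rw [← hb]; simp [mul_assoc]

end Fermat.Agent.LT.Aleph

end
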