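import Fermat.Agent.LT.Aleph.Product
import Fermat.Agent.LT.Aleph.HeckeCoset
import Fermat.Agent.LT.Descent.KirillovModel
import Mathlib.RingTheory.Ideal.Norm.RelNorm
import Mathlib.RingTheory.Norm.Transitivity

/-!
# A character of the class group as a function of the ideals

An ideal prime to `n` is sent to the class of any idele with that ideal which is congruent to one
at the places dividing `n`; characters trivial on the real vector group become multiplicative
functions of ideals, trivial on the ray modulo `n`.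
-/

set_option autoImplicit false
set_option linter.unusedSectionVars false

noncomputable section

namespace Fermat.Agent.LT.Aleph

open IsDedekindDomain NumberField WithZero
open Fermat.Agent.LT.Adelic Fermat.Agent.LT.Descent
open scoped nonZeroDivisors

variable {K : Type} [Field K] [NumberField K] {ι : Type} [Fintype ι]

local notation "Af" => FiniteAdeleRing (𝓞 K) K

/-- `a` has ideal `I` and is congruent to one at the places dividing `n`. -/
structure IsRayRep (n : 𝓞 K) (I : Ideal (𝓞 K)) (a : Afˣ) : Prop where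
  ideal_eq : ideleIdeal a = (I : FractionalIdeal (𝓞 K)⁰ K)
  congr : ∀ v : HeightOneSpectrum (𝓞 K), n ∈ v.asIdeal →
    Valued.v ((a : Af) v - 1) ≤ v.intValuation n

theorem intValuation_eq_one_of_notMem {v : HeightOneSpectrum (𝓞 K)} {n : 𝓞 K}
    (h : n ∉ v.asIdeal) : v.intValuation n = 1 := by
  refine le_antisymm (v.intValuation_le_one n) (not_lt.mp fun hlt => h ?_)
  rwa [v.intValuation_lt_one_iff_mem] at hlt

theorem valued_eq_one_of_sub_one {v : HeightOneSpectrum (𝓞 K)} {n : 𝓞 K} (hn : n ∈ v.asIdeal)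
    {z : v.adicCompletion K} (h : Valued.v (z - 1) ≤ v.intValuation n) : Valued.v z = 1 := by
  have h1 : Valued.v (z - 1) < 1 := lt_of_le_of_lt h ((v.intValuation_lt_one_iff_mem n).mpr hn)
  have h2 := Valuation.map_one_add_of_lt Valued.v h1
  rwa [add_sub_cancel] at h2

theorem isRayRep_one (n : 𝓞 K) : IsRayRep n 1 (1 : Afˣ) := by
  refine ⟨?_, fun v _ => ?_⟩
  · rw [ideleIdeal_eq_one fun v => by rw [Units.val_one, coe_apply_one, map_one],
      Ideal.one_eq_top, FractionalIdeal.coeIdeal_top]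
  · rw [Units.val_one, coe_apply_one, sub_self, map_zero]
    exact zero_le

theorem IsRayRep.mul {n : 𝓞 K} {I J : Ideal (𝓞 K)} {a b : Afˣ} (ha : IsRayRep n I a)
    (hb : IsRayRep n J b) : IsRayRep n (I * J) (a * b) := by
  refine ⟨by rw [ideleIdeal_mul, ha.ideal_eq, hb.ideal_eq, FractionalIdeal.coeIdeal_mul],
    fun v hv => ?_⟩
  rw [Units.val_mul, coe_apply_mul, show (a : Af) v * (b : Af) v - 1 =
    ((a : Af) v - 1) * (b : Af) v + ((b : Af) v - 1) by ring]
  refine (Valuation.map_add _ _ _).trans (max_le ?_ (hb.congr v hv))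
  rw [map_mul, valued_eq_one_of_sub_one hv (hb.congr v hv), mul_one]
  exact ha.congr v hv

theorem IsRayRep.ordAt_eq {n : 𝓞 K} {I : Ideal (𝓞 K)} {a b : Afˣ} (ha : IsRayRep n I a)
    (hb : IsRayRep n I b) (v : HeightOneSpectrum (𝓞 K)) : ordAt a v = ordAt b v := by
  rw [← count_ideleIdeal, ← count_ideleIdeal, ha.ideal_eq, hb.ideal_eq]

theorem IsRayRep.div_mem_rayUnits {n : 𝓞 K} {I : Ideal (𝓞 K)} {a b : Afˣ} (ha : IsRayRep n I a)
    (hb : IsRayRep n I b) : b * a⁻¹ ∈ rayUnits n := by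
  have hai : ∀ v, (a : Af) v * ((a⁻¹ : Afˣ) : Af) v = 1 := fun v => by
    rw [← coe_apply_mul, Units.mul_inv, coe_apply_one]
  have hval : ∀ v, Valued.v (((b * a⁻¹ : Afˣ) : Af) v) = 1 := fun v => by
    have h1 : Valued.v ((a : Af) v) * Valued.v (((a⁻¹ : Afˣ) : Af) v) = 1 := by
      rw [← map_mul, hai, map_one]
    rw [Units.val_mul, coe_apply_mul, map_mul, valued_eq_exp_ordAt b v, ← ha.ordAt_eq hb v,
      ← valued_eq_exp_ordAt a v, h1]
  refine ⟨hval, fun v => ?_⟩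
  show Valued.v (((b * a⁻¹ : Afˣ) : Af) v - (1 : Af) v) ≤ v.intValuation n
  rw [coe_apply_one]
  by_cases hn : n ∈ v.asIdeal
  · have hinv : Valued.v (((a⁻¹ : Afˣ) : Af) v) = 1 := by
      have h1 : Valued.v ((a : Af) v) * Valued.v (((a⁻¹ : Afˣ) : Af) v) = 1 := by
        rw [← map_mul, hai, map_one]
      rwa [valued_eq_one_of_sub_one hn (ha.congr v hn), one_mul] at h1
    rw [Units.val_mul, coe_apply_mul, show (b : Af) v * ((a⁻¹ : Afˣ) : Af) v - 1 =
      (((b : Af) v - 1) - ((a : Af) v - 1)) * ((a⁻¹ : Afˣ) : Af) v by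
        linear_combination hai v, map_mul, hinv, mul_one]
    exact (Valuation.map_sub _ _ _).trans (max_le (hb.congr v hn) (ha.congr v hn))
  · rw [intValuation_eq_one_of_notMem hn]
    refine (Valuation.map_sub _ _ _).trans (max_le (hval v).le ?_)
    rw [map_one]

theorem IsRayRep.classMk_eq (Φ : Frame K ι) {n : 𝓞 K} {I : Ideal (𝓞 K)} {a b : Afˣ}
    (ha : IsRayRep n I a) (hb : IsRayRep n I b) (x : ι → ℝ) :
    classMk Φ n b x = classMk Φ n a x := by
  have e : b = b * a⁻¹ * a := (inv_mul_cancel_right b a).symm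
  rw [e, classMk_rayUnit (ha.div_mem_rayUnits hb)]

theorem ideleIdeal_unifAt {v : HeightOneSpectrum (𝓞 K)} {ϖ : Afˣ} (h : IsUniformiserAt v ϖ) :
    ideleIdeal ϖ = (v.asIdeal : FractionalIdeal (𝓞 K)⁰ K) := by
  rw [ideleIdeal, finprod_eq_single _ v fun w hw => ?_]
  · rw [ordAt, h.1, log_exp, neg_neg, zpow_one]
  · rw [ordAt, h.2 w hw, map_one, log_one, neg_zero, zpow_zero]

theorem isRayRep_uniformiser {n : 𝓞 K} {v : HeightOneSpectrum (𝓞 K)} (hv : n ∉ v.asIdeal)
    {ϖ : Afˣ} (h : IsUniformiserAt v ϖ) : IsRayRep n v.asIdeal ϖ := by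
  refine ⟨ideleIdeal_unifAt h, fun w hw => ?_⟩
  rw [h.2 w fun e => hv (e ▸ hw), sub_self, map_zero]
  exact zero_le

theorem isRayRep_principal {n : 𝓞 K} {x : 𝓞 K} (hx : x ≠ 0)
    (h : x - 1 ∈ Ideal.span ({n} : Set (𝓞 K))) :
    IsRayRep n (Ideal.span {x}) (principalIdele (Units.mk0 (x : K) (by simpa using hx)) : Afˣ) := by
  refine ⟨by rw [ideleIdeal_principal, FractionalIdeal.coeIdeal_span_singleton]; rfl,
    fun v _ => ?_⟩
  obtain ⟨c, hc⟩ := Ideal.mem_span_singleton'.mp h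
  have e : ((principalIdele (Units.mk0 (x : K) (by simpa using hx)) : Afˣ) : Af) - 1 =
      algebraMap (𝓞 K) Af (c * n) := by
    rw [hc, map_sub, map_one]
    rfl
  have e' : ((principalIdele (Units.mk0 (x : K) (by simpa using hx)) : Afˣ) : Af) v - 1 =
      algebraMap (𝓞 K) Af (c * n) v := by
    rw [← e]; rfl
  rw [e', map_mul, coe_apply_mul, map_mul]
  refine (mul_le_mul' (valued_algebraMap_int c v).le (valued_algebraMap_int n v).le).trans ?_
  exact (mul_le_mul' (v.intValuation_le_one c) le_rfl).trans (one_mul _).le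

variable (Φ : Frame K ι) {n : 𝓞 K} (θ : RayChar Φ n)

/-- The character at the class of an idele. -/
def rayVal (a : Afˣ) : ℂ := θ ((classMk Φ n a 0 : ClassC Φ n) : ClassC Φ n ⧸ (vecIota Φ n).range)

theorem rayVal_mul (a b : Afˣ) : rayVal Φ θ (a * b) = rayVal Φ θ a * rayVal Φ θ b := by
  rw [rayVal, show (0 : ι → ℝ) = 0 + 0 from (add_zero 0).symm, classMk_add,
    QuotientAddGroup.mk_add, AddChar.map_add_eq_mul]
  simp only [rayVal]

theorem rayVal_one : rayVal Φ θ (1 : Afˣ) = 1 := by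
  rw [rayVal, ← classIota_apply, map_zero, QuotientAddGroup.mk_zero, AddChar.map_zero_eq_one]

theorem rayVal_ne_zero (a : Afˣ) : rayVal Φ θ a ≠ 0 := by
  intro h
  have := rayVal_mul Φ θ a a⁻¹
  rw [mul_inv_cancel, rayVal_one, h, zero_mul] at this
  exact one_ne_zero this

theorem rayVal_principal (α : Kˣ) : rayVal Φ θ (principalIdele α : Afˣ) = 1 := by
  have hmem : (classMk Φ n (principalIdele α : Afˣ) 0 : ClassC Φ n) ∈ (vecIota Φ n).range := by
    rw [range_vecIota]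
    refine ⟨fun i => -Real.log ‖Φ.emb i (α : K)‖, ?_⟩
    rw [classIota_apply, ← classMk_principal α 1 fun i => -Real.log ‖Φ.emb i (α : K)‖, mul_one]
    congr 1
    funext i
    simp
  rw [rayVal, (QuotientAddGroup.eq_zero_iff _).mpr hmem, AddChar.map_zero_eq_one]

open Classical in
/-- The character as a function of ideals. -/
def rayEta (I : Ideal (𝓞 K)) : ℂ :=
  if h : ∃ a, IsRayRep n I a then rayVal Φ θ h.choose else 0

theorem rayEta_eq {I : Ideal (𝓞 K)} {a : Afˣ} (h : IsRayRep n I a) :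
    rayEta Φ θ I = rayVal Φ θ a := by
  classical
  rw [rayEta, dif_pos ⟨a, h⟩, rayVal, rayVal,
    h.classMk_eq Φ (Exists.choose_spec (⟨a, h⟩ : ∃ b, IsRayRep n I b))]

theorem notMem_of_isCoprime {I : Ideal (𝓞 K)} (hI : IsCoprime I (Ideal.span ({n} : Set (𝓞 K))))
    {v : HeightOneSpectrum (𝓞 K)} (hv : I ≤ v.asIdeal) : n ∉ v.asIdeal := fun hn => by
  rw [Ideal.isCoprime_iff_sup_eq] at hI
  exact v.isPrime.ne_top (top_le_iff.mp
    (hI ▸ sup_le hv ((Ideal.span_singleton_le_iff_mem _).mpr hn)))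

theorem exists_isRayRep {I : Ideal (𝓞 K)} (hI : IsCoprime I (Ideal.span ({n} : Set (𝓞 K))))
    (hI0 : I ≠ 0) : ∃ a, IsRayRep n I a := by
  induction I using UniqueFactorizationMonoid.induction_on_prime with
  | h₁ => exact absurd rfl hI0
  | h₂ x hx =>
    rw [Ideal.isUnit_iff] at hx
    subst hx
    exact ⟨1, Ideal.one_eq_top (R := 𝓞 K) ▸ isRayRep_one n⟩
  | h₃ J P hJ0 hP ih =>
    let v : HeightOneSpectrum (𝓞 K) := ⟨P, Ideal.isPrime_of_prime hP, hP.ne_zero⟩
    obtain ⟨a, ha⟩ := ih hI.of_mul_left_right hJ0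
    obtain ⟨ϖ, hϖ⟩ := exists_uniformiser v
    exact ⟨ϖ * a, (isRayRep_uniformiser
      (notMem_of_isCoprime hI.of_mul_left_left (v := v) le_rfl) hϖ).mul ha⟩

theorem rayEta_mul {I J : Ideal (𝓞 K)} (hI : IsCoprime I (Ideal.span ({n} : Set (𝓞 K))))
    (hI0 : I ≠ 0) (hJ : IsCoprime J (Ideal.span ({n} : Set (𝓞 K)))) (hJ0 : J ≠ 0) :
    rayEta Φ θ (I * J) = rayEta Φ θ I * rayEta Φ θ J := by
  obtain ⟨a, ha⟩ := exists_isRayRep hI hI0
  obtain ⟨b, hb⟩ := exists_isRayRep hJ hJ0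
  rw [rayEta_eq Φ θ (ha.mul hb), rayEta_eq Φ θ ha, rayEta_eq Φ θ hb, rayVal_mul]

theorem rayEta_ray {x : 𝓞 K} (hx : x ≠ 0) (h : x - 1 ∈ Ideal.span ({n} : Set (𝓞 K))) :
    rayEta Φ θ (Ideal.span {x}) = 1 := by
  rw [rayEta_eq Φ θ (isRayRep_principal hx h), rayVal_principal]

theorem rayEta_pow {v : HeightOneSpectrum (𝓞 K)} (hv : n ∉ v.asIdeal) {ϖ : Afˣ}
    (h : IsUniformiserAt v ϖ) (f : ℕ) : rayEta Φ θ (v.asIdeal ^ f) = rayVal Φ θ ϖ ^ f := by
  induction f with
  | zero => rw [pow_zero, pow_zero, rayEta_eq Φ θ (isRayRep_one n), rayVal_one]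
  | succ f ih =>
    have hc : IsCoprime v.asIdeal (Ideal.span ({n} : Set (𝓞 K))) := by
      rw [Ideal.isCoprime_iff_sup_eq]
      exact v.isMaximal.1.2 _ (SetLike.lt_iff_le_and_exists.mpr
        ⟨le_sup_left, n, le_sup_right (a := v.asIdeal) (Ideal.mem_span_singleton_self n), hv⟩)
    rw [pow_succ, pow_succ, rayEta_mul Φ θ hc.pow_left (pow_ne_zero _ v.ne_bot) hc v.ne_bot, ih,
      rayEta_eq Φ θ (isRayRep_uniformiser hv h)]

theorem rayEta_bot : rayEta Φ θ (0 : Ideal (𝓞 K)) = 0 := by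
  classical
  rw [rayEta, dif_neg]
  rintro ⟨a, ha⟩
  refine ideleIdeal_ne_zero a (ha.ideal_eq.trans ?_)
  rw [Ideal.zero_eq_bot, FractionalIdeal.coeIdeal_bot]

/-- `rayEta` is multiplicative on all ideals prime to `n`. -/
theorem rayEta_mul' {I J : Ideal (𝓞 K)} (hI : IsCoprime I (Ideal.span ({n} : Set (𝓞 K))))
    (hJ : IsCoprime J (Ideal.span ({n} : Set (𝓞 K)))) :
    rayEta Φ θ (I * J) = rayEta Φ θ I * rayEta Φ θ J := by
  by_cases hI0 : I = 0
  · rw [hI0, zero_mul, rayEta_bot, zero_mul]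
  by_cases hJ0 : J = 0
  · rw [hJ0, mul_zero, rayEta_bot, mul_zero]
  exact rayEta_mul Φ θ hI hI0 hJ hJ0

theorem charTrace_nsmul {a : Afˣ} (f : ℕ) :
    charTrace Φ n θ (f • classMk Φ n a 0) = rayVal Φ θ a ^ f + (rayVal Φ θ a ^ f)⁻¹ := by
  rw [charTrace, AddChar.map_neg_eq_inv, QuotientAddGroup.mk_nsmul, AddChar.map_nsmul_eq_pow]
  rfl

section Norm

variable {K' : Type} [Field K'] [NumberField K'] [Algebra K K']

theorem intNorm_sub_one_mem {M : ℕ} (hM : M ≠ 0) {x : 𝓞 K'}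
    (h : x - 1 ∈ Ideal.span {(M : 𝓞 K')}) :
    Algebra.intNorm (𝓞 K) (𝓞 K') x - 1 ∈ Ideal.span {(M : 𝓞 K)} := by
  classical
  obtain ⟨y, hy⟩ := Ideal.mem_span_singleton'.mp h
  have hMK : (M : K) ≠ 0 := Nat.cast_ne_zero.mpr hM
  set E := AlgebraicClosure K
  have hint : IsIntegral ℤ (algebraMap K E
      (((Algebra.intNorm (𝓞 K) (𝓞 K') x : 𝓞 K) : K) - 1) / (M : E)) := by
    have key : ∀ s : Finset (K' →ₐ[K] E), ∃ z : E, IsIntegral ℤ z ∧
        ∏ φ ∈ s, φ (x : K') = 1 + (M : E) * z := by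
      intro s
      induction s using Finset.induction_on with
      | empty => exact ⟨0, isIntegral_zero, by simp⟩
      | insert φ s hφ ih =>
        obtain ⟨z, hz, e⟩ := ih
        have hy' : IsIntegral ℤ (φ (y : K')) :=
          (RingOfIntegers.isIntegral_coe y).map (φ.restrictScalars ℤ)
        refine ⟨φ (y : K') + z + (M : E) * φ (y : K') * z,
          (hy'.add hz).add (((isIntegral_natCast M).mul hy').mul hz), ?_⟩
        have hx : (x : K') = (y : K') * (M : K') + 1 := by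
          have h1 := congrArg (fun t : 𝓞 K' => (t : K')) hy
          simp only [map_mul, map_natCast, map_sub, map_one] at h1
          linear_combination -h1
        rw [Finset.prod_insert hφ, e, hx, map_add, map_mul, map_natCast, map_one]
        ring
    obtain ⟨z, hz, e⟩ := key Finset.univ
    rw [← Algebra.norm_eq_prod_embeddings K E (x : K')] at e
    have hnorm : ((Algebra.intNorm (𝓞 K) (𝓞 K') x : 𝓞 K) : K) = Algebra.norm K (x : K') :=
      Algebra.algebraMap_intNorm (A := 𝓞 K) (K := K) (L := K') x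
    rw [hnorm, map_sub, map_one, e, add_sub_cancel_left,
      mul_div_cancel_left₀ z (Nat.cast_ne_zero.mpr hM)]
    exact hz
  rw [← map_natCast (algebraMap K E), ← map_div₀] at hint
  obtain ⟨q, hq⟩ : ∃ q : 𝓞 K, (q : K) =
      (((Algebra.intNorm (𝓞 K) (𝓞 K') x : 𝓞 K) : K) - 1) / (M : K) :=
    ⟨⟨_, (isIntegral_algebraMap_iff (algebraMap K E).injective).1 hint⟩, rfl⟩
  refine Ideal.mem_span_singleton'.mpr ⟨q, RingOfIntegers.ext ?_⟩
  simp only [map_mul, map_natCast, map_sub, map_one]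
  exact (congrArg (· * (M : K)) hq).trans (div_mul_cancel₀ _ hMK)

variable {M : ℕ} (θ : RayChar Φ (M : 𝓞 K))

/-- The character composed with the norm. -/
def rayEtaNorm (I : Ideal (𝓞 K')) : ℂ := rayEta Φ θ (Ideal.relNorm (𝓞 K) I)

theorem isCoprime_relNorm {I : Ideal (𝓞 K')} (h : IsCoprime I (Ideal.span {(M : 𝓞 K')})) :
    IsCoprime (Ideal.relNorm (𝓞 K) I) (Ideal.span {(M : 𝓞 K)}) := by
  obtain ⟨a, ha, b, hb, hab⟩ := Ideal.isCoprime_iff_exists.mp h
  by_cases hM : M = 0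
  · subst hM
    rw [Nat.cast_zero, Ideal.span_singleton_eq_bot.mpr rfl] at hb
    rw [Submodule.mem_bot] at hb
    rw [hb, add_zero] at hab
    rw [(Ideal.eq_top_iff_one I).mpr (hab ▸ ha), Ideal.relNorm_top, ← Ideal.one_eq_top]
    exact isCoprime_one_left
  have ha1 : a - 1 ∈ Ideal.span {(M : 𝓞 K')} := by
    rw [show a - 1 = -b by linear_combination hab]
    exact neg_mem hb
  refine Ideal.isCoprime_iff_exists.mpr ⟨Algebra.intNorm (𝓞 K) (𝓞 K') a, ?_,
    1 - Algebra.intNorm (𝓞 K) (𝓞 K') a, ?_, add_sub_cancel _ _⟩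
  · refine Ideal.relNorm_mono (𝓞 K) ((Ideal.span_singleton_le_iff_mem I).mpr ha) ?_
    rw [Ideal.relNorm_singleton]
    exact Ideal.mem_span_singleton_self _
  · rw [← neg_sub]
    exact neg_mem (intNorm_sub_one_mem hM ha1)

theorem rayEtaNorm_ray (hM : M ≠ 0) {x : 𝓞 K'} (hx : x ≠ 0)
    (h : x - 1 ∈ Ideal.span {(M : 𝓞 K')}) : rayEtaNorm Φ θ (Ideal.span {x}) = 1 := by
  rw [rayEtaNorm, Ideal.relNorm_singleton,
    rayEta_ray Φ θ ((Algebra.intNorm_ne_zero).mpr hx) (intNorm_sub_one_mem hM h)]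

theorem rayEtaNorm_mul {I J : Ideal (𝓞 K')} (hI : IsCoprime I (Ideal.span {(M : 𝓞 K')}))
    (hJ : IsCoprime J (Ideal.span {(M : 𝓞 K')})) :
    rayEtaNorm Φ θ (I * J) = rayEtaNorm Φ θ I * rayEtaNorm Φ θ J := by
  rw [rayEtaNorm, map_mul]
  exact rayEta_mul' Φ θ (isCoprime_relNorm hI) (isCoprime_relNorm hJ)

theorem exists_relNorm_eq {v : HeightOneSpectrum (𝓞 K)} {w : HeightOneSpectrum (𝓞 K')}
    (hw : ∀ r : 𝓞 K, algebraMap (𝓞 K) (𝓞 K') r ∈ w.asIdeal ↔ r ∈ v.asIdeal) {f : ℕ}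
    (hf : Ideal.absNorm w.asIdeal = Ideal.absNorm v.asIdeal ^ f) :
    Ideal.relNorm (𝓞 K) w.asIdeal = v.asIdeal ^ f := by
  have : w.asIdeal.LiesOver v.asIdeal := ⟨Ideal.ext fun r => (hw r).symm⟩
  obtain ⟨s, hs⟩ := Ideal.exists_relNorm_eq_pow_of_isPrime w.asIdeal v.asIdeal
  have h1 := congrArg Ideal.absNorm hs
  rw [Ideal.absNorm_relNorm, map_pow, hf] at h1
  have h2 : 1 < Ideal.absNorm v.asIdeal := by
    refine lt_of_le_of_ne (Nat.one_le_iff_ne_zero.mpr fun h0 => v.ne_bot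
      (Ideal.absNorm_eq_zero_iff.mp h0)) (Ne.symm fun h0 => v.isPrime.ne_top ?_)
    exact Ideal.absNorm_eq_one_iff.mp h0
  rw [hs, Nat.pow_right_injective h2 h1]

end Norm

end Fermat.Agent.LT.Aleph
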