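import Fermat.Agent.LT.Aleph.Mean
import Fermat.Agent.LT.Adelic.Measure
import Fermat.Agent.LT.Boundary.Defs
import Fermat.Agent.LT.Reduction.Frame
import Fermat.Agent.LT.Aleph.LocalAdele
import Mathlib.Algebra.Module.ZLattice.Basic

/-!
# Constant terms of bounded measurable automorphic functions

`constTerm φ y x` is the mean over the horizontal coordinates at heights `exp (x i)`.  It exists
(the function is periodic under a lattice `emb (m 𝓞)`), is invariant under adelic unipotents and
transforms under `diag (α, 1)`.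
-/

set_option autoImplicit false

noncomputable section

namespace Fermat.Agent.LT.Aleph

open MeasureTheory Metric Filter Set NumberField IsDedekindDomain Matrix
open Fermat.Agent.LT Fermat.Agent.LT.Adelic

variable {K : Type*} [Field K] [NumberField K] {ι : Type*} {Φ : Frame K ι} {U : Subgroup (GfK K)}

/-- The point with horizontal coordinates `z` and heights `exp (x i)`. -/
def horo (x : ι → ℝ) (z : ι → ℂ) : ι → HSpace :=
  fun i => ⟨z i, Real.exp (x i), Real.exp_pos _⟩

theorem continuous_horo (x : ι → ℝ) : Continuous fun z : ι → ℂ => horo x z :=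
  continuous_pi fun i => HSpace.continuous_iff_coords.mpr
    (((continuous_apply i).prodMk continuous_const :
      Continuous fun z : ι → ℂ => (z i, Real.exp (x i))))

/-- The horizontal slice. -/
def slice (φ : Space Φ U → ℂ) (y : Yf U) (x : ι → ℝ) (z : ι → ℂ) : ℂ :=
  φ (Space.mk (horo x z) y)

/-- The standing hypotheses on the functions whose constant term is taken. -/
structure IsNice (φ : Space Φ U → ℂ) : Prop where
  invariant : IsInvariant φ
  measurable : ∀ y : Yf U, Measurable fun τ : ι → HSpace => φ (Space.mk τ y)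
  bounded : ∃ C : ℝ, ∀ x, ‖φ x‖ ≤ C

omit [NumberField K] in
theorem HSpace.unipotent_smul (t : ℂ) (p : HSpace) :
    unipotent t • p = ⟨p.z + t, p.r, p.r_pos⟩ := by
  have h : ((HSpace.denSq (unipotent t) p : ℝ) : ℂ) = 1 := by simp [HSpace.denSq]
  apply HSpace.ext
  · rw [HSpace.smul_z, h]; simp
  · rw [HSpace.smul_r, HSpace.absDet]; simp [HSpace.denSq, Matrix.det_fin_two]

omit [NumberField K] in
theorem HSpace.diag_one_smul (a : ℂˣ) (p : HSpace) :
    diag2 a 1 • p = ⟨a * p.z, ‖(a : ℂ)‖ * p.r, mul_pos (norm_pos_iff.mpr a.ne_zero) p.r_pos⟩ := by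
  have h : ((HSpace.denSq (diag2 a 1) p : ℝ) : ℂ) = 1 := by simp [HSpace.denSq]
  apply HSpace.ext
  · rw [HSpace.smul_z, h]; simp
  · rw [HSpace.smul_r, HSpace.absDet]; simp [HSpace.denSq, Matrix.det_fin_two]

theorem toGf_unipotent (a : K) :
    toGf K (unipotent a) = unipotent (algebraMap K (FiniteAdeleRing (𝓞 K) K) a) := by
  refine Units.ext (Matrix.ext fun i j => ?_)
  simp only [toGf]
  fin_cases i <;> fin_cases j <;> simp

omit [NumberField K] in
theorem toInf_unipotent (a : K) (i : ι) : Φ.toInf i (unipotent a) = unipotent (Φ.emb i a) := by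
  refine Units.ext (Matrix.ext fun p q => ?_)
  simp only [Frame.toInf]
  fin_cases p <;> fin_cases q <;> simp

theorem toGf_diag (a : Kˣ) :
    toGf K (diag2 a 1) = diag2 (FiniteAdeleRing.unitEmbedding (𝓞 K) K a) 1 := by
  refine Units.ext (Matrix.ext fun i j => ?_)
  simp only [toGf]
  fin_cases i <;> fin_cases j <;> simp

omit [NumberField K] in
theorem toInf_diag (a : Kˣ) (i : ι) :
    Φ.toInf i (diag2 a 1) = diag2 (Units.map (Φ.emb i : K →* ℂ) a) 1 := by
  refine Units.ext (Matrix.ext fun p q => ?_)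
  simp only [Frame.toInf]
  fin_cases p <;> fin_cases q <;> simp

theorem slice_add_emb {φ : Space Φ U → ℂ} (hφ : IsInvariant φ) (a : K) (y : Yf U) (x : ι → ℝ)
    (z : ι → ℂ) :
    slice φ (unipotent (algebraMap K (FiniteAdeleRing (𝓞 K) K) a) • y) x
        (fun i => Φ.emb i a + z i) = slice φ y x z := by
  rw [slice, slice, ← hφ (unipotent a) (Space.mk (horo x z) y), Space.smul_mk, toGf_unipotent]
  congr 2
  funext i
  rw [toInf_unipotent, HSpace.unipotent_smul]
  exact HSpace.ext (by simp [horo, add_comm]) rfl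

theorem slice_mul_emb {φ : Space Φ U → ℂ} (hφ : IsInvariant φ) (a : Kˣ) (y : Yf U) (x : ι → ℝ)
    (z : ι → ℂ) :
    slice φ (diag2 (FiniteAdeleRing.unitEmbedding (𝓞 K) K a) 1 • y)
        (fun i => x i + Real.log ‖Φ.emb i (a : K)‖) (fun i => Φ.emb i (a : K) * z i) =
      slice φ y x z := by
  rw [slice, slice, ← hφ (diag2 a 1) (Space.mk (horo x z) y), Space.smul_mk, toGf_diag]
  congr 2
  funext i
  rw [toInf_diag, HSpace.diag_one_smul]
  have hpos : 0 < ‖Φ.emb i (a : K)‖ := norm_pos_iff.mpr (by simp)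
  exact HSpace.ext rfl (by simp [horo, Real.exp_add, Real.exp_log hpos, mul_comm])

/-- Small adelic unipotents fix a finite coordinate. -/
theorem exists_unipotent_fixes (hU : IsLevel U) (y : Yf U) :
    ∃ m : 𝓞 K, m ≠ 0 ∧ ∀ t : FiniteAdeleRing (𝓞 K) K, MemMul m t → unipotent t • y = y := by
  obtain ⟨n, hn, hnU, -⟩ := hU
  induction y using QuotientGroup.induction_on with
  | _ g =>
    obtain ⟨m, hm, hconj⟩ := exists_conj_le g⁻¹ hn
    refine ⟨m, hm, fun t ht => ?_⟩
    have key : ∀ s : FiniteAdeleRing (𝓞 K) K, MemMul m s → MatMemMul m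
        (((unipotent s : GfK K) : Matrix (Fin 2) (Fin 2) (FiniteAdeleRing (𝓞 K) K)) - 1) := by
      intro s hs i j
      fin_cases i <;> fin_cases j <;> simp [memMul_zero_right, hs]
    have hmem : (unipotent t : GfK K) ∈ principalLevel K m := by
      refine ⟨key t ht, ?_⟩
      have e : (unipotent t : GfK K)⁻¹ = unipotent (-t) := Units.ext rfl
      rw [e]; exact key _ ht.neg
    symm
    refine QuotientGroup.eq.mpr (le_levelZ U (hnU ?_))
    have h := hconj _ hmem
    rw [inv_inv] at h
    simpa [smul_eq_mul, mul_assoc] using h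

variable [Fintype ι]

theorem measurable_slice {φ : Space Φ U → ℂ} (hφ : IsNice φ) (y : Yf U) (x : ι → ℝ) :
    Measurable (slice φ y x) :=
  (hφ.measurable y).comp (continuous_horo x).measurable

omit [Fintype ι] in
theorem norm_slice_le' {φ : Space Φ U → ℂ} {C : ℝ} (hC : ∀ p, ‖φ p‖ ≤ C) (y : Yf U) (x : ι → ℝ)
    (z : ι → ℂ) : ‖slice φ y x z‖ ≤ C := hC _

theorem exists_hasMean_slice (hU : IsLevel U) {φ : Space Φ U → ℂ} (hφ : IsNice φ) (y : Yf U)
    (x : ι → ℝ) : ∃ m, HasMean (slice φ y x) m := by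
  classical
  obtain ⟨C, hC⟩ := hφ.bounded
  obtain ⟨m, hm, hfix⟩ := exists_unipotent_fixes hU y
  have hF : Reduction.IsFrame Φ.emb :=
    ⟨Φ.bij, fun w => by obtain ⟨i, rfl⟩ := Φ.bij.2 w; exact Φ.complex i⟩
  let e : (ι → ℂ) ≃ₗ[ℝ] (ι → ℂ) := LinearEquiv.piCongrRight fun i =>
    ((LinearEquiv.smulOfUnit (Units.mk0 (Φ.emb i (m : K))
      (by simpa using hm)) : ℂ ≃ₗ[ℂ] ℂ)).restrictScalars ℝ
  let b := hF.basis.map e
  set L := (Submodule.span ℤ (Set.range b)).toAddSubgroup with hL
  have hfd : IsAddFundamentalDomain L (ZSpan.fundamentalDomain b) volume :=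
    ZSpan.isAddFundamentalDomain b _
  obtain ⟨M, hM⟩ := (ZSpan.fundamentalDomain_isBounded b).subset_closedBall 0
  have : Countable L := inferInstanceAs (Countable (Submodule.span ℤ (Set.range b)))
  refine ⟨_, hasMean_of_periodic hfd hM (ZSpan.measure_fundamentalDomain_ne_zero b)
    (measurable_slice hφ y x) (norm_slice_le' hC y x) fun l z => ?_⟩
  obtain ⟨v, hv, hve⟩ : ∃ v ∈ Submodule.span ℤ (Set.range hF.basis), e v = (l : ι → ℂ) := by
    have hr : Set.range b = (e.toLinearMap.restrictScalars ℤ) '' Set.range hF.basis := by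
      rw [← Set.range_comp]; rfl
    have hl : (l : ι → ℂ) ∈ Submodule.span ℤ (Set.range b) := l.2
    rw [hr, Submodule.span_image] at hl
    exact hl
  obtain ⟨a, rfl⟩ := hF.mem_span_basis.mp hv
  rw [← hve]
  have h := slice_add_emb hφ.invariant ((m * a : 𝓞 K) : K) y x z
  rw [show (algebraMap K (FiniteAdeleRing (𝓞 K) K)) ((m * a : 𝓞 K) : K) =
    algebraMap (𝓞 K) (FiniteAdeleRing (𝓞 K) K) (m * a) from
      (IsScalarTower.algebraMap_apply (𝓞 K) K (FiniteAdeleRing (𝓞 K) K) _).symm,
    hfix _ (by rw [map_mul]; exact (memMul_algebraMap m).mul_int (algebraMap_mem_intAdele a))] at h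
  rw [← h]
  congr 1
  funext i
  simp [e]
  rfl

open Classical in
/-- The constant term. -/
def constTerm (φ : Space Φ U → ℂ) (y : Yf U) (x : ι → ℝ) : ℂ :=
  if h : ∃ m, HasMean (slice φ y x) m then h.choose else 0

theorem hasMean_constTerm (hU : IsLevel U) {φ : Space Φ U → ℂ} (hφ : IsNice φ) (y : Yf U)
    (x : ι → ℝ) : HasMean (slice φ y x) (constTerm φ y x) := by
  have h := exists_hasMean_slice hU hφ y x
  rw [constTerm, dif_pos h]
  exact h.choose_spec

theorem norm_le_of_hasMean {f : (ι → ℂ) → ℂ} {m : ℂ} (h : HasMean f m) {C : ℝ}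
    (hC : ∀ z, ‖f z‖ ≤ C) : ‖m‖ ≤ C := by
  have hρ : ∀ i : ι, (0 : ℝ) < (fun _ => 1) i := fun _ => one_pos
  have hpos := volume_polydisc_toReal_pos (ι := ι) hρ
  refine le_of_mul_le_mul_left ?_ hpos
  have := le_of_tendsto (h _ hρ).norm (Eventually.of_forall fun R =>
    norm_setIntegral_le_of_norm_le_const (volume_polydisc_ne_top (ι := ι) _).lt_top
      fun z _ => hC (R • z))
  rw [norm_mul, Complex.norm_real, Real.norm_eq_abs, abs_of_pos hpos, Measure.real,
    mul_comm C] at this
  exact this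

theorem constTerm_unipotent (hU : IsLevel U) {φ : Space Φ U → ℂ} (hφ : IsNice φ)
    (t : FiniteAdeleRing (𝓞 K) K) (y : Yf U) (x : ι → ℝ) :
    constTerm φ (unipotent t • y) x = constTerm φ y x := by
  obtain ⟨C, hC⟩ := hφ.bounded
  obtain ⟨m, hm, hfix⟩ := exists_unipotent_fixes hU y
  obtain ⟨a, ha⟩ := exists_memMul_sub t hm
  have e : unipotent t • y = unipotent (algebraMap K (FiniteAdeleRing (𝓞 K) K) a) • y := by
    conv_rhs => rw [← hfix _ ha, ← mul_smul]
    congr 1
    refine Units.ext (Matrix.ext fun i j => ?_)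
    fin_cases i <;> fin_cases j <;> simp [Matrix.mul_apply]
  rw [e]
  refine (hasMean_constTerm hU hφ _ x).unique ?_
  have h := (hasMean_constTerm hU hφ y x).translate (measurable_slice hφ y x)
    (norm_slice_le' hC y x) (fun i => -Φ.emb i a)
  convert h using 1
  funext z
  rw [← slice_add_emb hφ.invariant a y x (z + fun i => -Φ.emb i a)]
  congr 1
  funext i
  simp

theorem constTerm_diag (hU : IsLevel U) {φ : Space Φ U → ℂ} (hφ : IsNice φ) (a : Kˣ) (y : Yf U)
    (x : ι → ℝ) :
    constTerm φ (diag2 (FiniteAdeleRing.unitEmbedding (𝓞 K) K a) 1 • y)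
        (fun i => x i + Real.log ‖Φ.emb i (a : K)‖) = constTerm φ y x := by
  refine HasMean.unique ?_ (hasMean_constTerm hU hφ y x)
  have h := (hasMean_constTerm hU hφ (diag2 (FiniteAdeleRing.unitEmbedding (𝓞 K) K a) 1 • y)
    (fun i => x i + Real.log ‖Φ.emb i (a : K)‖)).scale (measurable_slice hφ _ _)
      (c := fun i => Φ.emb i (a : K)) (fun i => by simp)
  convert h using 1
  funext z
  exact (slice_mul_emb hφ.invariant a y x z).symm

theorem hasZeroMean_of_constTerm (hU : IsLevel U) [DecidableEq ι] {φ : Space Φ U → ℂ}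
    (hφ : IsNice φ) (h0 : ∀ y x, constTerm φ y x = 0) : HasZeroMean φ := by
  intro y r hr
  have h := (hasMean_constTerm hU hφ y fun i => Real.log (r i)).tendsto_average
  rw [h0] at h
  convert h using 2 with R
  congr 1
  funext z
  simp only [slice]
  congr 2
  funext i
  exact HSpace.ext rfl (Real.exp_log (hr i)).symm

end Fermat.Agent.LT.Aleph
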