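import Fermat.Agent.LT.Aleph.Horospherical
import Fermat.Agent.LT.Adelic.HypMeasure
import Mathlib.MeasureTheory.Integral.Pi
import Mathlib.MeasureTheory.Group.Integral

/-!
# Product kernels on a product of upper half spaces

Fibrewise identities pass to products; in particular product kernels act on functions of the
heights by convolution with the product of the Abel transforms.
-/

set_option autoImplicit false

noncomputable section

namespace Fermat.Agent.LT.Aleph

open MeasureTheory Real Set Function Filter
open Fermat.Agent.LT.Adelic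

section Abstract

variable {α : Type*} [MeasurableSpace α] {μ : Measure α} [SigmaFinite μ]

theorem integral_fin_succ {n : ℕ} (F : (Fin (n + 1) → α) → ℂ) :
    ∫ x, F x ∂Measure.pi (fun _ => μ) =
      ∫ p : α × (Fin n → α), F (Fin.cons p.1 p.2) ∂μ.prod (Measure.pi fun _ => μ) := by
  have hmp := measurePreserving_piFinSuccAbove (fun _ : Fin (n + 1) => μ) 0
  rw [← hmp.integral_comp' (g := fun p : α × (Fin n → α) => F (Fin.cons p.1 p.2))]
  refine integral_congr_ae (Eventually.of_forall fun x => ?_)
  show F x = F (Fin.cons (x 0) fun j => x ((0 : Fin (n + 1)).succAbove j))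
  congr 1
  exact (Fin.cons_self_tail x).symm

theorem integrable_prodFin {n : ℕ} {k : Fin n → α → ℂ} (hk : ∀ i, Integrable (k i) μ) :
    Integrable (fun x : Fin n → α => ∏ i, k i (x i)) (Measure.pi fun _ => μ) :=
  Integrable.fintype_prod (E := α) hk

theorem integrable_prodFin_volume {n : ℕ} {k : Fin n → ℝ → ℂ}
    (hk : ∀ i, Integrable (k i) volume) :
    Integrable (fun x : Fin n → ℝ => ∏ i, k i (x i)) volume := by
  rw [volume_pi]
  exact Integrable.fintype_prod (E := ℝ) hk

theorem integrable_cons_prod {n : ℕ} {k : Fin (n + 1) → α → ℂ} (hk : ∀ i, Integrable (k i) μ) :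
    Integrable (fun p : α × (Fin n → α) => k 0 p.1 * ∏ i, k i.succ (p.2 i))
      (μ.prod (Measure.pi fun _ => μ)) :=
  Integrable.mul_prod (hk 0) (integrable_prodFin fun i => hk i.succ)

theorem measurable_cons {n : ℕ} :
    Measurable fun p : α × (Fin n → α) => (Fin.cons p.1 p.2 : Fin (n + 1) → α) := by
  refine measurable_pi_lambda _ fun i => ?_
  refine Fin.cases ?_ (fun j => ?_) i
  · simpa using measurable_fst
  · simp only [Fin.cons_succ]
    exact (measurable_pi_apply j).comp measurable_snd

/-- Fibrewise push forward identities pass to products. -/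
theorem integral_pi_push : ∀ {n : ℕ} {h : α → ℝ}, Measurable h → ∀ {g : Fin n → α → ℂ},
    (∀ i, Integrable (g i) μ) → ∀ {a : Fin n → ℝ → ℂ}, (∀ i, Integrable (a i) volume) →
    (∀ i (F : ℝ → ℂ), Measurable F → (∃ C, ∀ t, ‖F t‖ ≤ C) →
      ∫ x, g i x * F (h x) ∂μ = ∫ t, a i t * F t) →
    ∀ {G : (Fin n → ℝ) → ℂ}, Measurable G → ∀ {C : ℝ}, (∀ t, ‖G t‖ ≤ C) →
    ∫ x, (∏ i, g i (x i)) * G (fun i => h (x i)) ∂Measure.pi (fun _ => μ) =
      ∫ t, (∏ i, a i (t i)) * G t
  | 0, _, _, _, _, _, _, _, G, _, _, _ => by
    rw [Measure.pi_of_empty (fun _ : Fin 0 => μ), integral_dirac, volume_pi,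
      Measure.pi_of_empty (fun _ : Fin 0 => (volume : Measure ℝ)), integral_dirac]
    simp only [Finset.univ_eq_empty, Finset.prod_empty, one_mul]
    congr 1
    exact Subsingleton.elim _ _
  | n + 1, h, hh, g, hg, a, ha, H, G, hG, C, hC => by
    have hGc : Measurable fun p : ℝ × (Fin n → ℝ) => G (Fin.cons p.1 p.2) :=
      hG.comp measurable_cons
    set F : ℝ → ℂ := fun s => ∫ t, (∏ i, a i.succ (t i)) * G (Fin.cons s t) with hF
    have hFm : Measurable F := by
      have ham := (Integrable.fintype_prod (μ := fun _ : Fin n => (volume : Measure ℝ))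
        fun i => ha i.succ).aestronglyMeasurable
      rw [← volume_pi] at ham
      have e : F = fun s => ∫ t, ham.mk _ t * G (Fin.cons s t) := funext fun s =>
        integral_congr_ae (ham.ae_eq_mk.mono fun t ht => by dsimp only at ht ⊢; rw [ht])
      rw [e]
      exact ((ham.stronglyMeasurable_mk.comp_measurable measurable_snd).mul
        hGc.stronglyMeasurable).integral_prod_right'.measurable
    have hFb : ∃ C', ∀ s, ‖F s‖ ≤ C' := by
      refine ⟨(∫ t : Fin n → ℝ, ‖∏ i, a i.succ (t i)‖) * C, fun s => ?_⟩
      rw [← integral_mul_const]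
      refine norm_integral_le_of_norm_le ?_ (Eventually.of_forall fun t => ?_)
      · exact (integrable_prodFin_volume fun i : Fin n => ha i.succ).norm.mul_const C
      · rw [norm_mul]; exact mul_le_mul_of_nonneg_left (hC _) (norm_nonneg _)
    rw [integral_fin_succ, volume_pi, integral_fin_succ]
    simp only [Fin.prod_univ_succ, Fin.cons_zero, Fin.cons_succ]
    have hI1 : Integrable (fun p : α × (Fin n → α) => (g 0 p.1 * ∏ i, g i.succ (p.2 i)) *
        G fun i => h ((Fin.cons p.1 p.2 : Fin (n + 1) → α) i))
        (μ.prod (Measure.pi fun _ => μ)) :=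
      (integrable_cons_prod hg).mul_bdd
        (hG.comp (measurable_pi_lambda _ fun i => hh.comp
          ((measurable_pi_apply i).comp measurable_cons))).aestronglyMeasurable
        (Eventually.of_forall fun p => hC _)
    have hI2 : Integrable (fun p : ℝ × (Fin n → ℝ) => (a 0 p.1 * ∏ i, a i.succ (p.2 i)) *
        G (Fin.cons p.1 p.2)) (volume.prod (Measure.pi fun _ => (volume : Measure ℝ))) :=
      (integrable_cons_prod ha).mul_bdd
        (hG.comp measurable_cons).aestronglyMeasurable (Eventually.of_forall fun p => hC _)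
    rw [integral_prod _ hI1, integral_prod _ hI2]
    simp only [mul_assoc, integral_const_mul]
    rw [← volume_pi, ← H 0 F hFm hFb]
    refine integral_congr_ae (Eventually.of_forall fun s => ?_)
    dsimp only
    congr 1
    have e : ∀ t : Fin n → α, (fun i => h ((Fin.cons s t : Fin (n + 1) → α) i)) =
        Fin.cons (h s) (fun i => h (t i)) := fun t => by
      funext i
      refine Fin.cases ?_ (fun j => ?_) i <;> simp
    simp only [e]
    exact integral_pi_push hh (fun i => hg i.succ) (fun i => ha i.succ) (fun i => H i.succ)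
      (hG.comp (measurable_cons.comp (measurable_const.prodMk measurable_id))) (C := C)
      (fun t => hC _)

/-- An eigenfunction of each factor is an eigenfunction of the product. -/
theorem integral_pi_eigen : ∀ {n : ℕ} {k : Fin n → α → α → ℂ},
    (∀ i p, Integrable (k i p) μ) → ∀ {c : Fin n → ℂ} {f : (Fin n → α) → ℂ}, Measurable f →
    ∀ {C : ℝ}, (∀ x, ‖f x‖ ≤ C) →
    (∀ i (x : Fin n → α), ∫ s, k i (x i) s * f (Function.update x i s) ∂μ = c i * f x) →
    ∀ x : Fin n → α, ∫ t, (∏ i, k i (x i) (t i)) * f t ∂Measure.pi (fun _ => μ) =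
      (∏ i, c i) * f x
  | 0, _, _, _, f, _, _, _, _, x => by
    rw [Measure.pi_of_empty (fun _ : Fin 0 => μ), integral_dirac]
    simp only [Finset.univ_eq_empty, Finset.prod_empty, one_mul]
    congr 1
    exact Subsingleton.elim _ _
  | n + 1, k, hk, c, f, hf, C, hC, H, x => by
    rw [integral_fin_succ]
    simp only [Fin.prod_univ_succ, Fin.cons_zero, Fin.cons_succ]
    have hI : Integrable (fun p : α × (Fin n → α) =>
        (k 0 (x 0) p.1 * ∏ i, k i.succ (x i.succ) (p.2 i)) * f (Fin.cons p.1 p.2))
        (μ.prod (Measure.pi fun _ => μ)) :=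
      (integrable_cons_prod (k := fun i => k i (x i)) (fun i => hk i (x i))).mul_bdd
      (hf.comp measurable_cons).aestronglyMeasurable (Eventually.of_forall fun p => hC _)
    rw [integral_prod _ hI]
    simp only [mul_assoc, integral_const_mul]
    have hin : ∀ s, ∫ t, (∏ i : Fin n, k i.succ (x i.succ) (t i)) * f (Fin.cons s t)
        ∂Measure.pi (fun _ => μ) = (∏ i : Fin n, c i.succ) * f (Fin.cons s (Fin.tail x)) := fun s =>
      integral_pi_eigen (k := fun i => k i.succ) (fun i => hk i.succ)
        (hf.comp (measurable_cons.comp (measurable_const.prodMk measurable_id))) (C := C)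
        (fun _ => hC _) (fun i y => by
          simpa [Fin.cons_update] using H i.succ (Fin.cons s y)) (Fin.tail x)
    simp only [hin, mul_left_comm (k 0 (x 0) _), integral_const_mul]
    have h0 := H 0 x
    conv at h0 =>
      lhs; arg 2; ext s; rw [← Fin.cons_self_tail x, Fin.update_cons_zero, Fin.cons_zero]
    rw [h0]
    ring

end Abstract

theorem measurable_hspace_r : Measurable fun τ : HSpace => τ.r :=
  measurable_snd.comp HSpace.measurable_coords

theorem continuous_coshDist (p : HSpace) : Continuous fun τ => HSpace.coshDist p τ := by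
  unfold HSpace.coshDist
  have := HSpace.continuous_z
  have := HSpace.continuous_r
  refine Continuous.div (by fun_prop) (by fun_prop) fun τ => ?_
  have := p.r_pos
  have := τ.r_pos
  positivity

theorem integrable_kernel {k : ℝ → ℂ} (hk : Continuous k) (hc : HasCompactSupport k) (p : HSpace) :
    Integrable (fun τ => k (HSpace.coshDist p τ)) HSpace.measure := by
  obtain ⟨a, b, R, ha, hbox⟩ := exists_support_box k hc p.r_pos p.z
  obtain ⟨M, hM⟩ := hc.exists_bound_of_continuous hk
  set S : Set (ℂ × ℝ) := Metric.closedBall p.z R ×ˢ Icc a b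
  have hS : IsCompact S := (isCompact_closedBall _ _).prod isCompact_Icc
  have hSpos : S ⊆ range HSpace.coords := by
    rw [HSpace.range_coords]; exact fun x hx => lt_of_lt_of_le ha hx.2.1
  have hfin : HSpace.measure (HSpace.coords ⁻¹' S) ≠ ⊤ := by
    rw [HSpace.measure, HSpace.measurableEmbedding_coords.comap_apply,
      image_preimage_eq_inter_range, inter_eq_left.mpr hSpos,
      withDensity_apply _ hS.measurableSet]
    refine ne_top_of_le_ne_top (ENNReal.mul_ne_top (ENNReal.ofReal_ne_top (r := (a ^ 3)⁻¹))
      (hS.measure_ne_top (μ := (volume : Measure (ℂ × ℝ))))) ?_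
    refine (setLIntegral_mono measurable_const fun x hx => ?_).trans (setLIntegral_const S _).le
    exact ENNReal.ofReal_le_ofReal (inv_anti₀ (by positivity) (pow_le_pow_left₀ ha.le hx.2.1 3))
  have hcomp : Continuous fun τ => k (HSpace.coshDist p τ) := hk.comp (continuous_coshDist p)
  refine IntegrableOn.integrable_of_forall_notMem_eq_zero
    (s := HSpace.coords ⁻¹' S) (Measure.integrableOn_of_bounded (M := M) hfin
      hcomp.aestronglyMeasurable (Eventually.of_forall fun τ => hM _)) fun τ hτ => ?_
  by_contra hne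
  exact hτ ⟨(hbox τ.z τ.r τ.r_pos hne).1, (hbox τ.z τ.r τ.r_pos hne).2⟩

theorem integral_kernel_log {A : ℝ → ℂ} (hA : AbelTest A) (p : HSpace) {F : ℝ → ℂ}
    (hF : Measurable F) (hb : ∃ C, ∀ t, ‖F t‖ ≤ C) :
    ∫ τ, abelKernel A (HSpace.coshDist p τ) * F (Real.log τ.r) ∂HSpace.measure =
      ∫ s : ℝ, (A (s - Real.log p.r) * (Real.exp (Real.log p.r - s) : ℂ)) * F s := by
  obtain ⟨C, hC⟩ := hb
  have hloc : LocallyIntegrableOn (fun r => F (Real.log r)) (Ioi 0) :=
    ((locallyIntegrable_const (μ := (volume : Measure ℝ)) (C : ℂ)).mono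
      (hF.comp Real.measurable_log).aestronglyMeasurable
      (Eventually.of_forall fun r => (hC _).trans (by
        simp [le_abs_self]))).locallyIntegrableOn _
  rw [integral_abelKernel hA hloc p, ← integral_sub_right_eq_self (fun t => A t *
    (Real.exp (-t) : ℂ) * F (Real.log (p.r * Real.exp t))) (Real.log p.r)]
  refine integral_congr_ae (Eventually.of_forall fun s => ?_)
  simp [Real.log_mul p.r_pos.ne' (Real.exp_pos _).ne', Real.log_exp, neg_sub]

/-- **Product kernels act on functions of the heights by convolution.** -/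
theorem integral_pi_abelKernel {n : ℕ} {A : Fin n → ℝ → ℂ} (hA : ∀ i, AbelTest (A i))
    (p : Fin n → HSpace) {G : (Fin n → ℝ) → ℂ} (hG : Measurable G) {C : ℝ}
    (hC : ∀ t, ‖G t‖ ≤ C) :
    ∫ τ, (∏ i, abelKernel (A i) (HSpace.coshDist (p i) (τ i))) * G (fun i => Real.log (τ i).r)
        ∂Measure.pi (fun _ => HSpace.measure) =
      ∫ s, (∏ i, A i (s i - Real.log (p i).r) * (Real.exp (Real.log (p i).r - s i) : ℂ)) * G s :=
  integral_pi_push (Real.measurable_log.comp measurable_hspace_r)
    (fun i => integrable_kernel (continuous_abelKernel (hA i))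
      (hasCompactSupport_abelKernel (hA i)) (p i))
    (fun i => by
      refine Continuous.integrable_of_hasCompactSupport (μ := (volume : Measure ℝ)) ?_ ?_
      · exact ((hA i).contDiff.continuous.comp (continuous_id.sub continuous_const)).mul
          (by fun_prop)
      · exact ((hA i).compact.comp_homeomorph (Homeomorph.subRight _)).mul_right)
    (fun i _ hF hb => integral_kernel_log (hA i) (p i) hF hb) hG hC

end Fermat.Agent.LT.Aleph
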