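import Fermat.Agent.LT.Descent.Setting
import Fermat.Agent.LT.Aleph.ConstTerm
import Fermat.Agent.LT.Aleph.PiPush

/-!
# Test operators on bounded continuous functions

`kerApply` is the action of a finite invariant matrix; a test operator is the integral of the
product kernel against the matrix applied pointwise.
-/

set_option autoImplicit false
set_option linter.unusedSectionVars false

noncomputable section

namespace Fermat.Agent.LT.Aleph

open MeasureTheory NumberField IsDedekindDomain Filter
open Fermat.Agent.LT.Adelic Fermat.Agent.LT.Descent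

variable {K : Type*} [Field K] [NumberField K] {U : Subgroup (GfK K)}

/-- The action of a matrix on functions on `Yf U`. -/
def kerApply (f : HKer U) (ψ : Yf U → ℂ) (y : Yf U) : ℂ := ∑ᶠ y', f y y' * ψ y'

theorem kerApply_eq_sum (f : HKer U) (ψ : Yf U → ℂ) (y : Yf U) :
    kerApply f ψ y = ∑ y' ∈ (f.finite_row y).toFinset, f y y' * ψ y' := by
  refine finsum_eq_sum_of_support_subset _ fun y' hy' => ?_
  rw [Set.Finite.coe_toFinset]
  exact left_ne_zero_of_mul hy'

theorem kerApply_id (ψ : Yf U → ℂ) : kerApply (HKer.id U) ψ = ψ := by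
  classical
  funext y
  rw [kerApply, finsum_eq_single _ y]
  · show (if y = y then (1 : ℂ) else 0) * ψ y = ψ y
    rw [if_pos rfl, one_mul]
  · intro x hx
    show (if y = x then (1 : ℂ) else 0) * ψ x = 0
    rw [if_neg (Ne.symm hx), zero_mul]

theorem kerApply_comp (f g : HKer U) (ψ : Yf U → ℂ) :
    kerApply (f.comp g) ψ = kerApply f (kerApply g ψ) := by
  classical
  funext y
  have e : ∀ z, (f.comp g) y z = ∑ w ∈ (f.finite_row y).toFinset, f y w * g w z := fun z => by
    show ∑ᶠ w, f y w * g w z = _
    refine finsum_eq_sum_of_support_subset _ fun w hw => ?_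
    rw [Set.Finite.coe_toFinset]
    exact left_ne_zero_of_mul hw
  set S := (f.finite_row y).toFinset.biUnion fun w => (g.finite_row w).toFinset with hS
  have hsub : ∀ w ∈ (f.finite_row y).toFinset, kerApply g ψ w = ∑ z ∈ S, g w z * ψ z := by
    intro w hw
    refine finsum_eq_sum_of_support_subset _ fun z hz => ?_
    rw [hS, Finset.coe_biUnion, Set.mem_iUnion₂]
    exact ⟨w, hw, by rw [Set.Finite.coe_toFinset]; exact left_ne_zero_of_mul hz⟩
  rw [kerApply_eq_sum f, Finset.sum_congr rfl fun w hw => by rw [hsub w hw]]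
  rw [show kerApply (f.comp g) ψ y = ∑ z ∈ S, (f.comp g) y z * ψ z from
    finsum_eq_sum_of_support_subset _ fun z hz => by
      have h1 := left_ne_zero_of_mul hz
      rw [e] at h1
      obtain ⟨w, hw, hne⟩ := Finset.exists_ne_zero_of_sum_ne_zero h1
      rw [hS, Finset.coe_biUnion, Set.mem_iUnion₂]
      exact ⟨w, hw, by rw [Set.Finite.coe_toFinset]; exact right_ne_zero_of_mul hne⟩]
  simp only [e, Finset.sum_mul, Finset.mul_sum, mul_assoc]
  exact Finset.sum_comm

/-- A scalar multiple. -/
def hkerSmul (c : ℂ) (f : HKer U) : HKer U where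
  toFun y z := c * f y z
  smul' g y z := by simp only [f.smul']
  finite_row y := (f.finite_row y).subset fun _ hz => right_ne_zero_of_mul hz
  finite_col z := (f.finite_col z).subset fun _ hy => right_ne_zero_of_mul hy

theorem kerApply_smul (c : ℂ) (f : HKer U) (ψ : Yf U → ℂ) :
    kerApply (hkerSmul c f) ψ = fun y => c * kerApply f ψ y := by
  funext y
  rw [kerApply_eq_sum f, Finset.mul_sum, kerApply]
  refine (finsum_eq_sum_of_support_subset _ fun z hz => ?_).trans
    (Finset.sum_congr rfl fun z _ => mul_assoc c _ _)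
  rw [Set.Finite.coe_toFinset]
  exact right_ne_zero_of_mul (left_ne_zero_of_mul hz)

theorem kerApply_ofDoubleCoset (hU : IsLevel U) (D : GfK K) (ψ : Yf U → ℂ) (y : Yf U) :
    kerApply (HKer.ofDoubleCoset hU D) ψ y = ∑ᶠ y' ∈ nbrs D y, ψ y' := by
  classical
  refine finsum_congr fun y' => ?_
  show (if y' ∈ nbrs D y then (1 : ℂ) else 0) * ψ y' = _
  by_cases h : y' ∈ nbrs D y
  · rw [if_pos h, one_mul, finsum_eq_if, if_pos h]
  · rw [if_neg h, zero_mul, finsum_eq_if, if_neg h]

theorem kerApply_translate (f : HKer U) (g : GfK K) (ψ ψ' : Yf U → ℂ)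
    (h : ∀ y, ψ' (g • y) = ψ y) (y : Yf U) : kerApply f ψ' (g • y) = kerApply f ψ y := by
  rw [kerApply, ← finsum_comp_equiv (MulAction.toPerm g : Equiv.Perm (Yf U))]
  simp only [MulAction.toPerm_apply, HKer.smul', h]
  rfl

variable {ι : Type*} [Fintype ι] {Φ : Frame K ι}

/-- The archimedean part of a test operator. -/
def archInt (k : ι → PPKer) (φ : Space Φ U → ℂ) (τ : ι → HSpace) (y : Yf U) : ℂ :=
  ∫ τ', (∏ i, k i (τ i) (τ' i)) * φ (Space.mk τ' y) ∂Measure.pi fun _ : ι => HSpace.measure

theorem integrable_ppker (k : PPKer) (p : HSpace) :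
    Integrable (fun q => k p q) HSpace.measure := by
  obtain ⟨T, hT⟩ := k.bounded'
  have hcont : Continuous fun q => k p q :=
    k.continuous'.comp (continuous_const.prodMk continuous_id)
  -- a compactly supported majorant
  let u : ℝ → ℂ := fun c => ((max 0 (1 - max 0 (|c| - |T|)) : ℝ) : ℂ)
  have hu : Continuous u := by fun_prop
  have huc : HasCompactSupport u := by
    refine HasCompactSupport.intro (isCompact_closedBall (0 : ℝ) (|T| + 1)) fun c hc => ?_
    rw [Metric.mem_closedBall, dist_zero_right, Real.norm_eq_abs, not_le] at hc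
    have h1 : max 0 (1 - max 0 (|c| - |T|)) = 0 := max_eq_left (by
      linarith [le_max_right 0 (|c| - |T|)])
    simp [u, h1]
  set S := {q : HSpace | HSpace.coshDist p q ≤ T}
  obtain ⟨a, b, R, ha, hbox⟩ := exists_support_box u huc p.r_pos p.z
  set B : Set (ℂ × ℝ) := Metric.closedBall p.z R ×ˢ Set.Icc a b
  have hBc : IsCompact (HSpace.coords ⁻¹' B) := by
    refine HSpace.isOpenEmbedding_coords.isEmbedding.isCompact_iff.mpr ?_
    rw [Set.image_preimage_eq_inter_range, Set.inter_eq_left.mpr]
    · exact (isCompact_closedBall _ _).prod isCompact_Icc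
    · rw [HSpace.range_coords]; exact fun x hx => lt_of_lt_of_le ha hx.2.1
  have hsub : ∀ q, k p q ≠ 0 → u (HSpace.coshDist p q) = 1 := by
    intro q hq
    have hle : HSpace.coshDist p q ≤ T := not_lt.mp fun h => hq (hT p q h)
    have h0 : 0 ≤ HSpace.coshDist p q := by
      have := Complex.normSq_nonneg (p.z - q.z)
      have := p.r_pos
      have := q.r_pos
      rw [HSpace.coshDist]
      positivity
    have h1 : |HSpace.coshDist p q| - |T| ≤ 0 := by
      rw [abs_of_nonneg h0]; linarith [le_abs_self T]
    simp [u, max_eq_left h1]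
  obtain ⟨M, hM⟩ := hBc.exists_bound_of_continuousOn hcont.continuousOn
  refine ((integrable_kernel hu huc p).norm.const_mul M).mono' hcont.aestronglyMeasurable
    (Eventually.of_forall fun q => ?_)
  by_cases hq : k p q = 0
  · have hM0 : ∀ x : HSpace, x ∈ HSpace.coords ⁻¹' B → 0 ≤ M := fun x hx =>
      (norm_nonneg _).trans (hM x hx)
    by_cases hu0 : u (HSpace.coshDist p q) = 0
    · rw [hq, hu0]; simp
    · rw [hq, norm_zero]
      exact mul_nonneg (hM0 q ⟨(hbox q.z q.r q.r_pos hu0).1, (hbox q.z q.r q.r_pos hu0).2⟩)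
        (norm_nonneg _)
  · have h1 := hsub q hq
    have h2 : u (HSpace.coshDist p q) ≠ 0 := by rw [h1]; exact one_ne_zero
    rw [h1, norm_one, mul_one]
    exact hM q ⟨(hbox q.z q.r q.r_pos h2).1, (hbox q.z q.r q.r_pos h2).2⟩

theorem integrable_prod_ppker (k : ι → PPKer) (τ : ι → HSpace) :
    Integrable (fun τ' : ι → HSpace => ∏ i, k i (τ i) (τ' i))
      (Measure.pi fun _ : ι => HSpace.measure) :=
  Integrable.fintype_prod (E := HSpace) (f := fun i q => k i (τ i) q)
    fun i => integrable_ppker (k i) (τ i)

/-- A test operator is the matrix applied to the archimedean integrals. -/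
theorem testOp_eq (hU : IsLevel U) (k : ι → PPKer) (f : HKer U) {φ : Space Φ U → ℂ}
    (hφ : IsNice φ) (x : Space Φ U) :
    testOp k f φ x = kerApply f (archInt k φ x.pt) x.fin := by
  classical
  have := countable_yf hU
  obtain ⟨C, hC⟩ := hφ.bounded
  set S := (f.finite_row x.fin).toFinset
  set ν : Yf U → Measure (Space Φ U) := fun y =>
    (Measure.pi fun _ : ι => HSpace.measure).map fun τ => Space.mk τ y
  set F : Space Φ U → ℂ := fun x' => testKernel k f x x' * φ x'
  have hφm : Measurable φ := Space.measurable_iff.mpr hφ.measurable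
  have hFm : Measurable F := by
    refine Space.measurable_iff.mpr fun y => (Measurable.mul ?_ (hφ.measurable y))
    show Measurable fun τ : ι → HSpace => f x.fin y * ∏ i, k i (x.pt i) (τ i)
    exact measurable_const.mul (Finset.measurable_prod _ fun i _ =>
      ((k i).continuous'.comp ((continuous_const (y := x.pt i)).prodMk
        (continuous_apply i))).measurable)
  have hI : ∀ y, Integrable (fun τ => F (Space.mk τ y)) (Measure.pi fun _ : ι => HSpace.measure) :=
    fun y => by
      have h := ((integrable_prod_ppker k x.pt).const_mul (f x.fin y)).mul_bdd (c := C)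
        ((hφm.comp (Space.measurable_mk y)).aestronglyMeasurable)
        (Eventually.of_forall fun τ => hC _)
      exact h
  have hint : Integrable F (Space.measure Φ U) := by
    refine ⟨hFm.aestronglyMeasurable, ?_⟩
    rw [hasFiniteIntegral_iff_enorm, Space.lintegral_measure hFm.enorm, tsum_eq_sum (s := S)]
    · exact ENNReal.sum_lt_top.mpr fun y _ => (hI y).2
    · intro y hy
      have hz : f x.fin y = 0 := by
        by_contra h; exact hy ((f.finite_row x.fin).mem_toFinset.mpr h)
      simp [F, testKernel, hz]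
  have hslice : ∀ y, ∫ x', F x' ∂ν y = f x.fin y * archInt k φ x.pt y := by
    intro y
    rw [integral_map (Space.measurable_mk y).aemeasurable hFm.aestronglyMeasurable, archInt,
      ← integral_const_mul]
    refine integral_congr_ae (Eventually.of_forall fun τ => ?_)
    simp [F, testKernel, mul_assoc]
  show ∫ x', F x' ∂Space.measure Φ U = _
  rw [Space.measure] at hint ⊢
  rw [integral_sum_measure hint, tsum_congr hslice, kerApply_eq_sum, tsum_eq_sum]
  intro y hy
  have hz : f x.fin y = 0 := by
    by_contra h; exact hy ((f.finite_row x.fin).mem_toFinset.mpr h)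
  rw [hz, zero_mul]

end Fermat.Agent.LT.Aleph
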