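import Mathlib.Analysis.Calculus.DSlope
import Mathlib.Analysis.Calculus.ContDiff.Deriv
import Mathlib.Analysis.SpecialFunctions.Arcosh
import Mathlib.Analysis.SpecialFunctions.PolarCoord
import Mathlib.MeasureTheory.Integral.IntegralEqImproper

/-!
The spherical Abel transform of `SL(2, ℂ)`.

A bi-invariant function is `g ↦ k(δ g)` with `δ g = (∑ ‖g i j‖²) / ‖det g‖ - 2 ≥ 0`. Its
horospherical integral at `a(u)` is `∫ z, k((‖z‖² + (1 - u)²) / u) = u • abel k (log u)`, where
`abel k t = π ∫_{2 cosh t - 2}^∞ k`. Every even `C⁴` function of compact support is `abel k` for a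
unique continuous `k` of compact support on `[0, ∞)`.
-/

set_option autoImplicit false

noncomputable section

namespace Fermat.Agent.LT.Aleph

open Real MeasureTheory Set Filter Topology Function
open scoped ContDiff

/-- The bi-invariant `δ` of a `2 × 2` complex matrix. -/
def bimod (g : Matrix (Fin 2) (Fin 2) ℂ) : ℝ :=
  (‖g 0 0‖ ^ 2 + ‖g 0 1‖ ^ 2 + ‖g 1 0‖ ^ 2 + ‖g 1 1‖ ^ 2) / ‖g.det‖ - 2

/-- `δ` of `[[u, z], [0, 1]]`. -/
theorem bimod_borel (u : ℝ) (hu : 0 < u) (z : ℂ) :
    bimod !![(u : ℂ), z; 0, 1] = (‖z‖ ^ 2 + (1 - u) ^ 2) / u := by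
  simp [bimod, Matrix.det_fin_two_of, abs_of_pos hu]
  field_simp
  ring

/-- The Abel transform. -/
def abel (k : ℝ → ℂ) (t : ℝ) : ℂ := (π : ℂ) * ∫ s in Ioi (2 * cosh t - 2), k s

theorem abel_neg (k : ℝ → ℂ) (t : ℝ) : abel k (-t) = abel k t := by simp [abel]

theorem integral_norm_sq_comp (k : ℝ → ℂ) {u : ℝ} (hu : 0 < u) (c : ℝ) :
    ∫ z : ℂ, k ((‖z‖ ^ 2 + c) / u) = (π : ℂ) * u * ∫ s in Ioi (c / u), k s := by
  rw [← Complex.integral_comp_polarCoord_symm fun z : ℂ => k ((‖z‖ ^ 2 + c) / u)]
  have h1 : EqOn (fun p : ℝ × ℝ => p.1 • k ((‖Complex.polarCoord.symm p‖ ^ 2 + c) / u))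
      (fun p => (p.1 * k ((p.1 ^ 2 + c) / u)) * 1) polarCoord.target := fun p hp => by
    simp only [polarCoord_target, mem_prod, mem_Ioi] at hp
    simp only [Complex.norm_polarCoord_symm, abs_of_pos hp.1, mul_one, Complex.real_smul]
  rw [setIntegral_congr_fun polarCoord.open_target.measurableSet h1, polarCoord_target,
    Measure.volume_eq_prod,
    setIntegral_prod_mul (fun r : ℝ => (r : ℂ) * k ((r ^ 2 + c) / u)) (fun _ : ℝ => (1 : ℂ))]
  have h2 : (∫ _ in Ioo (-π) π, (1 : ℂ)) = 2 * π := by
    rw [setIntegral_const, Real.volume_real_Ioo_of_le (by linarith [pi_pos]), Complex.real_smul]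
    push_cast
    ring
  have h3 : 2 * ∫ r in Ioi (0 : ℝ), (r : ℂ) * k ((r ^ 2 + c) / u) =
      ∫ s in Ioi (0 : ℝ), k ((s + c) / u) := by
    rw [← integral_comp_rpow_Ioi_of_pos (g := fun s : ℝ => k ((s + c) / u)) two_pos,
      ← integral_const_mul]
    refine setIntegral_congr_fun measurableSet_Ioi fun r hr => ?_
    simp only [mem_Ioi] at hr
    rw [show (2 : ℝ) - 1 = 1 by norm_num, rpow_one, show r ^ (2 : ℝ) = r ^ 2 by norm_num,
      Complex.real_smul]
    push_cast
    ring
  have h4 : ∫ s in Ioi (0 : ℝ), k ((s + c) / u) = (u : ℂ) * ∫ s in Ioi (c / u), k s := by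
    have ht : ∫ s in Ioi (0 : ℝ), k ((s + c) / u) = ∫ s in Ioi c, k (s / u) := by
      have := (measurePreserving_add_right volume c).setIntegral_preimage_emb
        (MeasurableEquiv.addRight c).measurableEmbedding (fun s => k (s / u)) (Ioi c)
      simpa using this
    rw [ht]
    have := integral_comp_mul_left_Ioi k c (inv_pos.mpr hu)
    simp only [inv_inv, Complex.real_smul] at this
    simpa [div_eq_inv_mul] using this
  rw [h4] at h3
  rw [h2]
  linear_combination (π : ℂ) * h3

/-- The horospherical integral of a bi-invariant function. -/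
theorem integral_bimod_borel (k : ℝ → ℂ) (t : ℝ) :
    ∫ z : ℂ, k (bimod !![(Real.exp t : ℂ), z; 0, 1]) = (Real.exp t : ℂ) * abel k t := by
  simp_rw [bimod_borel (Real.exp t) (exp_pos t)]
  rw [integral_norm_sq_comp k (exp_pos t), abel]
  have e : (1 - Real.exp t) ^ 2 / Real.exp t = 2 * cosh t - 2 := by
    rw [cosh_eq, Real.exp_neg]
    field_simp
    ring
  rw [e]
  ring

/-- Even `C⁴` functions of compact support (four derivatives make the kernel Lipschitz). -/
structure AbelTest (A : ℝ → ℂ) : Prop where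
  contDiff : ContDiff ℝ 4 A
  compact : HasCompactSupport A
  even : ∀ t, A (-t) = A t

namespace AbelTest

variable {A B : ℝ → ℂ}

theorem hasDerivAt (hA : AbelTest A) (t : ℝ) : HasDerivAt A (deriv A t) t :=
  (hA.contDiff.differentiable (by norm_num) t).hasDerivAt

theorem contDiff_deriv (hA : AbelTest A) : ContDiff ℝ 3 (deriv A) := by
  have := hA.contDiff
  rw [show (4 : ℕ∞ω) = 3 + 1 by norm_num, contDiff_succ_iff_deriv] at this
  exact this.2.2

theorem deriv_zero (hA : AbelTest A) : deriv A 0 = 0 := by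
  have h1 : HasDerivAt (fun t => A (-t)) (-deriv A 0) 0 := by
    simpa [Function.comp_def] using
      (HasDerivAt.scomp (0 : ℝ) (g₁ := A) (by simpa using hA.hasDerivAt 0) (hasDerivAt_neg (0 : ℝ)))
  have h2 : HasDerivAt (fun t => A (-t)) (deriv A 0) 0 := by
    simpa [funext hA.even] using hA.hasDerivAt 0
  have h3 := h1.unique h2
  linear_combination (-1 / 2 : ℂ) * h3

theorem add (hA : AbelTest A) (hB : AbelTest B) : AbelTest (A + B) :=
  ⟨hA.contDiff.add hB.contDiff, hA.compact.add hB.compact, fun t => by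
    simp [hA.even, hB.even]⟩

theorem const_mul (hA : AbelTest A) (c : ℂ) : AbelTest (fun t => c * A t) :=
  ⟨contDiff_const.mul hA.contDiff, hA.compact.mul_left, fun t => by simp [hA.even]⟩

theorem zero : AbelTest (fun _ => (0 : ℂ)) :=
  ⟨contDiff_const, HasCompactSupport.zero, fun _ => rfl⟩

/-- Symmetrised shifts preserve test functions. -/
theorem symShift (hA : AbelTest A) (L : ℝ) : AbelTest (fun t => A (t + L) + A (t - L)) := by
  refine ⟨(hA.contDiff.comp (contDiff_id.add contDiff_const)).add
    (hA.contDiff.comp (contDiff_id.sub contDiff_const)), ?_, fun t => ?_⟩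
  · exact (hA.compact.comp_homeomorph (Homeomorph.addRight L)).add
      (hA.compact.comp_homeomorph (Homeomorph.subRight L))
  · rw [show -t + L = -(t - L) by ring, show -t - L = -(t + L) by ring, hA.even, hA.even]
    ring

end AbelTest

/-- `A'(t) / sinh t`, extended continuously through `0`. -/
def derivDivSinh (A : ℝ → ℂ) (t : ℝ) : ℂ := dslope (deriv A) 0 t / ((dslope sinh 0 t : ℝ) : ℂ)

theorem dslope_sinh_pos (t : ℝ) : 0 < dslope sinh 0 t := by
  rcases eq_or_ne t 0 with rfl | ht
  · rw [dslope_same, (hasDerivAt_sinh 0).deriv]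
    simp
  · rw [dslope_of_ne _ ht, slope_def_field, sinh_zero, sub_zero, sub_zero]
    rcases lt_or_gt_of_ne ht with h | h
    · exact div_pos_of_neg_of_neg (sinh_neg_iff.mpr h) h
    · exact div_pos (sinh_pos_iff.mpr h) h

theorem continuous_derivDivSinh {A : ℝ → ℂ} (hA : AbelTest A) :
    Continuous (derivDivSinh A) := by
  have h1 : Continuous (dslope (deriv A) 0) := by
    rw [← continuousOn_univ, continuousOn_dslope univ_mem]
    exact ⟨hA.contDiff_deriv.continuous.continuousOn,
      hA.contDiff_deriv.differentiable (by norm_num) 0⟩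
  have h2 : Continuous (dslope sinh 0) := by
    rw [← continuousOn_univ, continuousOn_dslope univ_mem]
    exact ⟨continuous_sinh.continuousOn, differentiable_sinh 0⟩
  exact h1.div (Complex.continuous_ofReal.comp h2)
    fun t => Complex.ofReal_ne_zero.mpr (dslope_sinh_pos t).ne'

theorem derivDivSinh_of_ne {A : ℝ → ℂ} (hA : AbelTest A) {t : ℝ} (ht : t ≠ 0) :
    derivDivSinh A t = deriv A t / (sinh t : ℂ) := by
  have ht' : (t : ℂ) ≠ 0 := by exact_mod_cast ht
  rw [derivDivSinh, dslope_of_ne _ ht, dslope_of_ne _ ht, slope_def_module, slope_def_field,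
    hA.deriv_zero, sub_zero, sinh_zero, sub_zero, sub_zero, Complex.real_smul]
  push_cast
  field_simp

/-- The radius `t ≥ 0` with `2 cosh t - 2 = x`. -/
def radius (x : ℝ) : ℝ := arcosh (1 + max x 0 / 2)

theorem continuous_radius : Continuous radius :=
  continuousOn_arcosh.comp_continuous (by fun_prop) fun x => by
    simp only [mem_Ici]; linarith [le_max_right x 0]

theorem radius_two_cosh_sub_two (t : ℝ) : radius (2 * cosh t - 2) = |t| := by
  have := one_le_cosh t
  rw [radius, max_eq_left (by linarith), show 1 + (2 * cosh t - 2) / 2 = cosh t by ring,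
    ← cosh_abs, arcosh_cosh (abs_nonneg t)]

/-- The bi-invariant kernel with prescribed Abel transform. -/
def invAbel (A : ℝ → ℂ) (x : ℝ) : ℂ :=
  -derivDivSinh A (radius x) / (2 * π) * ((max 0 (1 + min x 0) : ℝ) : ℂ)

theorem continuous_invAbel {A : ℝ → ℂ} (hA : AbelTest A) : Continuous (invAbel A) :=
  ((((continuous_derivDivSinh hA).comp continuous_radius).neg).div_const _).mul (by fun_prop)

theorem hasCompactSupport_invAbel {A : ℝ → ℂ} (hA : AbelTest A) :
    HasCompactSupport (invAbel A) := by
  obtain ⟨R, hR⟩ := (hA.compact.deriv).isCompact.isBounded.subset_closedBall 0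
  refine HasCompactSupport.intro (K := Icc (-1 : ℝ) (2 * cosh (max R 0) - 2))
    isCompact_Icc fun x hx => ?_
  rw [mem_Icc, not_and_or, not_le, not_le] at hx
  rcases hx with hx | hx
  · rw [invAbel, max_eq_left (by rw [min_eq_left (by linarith)]; linarith)]
    simp
  · have hx0 : 0 ≤ x := le_trans (by linarith [one_le_cosh (max R 0)]) hx.le
    have hlt : max R 0 < radius x := by
      rw [radius, max_eq_left hx0, ← arcosh_cosh (le_max_right R 0),
        arcosh_lt_arcosh (by positivity) (by positivity)]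
      linarith
    have hz : deriv A (radius x) = 0 := by
      by_contra h
      have := hR (subset_tsupport _ h)
      rw [Metric.mem_closedBall, dist_zero_right, Real.norm_eq_abs] at this
      exact absurd ((le_abs_self _).trans this) (not_le.mpr ((le_max_left R 0).trans_lt hlt))
    have hne : radius x ≠ 0 := ((le_max_right R 0).trans_lt hlt).ne'
    rw [invAbel, derivDivSinh_of_ne hA hne, hz]
    simp

theorem hasDerivAt_comp_radius {A : ℝ → ℂ} (hA : AbelTest A) {x : ℝ} (hx : 0 < x) :
    HasDerivAt (fun y => A (radius y)) (-(π : ℂ) * invAbel A x) x := by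
  have h1 : HasDerivAt (fun y : ℝ => arcosh (1 + y / 2))
      ((√((1 + x / 2) ^ 2 - 1))⁻¹ * (1 / 2)) x :=
    HasDerivAt.comp (h₂ := arcosh) (h := fun y : ℝ => 1 + y / 2) x
      (hasDerivAt_arcosh (show (1 + x / 2) ∈ Ioi (1 : ℝ) from mem_Ioi.mpr (by linarith)))
      (((hasDerivAt_id x).div_const 2).const_add 1)
  have he : radius =ᶠ[𝓝 x] fun y => arcosh (1 + y / 2) := by
    filter_upwards [eventually_gt_nhds hx] with y hy
    rw [radius, max_eq_left hy.le]
  have h2 := (h1.congr_of_eventuallyEq he)
  have h3 := HasDerivAt.scomp x (g₁ := A) (hA.hasDerivAt (radius x)) h2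
  refine h3.congr_deriv ?_
  have hx1 : (1 : ℝ) ≤ 1 + x / 2 := by linarith
  have hne : radius x ≠ 0 := by
    rw [radius, max_eq_left hx.le]
    exact (arcosh_pos (by linarith)).ne'
  have hs : sinh (radius x) = √((1 + x / 2) ^ 2 - 1) := by
    rw [radius, max_eq_left hx.le, sinh_arcosh hx1]
  rw [invAbel, derivDivSinh_of_ne hA hne, hs, min_eq_right hx.le, Complex.real_smul]
  have hs0 : √((1 + x / 2) ^ 2 - 1) ≠ 0 := hs ▸ sinh_ne_zero.mpr hne
  have hs0' : ((√((1 + x / 2) ^ 2 - 1) : ℝ) : ℂ) ≠ 0 := Complex.ofReal_ne_zero.mpr hs0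
  have hπ : (π : ℂ) ≠ 0 := Complex.ofReal_ne_zero.mpr pi_ne_zero
  norm_num
  field_simp

/-- **Abel inversion.** -/
theorem abel_invAbel {A : ℝ → ℂ} (hA : AbelTest A) (t : ℝ) : abel (invAbel A) t = A t := by
  have h0 : (0 : ℝ) ≤ 2 * cosh t - 2 := by linarith [one_le_cosh t]
  have hint : IntegrableOn (fun s => -(π : ℂ) * invAbel A s) (Ioi (2 * cosh t - 2)) :=
    (((continuous_invAbel hA).integrable_of_hasCompactSupport
      (hasCompactSupport_invAbel hA)).const_mul _).integrableOn
  have hlim : Tendsto (fun y => A (radius y)) atTop (𝓝 0) := by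
    obtain ⟨R, hR⟩ := hA.compact.isCompact.isBounded.subset_closedBall 0
    refine tendsto_const_nhds.congr' ?_
    filter_upwards [eventually_gt_atTop (2 * cosh (max R 0) - 2)] with y hy
    by_contra h
    have hmem := hR (subset_tsupport _ (Ne.symm h))
    have hy0 : 0 ≤ y := le_trans (by linarith [one_le_cosh (max R 0)]) hy.le
    have hlt : max R 0 < radius y := by
      rw [radius, max_eq_left hy0, ← arcosh_cosh (le_max_right R 0),
        arcosh_lt_arcosh (by positivity) (by positivity)]
      linarith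
    rw [Metric.mem_closedBall, dist_zero_right, Real.norm_eq_abs] at hmem
    exact absurd ((le_abs_self _).trans hmem) (not_le.mpr ((le_max_left R 0).trans_lt hlt))
  have h := integral_Ioi_of_hasDerivAt_of_tendsto (m := (0 : ℂ))
    ((hA.contDiff.continuous.comp continuous_radius).continuousWithinAt)
    (fun x hx => hasDerivAt_comp_radius hA (h0.trans_lt hx)) hint hlim
  rw [integral_const_mul] at h
  have habs : A |t| = A t := by
    rcases abs_choice t with h | h <;> rw [h]
    exact hA.even t
  simp only [Function.comp_apply, radius_two_cosh_sub_two, habs] at h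
  rw [abel]
  linear_combination -h

/-- The Abel transform is injective on continuous compactly supported kernels. -/
theorem abel_injective {k k' : ℝ → ℂ} (hk : Continuous k) (hk' : Continuous k')
    (hc : HasCompactSupport k) (hc' : HasCompactSupport k') (h : abel k = abel k') {x : ℝ}
    (hx : 0 ≤ x) : k x = k' x := by
  have key : ∀ y : ℝ, 0 ≤ y → ∫ s in Ioi y, (k s - k' s) = 0 := fun y hy => by
    have h1 := congrFun h (radius y)
    have e : 2 * cosh (radius y) - 2 = y := by
      rw [radius, max_eq_left hy, cosh_arcosh (by linarith)]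
      ring
    rw [abel, abel, e] at h1
    rw [integral_sub (hk.integrable_of_hasCompactSupport hc).integrableOn
      (hk'.integrable_of_hasCompactSupport hc').integrableOn, sub_eq_zero]
    exact mul_left_cancel₀ (Complex.ofReal_ne_zero.mpr pi_ne_zero) h1
  have hd : ∀ y : ℝ, 0 < y → k y - k' y = 0 := fun y hy => by
    have hint : Integrable fun s => k s - k' s :=
      (hk.integrable_of_hasCompactSupport hc).sub (hk'.integrable_of_hasCompactSupport hc')
    have hz : ∀ z : ℝ, 0 < z → ∫ s in (0 : ℝ)..z, (k s - k' s) = 0 := fun z hz => by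
      rw [intervalIntegral.integral_of_le hz.le, ← Ioi_sdiff_Ioi,
        setIntegral_sdiff measurableSet_Ioi hint.integrableOn (Ioi_subset_Ioi hz.le),
        key 0 le_rfl, key z hz.le, sub_zero]
    have h1 : HasDerivAt (fun z => ∫ s in (0 : ℝ)..z, (k s - k' s)) (k y - k' y) y :=
      intervalIntegral.integral_hasDerivAt_right (hint.intervalIntegrable)
        ((hk.sub hk').stronglyMeasurableAtFilter _ _) (hk.sub hk').continuousAt
    have h2 : HasDerivAt (fun z => ∫ s in (0 : ℝ)..z, (k s - k' s)) 0 y :=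
      (hasDerivAt_const y (0 : ℂ)).congr_of_eventuallyEq
        ((eventually_gt_nhds hy).mono fun z hz' => hz z hz')
    exact h1.unique h2
  have hclosed : IsClosed {y | k y = k' y} := isClosed_eq hk hk'
  have hsub : Ici (0 : ℝ) ⊆ {y | k y = k' y} := by
    rw [← closure_Ioi]
    exact hclosed.closure_subset_iff.mpr fun y hy => sub_eq_zero.mp (hd y hy)
  exact hsub hx

end Fermat.Agent.LT.Aleph
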