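import Fermat.Agent.LT.Aleph.KerAct

/-!
# Constant terms of test operators

At a finite coordinate the constant term of the archimedean integral with kernels `abelKernel`
is a convolution of the constant term with the Abel transforms.
-/

set_option autoImplicit false
set_option linter.unusedSectionVars false

noncomputable section

namespace Fermat.Agent.LT.Aleph

open MeasureTheory NumberField IsDedekindDomain Filter Matrix
open Fermat.Agent.LT.Adelic Fermat.Agent.LT.Descent

/-- The point-pair kernel with Abel transform `A`. -/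
def testPP {A : ℝ → ℂ} (hA : AbelTest A) : PPKer :=
  PPKer.ofProfile (abelKernel A) (continuous_abelKernel hA) (hasCompactSupport_abelKernel hA)

variable {ι : Type*} [Fintype ι]

/-- Reindexing an integral over a power. -/
theorem integral_pi_reindex {n : ℕ} (e : Fin n ≃ ι) {α : Type*} [MeasurableSpace α] (μ : Measure α)
    [SigmaFinite μ] (F : (ι → α) → ℂ) :
    ∫ x, F x ∂Measure.pi (fun _ : ι => μ) =
      ∫ y, F (fun i => y (e.symm i)) ∂Measure.pi (fun _ : Fin n => μ) := by
  have h := measurePreserving_piCongrLeft (fun _ : ι => μ) e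
  rw [← h.integral_comp' (g := F)]
  refine integral_congr_ae (Eventually.of_forall fun y => congrArg F (funext fun i => ?_))
  obtain ⟨j, rfl⟩ := e.surjective i
  rw [MeasurableEquiv.piCongrLeft_apply_apply, Equiv.symm_apply_apply]

theorem integral_pi_abelKernel' {A : ι → ℝ → ℂ} (hA : ∀ i, AbelTest (A i)) (p : ι → HSpace)
    {G : (ι → ℝ) → ℂ} (hG : Measurable G) {C : ℝ} (hC : ∀ t, ‖G t‖ ≤ C) :
    ∫ τ, (∏ i, testPP (hA i) (p i) (τ i)) * G (fun i => Real.log (τ i).r)
        ∂Measure.pi (fun _ : ι => HSpace.measure) =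
      ∫ t : ι → ℝ, (∏ i, A i (t i) * (Real.exp (-(t i)) : ℂ)) *
        G (fun i => Real.log (p i).r + t i) := by
  obtain ⟨n, ⟨e⟩⟩ := Finite.exists_equiv_fin ι
  have he := e.symm
  rw [integral_pi_reindex e.symm, volume_pi, integral_pi_reindex e.symm]
  simp only [Equiv.symm_symm]
  have hG' : Measurable fun t : Fin n → ℝ => G fun i => t (e i) :=
    hG.comp (measurable_pi_lambda _ fun i => measurable_pi_apply _)
  have h := integral_pi_abelKernel (A := fun j => A (e.symm j)) (fun j => hA _)
    (fun j => p (e.symm j)) hG' (C := C) (fun t => hC _)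
  have h1 : ∀ τ : Fin n → HSpace, (∏ i, testPP (hA i) (p i) (τ (e i))) =
      ∏ j, abelKernel (A (e.symm j)) (HSpace.coshDist (p (e.symm j)) (τ j)) := fun τ => by
    rw [← e.symm.prod_comp]
    refine Finset.prod_congr rfl fun j _ => ?_
    rw [Equiv.apply_symm_apply]
    rfl
  simp only [h1]
  rw [h, ← volume_pi, ← integral_add_right_eq_self _ (fun j => Real.log (p (e.symm j)).r)]
  refine integral_congr_ae (Eventually.of_forall fun t => ?_)
  simp only [Pi.add_apply]
  congr 1
  · conv_rhs => rw [← e.symm.prod_comp]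
    refine Finset.prod_congr rfl fun j _ => ?_
    rw [Equiv.apply_symm_apply, add_sub_cancel_right, sub_add_cancel_right, Real.exp_neg]
  · congr 1
    funext i
    rw [Equiv.symm_apply_apply, add_comm]

theorem integral_pi_eigen' {A : ι → ℝ → ℂ} (hA : ∀ i, AbelTest (A i)) {c : ι → ℂ}
    [DecidableEq ι] {f : (ι → HSpace) → ℂ} (hf : Measurable f) {C : ℝ} (hC : ∀ x, ‖f x‖ ≤ C)
    (H : ∀ i (x : ι → HSpace), ∫ s, abelKernel (A i) (HSpace.coshDist (x i) s) *
      f (Function.update x i s) ∂HSpace.measure = c i * f x) (x : ι → HSpace) :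
    ∫ τ, (∏ i, testPP (hA i) (x i) (τ i)) * f τ ∂Measure.pi (fun _ : ι => HSpace.measure) =
      (∏ i, c i) * f x := by
  obtain ⟨n, ⟨e⟩⟩ := Finite.exists_equiv_fin ι
  rw [integral_pi_reindex e.symm]
  simp only [Equiv.symm_symm]
  have h := integral_pi_eigen (μ := HSpace.measure)
    (k := fun j p s => abelKernel (A (e.symm j)) (HSpace.coshDist p s))
    (fun j p => integrable_kernel (continuous_abelKernel (hA _))
      (hasCompactSupport_abelKernel (hA _)) p)
    (c := fun j => c (e.symm j)) (f := fun τ => f fun i => τ (e i))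
    (hf.comp (measurable_pi_lambda _ fun i => measurable_pi_apply _)) (C := C) (fun _ => hC _)
    (fun j τ => by
      have := H (e.symm j) fun i => τ (e i)
      simp only [Equiv.apply_symm_apply] at this
      refine Eq.trans (integral_congr_ae (Eventually.of_forall fun s => ?_)) this
      simp only
      congr 2
      funext i
      by_cases hij : i = e.symm j
      · subst hij; simp
      · rw [Function.update_of_ne hij, Function.update_of_ne]
        exact fun h => hij (by rw [← h, Equiv.symm_apply_apply]))
    (fun j => x (e.symm j))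
  have h1 : ∀ τ : Fin n → HSpace, (∏ i, testPP (hA i) (x i) (τ (e i))) =
      ∏ j, abelKernel (A (e.symm j)) (HSpace.coshDist (x (e.symm j)) (τ j)) := fun τ => by
    rw [← e.symm.prod_comp]
    refine Finset.prod_congr rfl fun j _ => ?_
    rw [Equiv.apply_symm_apply]
    rfl
  simp only [h1]
  rw [h, e.symm.prod_comp]
  simp

variable {K : Type*} [Field K] [NumberField K] {Φ : Frame K ι} {U : Subgroup (GfK K)}

theorem continuous_horo_uncurry : Continuous fun p : (ι → ℝ) × (ι → ℂ) => horo p.1 p.2 :=
  continuous_pi fun i => HSpace.continuous_iff_coords.mpr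
    (((continuous_apply i).comp continuous_snd).prodMk
      (Real.continuous_exp.comp ((continuous_apply i).comp continuous_fst)))

theorem measurable_constTerm (hU : IsLevel U) {φ : Space Φ U → ℂ} (hφ : IsNice φ) (y : Yf U) :
    Measurable (constTerm φ y) := by
  have hρ : ∀ i : ι, (0 : ℝ) < (fun _ => 1) i := fun _ => one_pos
  set V : ℂ := ((volume (polydisc fun _ : ι => (1 : ℝ))).toReal : ℂ)
  have hV : V ≠ 0 := by
    exact Complex.ofReal_ne_zero.mpr (volume_polydisc_toReal_pos hρ).ne'
  have hm : ∀ k : ℕ, Measurable fun x : ι → ℝ =>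
      V⁻¹ * ∫ z in polydisc (fun _ : ι => (1 : ℝ)), slice φ y x ((k : ℝ) • z) := fun k => by
    have hc : Measurable fun p : (ι → ℝ) × (ι → ℂ) => slice φ y p.1 ((k : ℝ) • p.2) :=
      (hφ.measurable y).comp (continuous_horo_uncurry.comp
        (continuous_fst.prodMk ((continuous_const_smul (k : ℝ)).comp continuous_snd))).measurable
    exact measurable_const.mul hc.stronglyMeasurable.integral_prod_right'.measurable
  refine measurable_of_tendsto_metrizable hm (tendsto_pi_nhds.mpr fun x => ?_)
  have h := (((hasMean_constTerm hU hφ y x) _ hρ).comp tendsto_natCast_atTop_atTop).const_mul V⁻¹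
  rw [← mul_assoc, inv_mul_cancel₀ hV, one_mul] at h
  exact h

theorem norm_constTerm_le (hU : IsLevel U) {φ : Space Φ U → ℂ} (hφ : IsNice φ) {C : ℝ}
    (hC : ∀ p, ‖φ p‖ ≤ C) (y : Yf U) (x : ι → ℝ) : ‖constTerm φ y x‖ ≤ C :=
  norm_le_of_hasMean (hasMean_constTerm hU hφ y x) fun z => hC _

/-- The archimedean integral along a horizontal slice. -/
theorem archInt_horo {A : ι → ℝ → ℂ} (hA : ∀ i, AbelTest (A i)) (φ : Space Φ U → ℂ) (y : Yf U)
    (x : ι → ℝ) (z : ι → ℂ) :
    archInt (fun i => testPP (hA i)) φ (horo x z) y =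
      ∫ τ, (∏ i, testPP (hA i) (horo x 0 i) (τ i)) *
        slice φ y (fun i => Real.log (τ i).r) (z + fun i => (τ i).z)
        ∂Measure.pi fun _ : ι => HSpace.measure := by
  set μ := Measure.pi fun _ : ι => HSpace.measure
  have hmp : MeasurePreserving (fun τ : ι → HSpace => fun i => unipotent (z i) • τ i) μ μ :=
    measurePreserving_pi _ _ fun i => HSpace.measurePreserving_const_smul _
  have hemb : MeasurableEmbedding (fun τ : ι → HSpace => fun i => unipotent (z i) • τ i) :=
    (MeasurableEquiv.piCongrRight fun i : ι =>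
      MeasurableEquiv.smul (α := HSpace) (unipotent (z i))).measurableEmbedding
  rw [archInt, ← hmp.integral_comp hemb]
  refine integral_congr_ae (Eventually.of_forall fun τ => ?_)
  simp only [slice]
  congr 1
  · refine Finset.prod_congr rfl fun i _ => ?_
    have e : horo x z i = unipotent (z i) • horo x 0 i := by
      rw [HSpace.unipotent_smul]; exact HSpace.ext (by simp [horo]) rfl
    rw [e]
    exact (testPP (hA i)).smul' _ _ _
  · congr 2
    funext i
    rw [HSpace.unipotent_smul]
    exact HSpace.ext (by simp [horo, add_comm]) (Real.exp_log (τ i).r_pos).symm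

/-- **The constant term of the archimedean integral.** -/
theorem hasMean_archInt (hU : IsLevel U) {A : ι → ℝ → ℂ} (hA : ∀ i, AbelTest (A i))
    {φ : Space Φ U → ℂ} (hφ : IsNice φ) (y : Yf U) (x : ι → ℝ) :
    HasMean (fun z => archInt (fun i => testPP (hA i)) φ (horo x z) y)
      (∫ t : ι → ℝ, (∏ i, A i (t i) * (Real.exp (-(t i)) : ℂ)) * constTerm φ y (x + t)) := by
  obtain ⟨C, hC⟩ := hφ.bounded
  set μ := Measure.pi fun _ : ι => HSpace.measure
  set k : (ι → HSpace) → ℂ := fun τ => ∏ i, testPP (hA i) (horo x 0 i) (τ i) with hk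
  set f : (ι → HSpace) → (ι → ℂ) → ℂ := fun τ z =>
    slice φ y (fun i => Real.log (τ i).r) (z + fun i => (τ i).z) with hf
  have hfc : Measurable (Function.uncurry f) := by
    have hc : Measurable (Function.uncurry f) := by
      refine (hφ.measurable y).comp
        (continuous_horo_uncurry.comp (Continuous.prodMk ?_ ?_)).measurable
      · exact continuous_pi fun i => Real.continuousOn_log.comp_continuous
          (HSpace.continuous_r.comp ((continuous_apply i).comp continuous_fst))
          fun p => (p.1 i).r_pos.ne'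
      · exact continuous_snd.add (continuous_pi fun i =>
          HSpace.continuous_z.comp ((continuous_apply i).comp continuous_fst))
    exact hc
  have hmean : ∀ τ, HasMean (f τ) (constTerm φ y fun i => Real.log (τ i).r) := fun τ =>
    (hasMean_constTerm hU hφ y _).translate (measurable_slice hφ y _) (norm_slice_le' hC y _) _
  have h := HasMean.integral (ν := μ) (k := k) (integrable_prod_ppker _ _) hfc
    (fun τ z => norm_slice_le' hC y _ _) hmean
  have hint : ∫ τ, k τ * constTerm φ y (fun i => Real.log (τ i).r) ∂μ =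
      ∫ t : ι → ℝ, (∏ i, A i (t i) * (Real.exp (-(t i)) : ℂ)) * constTerm φ y (x + t) := by
    rw [hk, integral_pi_abelKernel' hA _ (measurable_constTerm hU hφ y)
      (norm_constTerm_le hU hφ hC y)]
    simp only [horo, Real.log_exp]
    rfl
  rw [hint] at h
  convert h using 1
  funext z
  exact archInt_horo hA φ y x z

end Fermat.Agent.LT.Aleph
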