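import Fermat.Agent.LT.Aleph.Composite
import Fermat.Agent.LT.Spectral.CuspMean

/-!
# The images of the cuspidal operators lie in the cusp space

Bounded measurable invariant functions are square integrable on the quotient, so zero constant
term puts the images of the operators into the cuspidal classes.
-/

set_option autoImplicit false
set_option linter.unusedSectionVars false

noncomputable section

namespace Fermat.Agent.LT.Aleph

open MeasureTheory NumberField IsDedekindDomain Matrix
open Fermat.Agent.LT Fermat.Agent.LT.Adelic Fermat.Agent.LT.Descent Fermat.Agent.LT.Spectral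

variable {K : Type} [Field K] [NumberField K] {ι : Type} [Fintype ι] {Φ : Frame K ι}
  {U : Subgroup (GfK K)}

theorem IsNice.sum_const_mul {κ : Type} (s : Finset κ) (c : κ → ℂ) {F : κ → Space Φ U → ℂ}
    (h : ∀ e, IsNice (F e)) : IsNice fun x => ∑ e ∈ s, c e * F e x := by
  refine ⟨fun γ x => Finset.sum_congr rfl fun e _ => congrArg _ ((h e).invariant γ x), fun y =>
    Finset.measurable_sum _ fun e _ => ((h e).measurable y).const_mul _, ?_⟩
  choose C hC using fun e => (h e).bounded
  exact ⟨∑ e ∈ s, ‖c e‖ * C e, fun x => (norm_sum_le _ _).trans (Finset.sum_le_sum fun e _ => by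
    rw [norm_mul]; exact mul_le_mul_of_nonneg_left (hC e x) (norm_nonneg _))⟩

/-- A bounded measurable invariant function with zero constant term is cuspidal. -/
theorem IsNice.isCuspidalFn [DecidableEq ι] (D : QuotData Φ U) {φ : Space Φ U → ℂ}
    (hφ : IsNice φ) (hz : HasZeroMean φ) : IsCuspidalFn φ := by
  have := countable_yf D.level
  obtain ⟨C, hC⟩ := hφ.bounded
  have hm : Measurable φ := (hφ.sliceInt D.level).measurable
  exact isCuspidalFn_of_hasZeroMean (D := D) hm ((isInvariant_iff_pgl φ).mp hφ.invariant)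
    (MemLp.of_bound hm.aestronglyMeasurable C (Filter.Eventually.of_forall hC)) hz

section Operators

variable [DecidableEq ι] {V W : Type}

theorem isNice_alephOp (hU : IsLevel U) (place : W → ι) (len : W → ℝ) (gen : V → HKer U)
    {A0 : ι → ℝ → ℂ} (hA0 : ∀ i, AbelTest (A0 i)) (P : MvPolynomial (V ⊕ W) ℂ)
    {φ : Space Φ U → ℂ} (hφ : IsNice φ) : IsNice (alephOp place len gen hA0 P φ) :=
  IsNice.sum_const_mul _ _ fun _ => hφ.testOp hU _ _

end Operators

theorem isNice_alephOp3 {V W : Type} {Φ : Frame K Unit} (hU : IsLevel U) (place : W → Fin 3)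
    (len : W → ℝ) (gen : V → HKer U) {A0 : Fin 3 → ℝ → ℂ} (hA0 : ∀ i, AbelTest (A0 i))
    (P : MvPolynomial (V ⊕ W) ℂ) {φ : Space Φ U → ℂ} (hφ : IsNice φ) :
    IsNice (alephOp3 place len gen hA0 P φ) :=
  IsNice.sum_const_mul _ _ fun _ => hφ.testOp hU _ _

end Fermat.Agent.LT.Aleph
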