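import Fermat.Agent.LT.Adelic.IdeleClasses
import Fermat.Agent.LT.Adelic.Space
import Fermat.Agent.LT.Reduction.Frame
import Mathlib.RingTheory.Ideal.Norm.AbsNorm
import Mathlib.RingTheory.FractionalIdeal.Norm
import Mathlib.NumberTheory.NumberField.ClassNumber

/-!
# The group `F^× \ 𝔸^× / U₁(n)` and the idele norm

`ClassC Φ n` is `(𝔸_f^× × ℝ^ι) / (K^× · U₁(n))`, the real coordinates being logarithms of heights;
its quotient by `ℝ^ι` is finite.  `normChar a` is `|a|_f ^ (1/2)`.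
-/

set_option autoImplicit false
set_option maxHeartbeats 400000
set_option linter.unusedSectionVars false

noncomputable section

namespace Fermat.Agent.LT.Aleph

open IsDedekindDomain NumberField WithZero
open Fermat.Agent.LT.Adelic
open scoped nonZeroDivisors

variable {K : Type} [Field K] [NumberField K]

local notation "Af" => FiniteAdeleRing (𝓞 K) K

theorem ideleIdeal_mul (s t : Afˣ) : ideleIdeal (s * t) = ideleIdeal s * ideleIdeal t := by
  rw [ideleIdeal, ideleIdeal, ideleIdeal, ← finprod_mul_distrib]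
  · refine finprod_congr fun v => ?_
    rw [ordAt_mul, zpow_add₀ ((FractionalIdeal.coeIdeal_ne_zero (K := K)).mpr v.ne_bot)]
  · exact (Filter.eventually_cofinite.mp (ordAt_eventually_zero s)).subset fun v hv h0 => hv (by
      simp only; rw [h0, zpow_zero])
  · exact (Filter.eventually_cofinite.mp (ordAt_eventually_zero t)).subset fun v hv h0 => hv (by
      simp only; rw [h0, zpow_zero])

theorem ideleIdeal_principal (x : Kˣ) :
    ideleIdeal (principalIdele x : Afˣ) = FractionalIdeal.spanSingleton (𝓞 K)⁰ (x : K) := by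
  rw [ideleIdeal]
  rw [finprod_congr fun v => by rw [ordAt_principalIdele]]
  exact FractionalIdeal.finprod_heightOneSpectrum_factorization' (K := K)
    (FractionalIdeal.spanSingleton_ne_zero_iff.mpr x.ne_zero)

theorem ideleIdeal_eq_one {u : Afˣ} (hu : IsUnitIdele u) : ideleIdeal u = 1 := by
  rw [ideleIdeal]
  refine finprod_eq_one_of_forall_eq_one fun v => ?_
  rw [ordAt, hu v, log_one, neg_zero, zpow_zero]

/-- The norm of the ideal of an idele. -/
def ideleNorm (a : Afˣ) : ℝ := ((FractionalIdeal.absNorm (ideleIdeal a) : ℚ) : ℝ)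

theorem ideleNorm_pos (a : Afˣ) : 0 < ideleNorm a := by
  rw [ideleNorm]
  exact_mod_cast lt_of_le_of_ne (FractionalIdeal.absNorm_nonneg _)
    (Ne.symm (FractionalIdeal.absNorm_eq_zero_iff.not.mpr (ideleIdeal_ne_zero a)))

theorem ideleNorm_mul (a b : Afˣ) : ideleNorm (a * b) = ideleNorm a * ideleNorm b := by
  rw [ideleNorm, ideleIdeal_mul, map_mul, Rat.cast_mul]; rfl

/-- `|a|_f ^ (1/2)`. -/
def normChar (a : Afˣ) : ℂ := ((Real.sqrt (ideleNorm a))⁻¹ : ℝ)

theorem normChar_ne_zero (a : Afˣ) : normChar a ≠ 0 := by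
  rw [normChar, Complex.ofReal_ne_zero]
  exact inv_ne_zero (Real.sqrt_ne_zero'.mpr (ideleNorm_pos a))

theorem normChar_mul (a b : Afˣ) : normChar (a * b) = normChar a * normChar b := by
  rw [normChar, ideleNorm_mul, Real.sqrt_mul (ideleNorm_pos a).le, mul_inv, Complex.ofReal_mul]
  rfl

theorem normChar_eq_one {u : Afˣ} (hu : IsUnitIdele u) : normChar u = 1 := by
  simp [normChar, ideleNorm, ideleIdeal_eq_one hu]

theorem normChar_uniformiser {v : HeightOneSpectrum (𝓞 K)} {ϖ : Afˣ} (h : IsUniformiserAt v ϖ) :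
    normChar ϖ = ((Real.sqrt (Ideal.absNorm v.asIdeal))⁻¹ : ℝ) := by
  have e : ideleIdeal ϖ = (v.asIdeal : FractionalIdeal (𝓞 K)⁰ K) := by
    rw [ideleIdeal, finprod_eq_single _ v fun w hw => ?_]
    · rw [ordAt, h.1, log_exp, neg_neg, zpow_one]
    · rw [ordAt, h.2 w hw, map_one, log_one, neg_zero, zpow_zero]
  rw [normChar, ideleNorm, e, FractionalIdeal.coeIdeal_absNorm]
  simp

variable {ι : Type} [Fintype ι] (Φ : Frame K ι)

theorem normChar_principal (x : Kˣ) :
    normChar (principalIdele x : Afˣ) * ((∏ i, ‖Φ.emb i (x : K)‖ : ℝ) : ℂ) = 1 := by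
  have hF : Reduction.IsFrame Φ.emb :=
    ⟨Φ.bij, fun w => by obtain ⟨i, rfl⟩ := Φ.bij.2 w; exact Φ.complex i⟩
  have hpos : 0 < ∏ i, ‖Φ.emb i (x : K)‖ :=
    Finset.prod_pos fun i _ => norm_pos_iff.mpr (by simp)
  have e : ideleNorm (principalIdele x : Afˣ) = (∏ i, ‖Φ.emb i (x : K)‖) ^ 2 := by
    rw [ideleNorm, ideleIdeal_principal, FractionalIdeal.absNorm_span_singleton,
      ← Finset.prod_pow, hF.prod_norm_sq]
    simp
  rw [normChar, e, Real.sqrt_sq hpos.le, ← Complex.ofReal_mul, inv_mul_cancel₀ hpos.ne',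
    Complex.ofReal_one]

/-- Unit ideles congruent to one modulo `n`. -/
def rayUnits (n : 𝓞 K) : Subgroup Afˣ where
  carrier := {u | IsUnitIdele u ∧ MemMul n ((u : Af) - 1)}
  one_mem' := ⟨fun v => by rw [Units.val_one, coe_apply_one, map_one],
    by rw [Units.val_one, sub_self]; exact memMul_zero_right n⟩
  mul_mem' := by
    rintro a b ⟨ha, ha'⟩ ⟨hb, hb'⟩
    refine ⟨fun v => by rw [Units.val_mul, coe_apply_mul, map_mul, ha v, hb v, one_mul], ?_⟩
    have e : ((a * b : Afˣ) : Af) - 1 = ((a : Af) - 1) * (b : Af) + ((b : Af) - 1) := by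
      rw [Units.val_mul]; ring
    rw [e]
    exact (ha'.mul_int fun v => (hb v).le).add hb'
  inv_mem' := by
    rintro a ⟨ha, ha'⟩
    refine ⟨ha.inv, ?_⟩
    have e : ((a⁻¹ : Afˣ) : Af) - 1 = (-((a : Af) - 1)) * ((a⁻¹ : Afˣ) : Af) := by
      rw [neg_mul, sub_mul, Units.mul_inv, one_mul, neg_sub]
    rw [e]
    exact ha'.neg.mul_int fun v => (ha.inv v).le

/-- Logarithms of the absolute values, as a homomorphism. -/
def logEmb : Additive Kˣ →+ (ι → ℝ) where
  toFun x i := Real.log ‖Φ.emb i ((x.toMul : Kˣ) : K)‖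
  map_zero' := by ext i; simp
  map_add' x y := by
    ext i
    rw [toMul_add, Units.val_mul, map_mul, norm_mul, Real.log_mul (by simp) (by simp)]
    rfl

/-- The relations. -/
def rels (n : 𝓞 K) : AddSubgroup (Additive Afˣ × (ι → ℝ)) :=
  ((FiniteAdeleRing.unitEmbedding (𝓞 K) K).toAdditive.prod (logEmb Φ)).range ⊔
    (Subgroup.toAddSubgroup (rayUnits n)).map (AddMonoidHom.inl _ _)

/-- `F^× \ 𝔸^× / U₁(n)`. -/
abbrev ClassC (n : 𝓞 K) : Type := (Additive Afˣ × (ι → ℝ)) ⧸ rels Φ n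

instance instAddCommGroupClassC (n : 𝓞 K) : AddCommGroup (ClassC Φ n) :=
  QuotientAddGroup.Quotient.addCommGroup _

/-- The class of `(a, x)`. -/
def classMk (n : 𝓞 K) (a : Afˣ) (x : ι → ℝ) : ClassC Φ n :=
  QuotientAddGroup.mk (Additive.ofMul a, x)

variable {Φ} {n : 𝓞 K}

theorem classMk_add (a b : Afˣ) (x y : ι → ℝ) :
    classMk Φ n (a * b) (x + y) = classMk Φ n a x + classMk Φ n b y := rfl

theorem classMk_surjective : ∀ c : ClassC Φ n, ∃ a x, classMk Φ n a x = c := fun c => by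
  induction c using QuotientAddGroup.induction_on with
  | H p => exact ⟨p.1.toMul, p.2, rfl⟩

theorem classMk_principal (α : Kˣ) (a : Afˣ) (x : ι → ℝ) :
    classMk Φ n (principalIdele α * a) (fun i => x i + Real.log ‖Φ.emb i (α : K)‖) =
      classMk Φ n a x := by
  rw [show (fun i => x i + Real.log ‖Φ.emb i (α : K)‖) = logEmb Φ (Additive.ofMul α) + x from
    funext fun i => add_comm _ _, classMk_add, add_eq_right]
  exact (QuotientAddGroup.eq_zero_iff _).mpr (le_sup_left (α := AddSubgroup _) ⟨Additive.ofMul α, rfl⟩)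

theorem classMk_rayUnit {u : Afˣ} (hu : u ∈ rayUnits n) (a : Afˣ) (x : ι → ℝ) :
    classMk Φ n (u * a) x = classMk Φ n a x := by
  conv_lhs => rw [show x = (0 : ι → ℝ) + x from (zero_add x).symm]
  rw [classMk_add, add_eq_right]
  exact (QuotientAddGroup.eq_zero_iff _).mpr
    (le_sup_right (α := AddSubgroup _) ⟨Additive.ofMul u, hu, rfl⟩)

/-- A function of `(a, x)` invariant under the relations descends. -/
theorem exists_lift (g : Afˣ → (ι → ℝ) → ℂ)
    (hp : ∀ (α : Kˣ) a x, g (principalIdele α * a) (fun i => x i + Real.log ‖Φ.emb i (α : K)‖) =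
      g a x)
    (hu : ∀ u ∈ rayUnits n, ∀ a x, g (u * a) x = g a x) :
    ∃ G : ClassC Φ n → ℂ, ∀ a x, G (classMk Φ n a x) = g a x := by
  refine ⟨Quotient.lift (fun p => g p.1.toMul p.2) ?_, fun a x => rfl⟩
  rintro ⟨a, x⟩ ⟨b, y⟩ h
  have h' := QuotientAddGroup.leftRel_apply.mp h
  rw [rels, AddSubgroup.mem_sup] at h'
  obtain ⟨_, ⟨α, rfl⟩, _, ⟨u, hu', rfl⟩, e⟩ := h'
  simp only [AddMonoidHom.prod_apply, AddMonoidHom.inl_apply, Prod.mk_add_mk, Prod.neg_mk,
    add_zero, Prod.mk.injEq] at e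
  obtain ⟨e1, e2⟩ := e
  have hb : b.toMul = u.toMul * (principalIdele α.toMul * a.toMul) := by
    have e1' := congrArg Additive.toMul e1
    simp only [toMul_add, toMul_neg] at e1'
    rw [show principalIdele α.toMul = a.toMul⁻¹ * b.toMul * u.toMul⁻¹ by
      rw [← e1']; exact (mul_inv_cancel_right _ _).symm]
    rw [mul_comm a.toMul⁻¹, mul_comm (b.toMul) a.toMul⁻¹]
    simp [mul_comm, mul_left_comm]
  have hy : y = fun i => x i + Real.log ‖Φ.emb i ((α.toMul : Kˣ) : K)‖ := funext fun i => by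
    have := congrFun e2 i
    simp [logEmb] at this ⊢
    linarith
  show g a.toMul x = g b.toMul y
  rw [hb, hu u.toMul hu', hy, hp]

variable (Φ n)

/-- The real vector group inside. -/
def classIota : (ι → ℝ) →+ ClassC Φ n :=
  (QuotientAddGroup.mk' (rels Φ n)).comp (AddMonoidHom.inr _ _)

theorem classIota_apply (t : ι → ℝ) : classIota Φ n t = classMk Φ n 1 t := rfl

theorem mem_rayUnits_of_congr {w u : Afˣ} (hw : IsUnitIdele w) (hu : IsUnitIdele u) {r r' c : 𝓞 K}
    (hr : MemMul n ((u : Af) - algebraMap (𝓞 K) Af r))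
    (hr' : MemMul n ((w : Af) - algebraMap (𝓞 K) Af r')) (hc : c * n = r - r') :
    w⁻¹ * u ∈ rayUnits n := by
  refine ⟨fun v => by rw [Units.val_mul, coe_apply_mul, map_mul, hw.inv v, hu v, one_mul], ?_⟩
  have e : ((w⁻¹ * u : Afˣ) : Af) - 1 = ((w⁻¹ : Afˣ) : Af) *
      (((u : Af) - algebraMap (𝓞 K) Af r) - ((w : Af) - algebraMap (𝓞 K) Af r') +
        algebraMap (𝓞 K) Af (c * n)) := by
    rw [hc, map_sub, Units.val_mul]
    linear_combination (w.inv_mul)
  rw [e]
  refine MemMul.int_mul (fun v => (hw.inv v).le) ((hr.sub hr').add ?_)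
  rw [map_mul]
  exact MemMul.int_mul (algebraMap_mem_intAdele c) (memMul_algebraMap n)

theorem exists_finite_rayUnit_reps (hn : n ≠ 0) :
    ∃ S : Set Afˣ, S.Finite ∧ ∀ u, IsUnitIdele u → ∃ s ∈ S, s⁻¹ * u ∈ rayUnits n := by
  classical
  have : Finite (𝓞 K ⧸ Ideal.span ({n} : Set (𝓞 K))) :=
    Ring.HasFiniteQuotients.finiteQuotient (by simpa using hn)
  have hr : ∀ u : {u : Afˣ // IsUnitIdele u}, ∃ r : 𝓞 K,
      MemMul n ((u.1 : Af) - algebraMap (𝓞 K) Af r) := fun u =>
    exists_int_memMul (fun v => (u.2 v).le) hn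
  choose r hr using hr
  obtain ⟨pick, hpick⟩ : ∃ pick : 𝓞 K ⧸ Ideal.span ({n} : Set (𝓞 K)) → Afˣ,
      ∀ u : {u : Afˣ // IsUnitIdele u}, ∃ w : {u : Afˣ // IsUnitIdele u},
        pick (Ideal.Quotient.mk _ (r u)) = w.1 ∧ r u - r w ∈ Ideal.span ({n} : Set (𝓞 K)) := by
    refine ⟨fun c => if h : ∃ w, Ideal.Quotient.mk _ (r w) = c then h.choose.1 else 1, fun u => ?_⟩
    have h : ∃ w, Ideal.Quotient.mk (Ideal.span ({n} : Set (𝓞 K))) (r w) =
      Ideal.Quotient.mk _ (r u) := ⟨u, rfl⟩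
    exact ⟨h.choose, dif_pos h, Ideal.Quotient.eq.mp h.choose_spec.symm⟩
  refine ⟨Set.range pick, Set.finite_range pick, fun u hu => ?_⟩
  obtain ⟨w, hw, hd⟩ := hpick ⟨u, hu⟩
  obtain ⟨c, hc⟩ := Ideal.mem_span_singleton'.mp hd
  exact ⟨w.1, ⟨_, hw⟩, mem_rayUnits_of_congr n w.2 hu (hr ⟨u, hu⟩) (hr w) hc⟩

/-- The quotient by the real vector group is finite. -/
theorem finite_classQuot (hn : n ≠ 0) : Finite (ClassC Φ n ⧸ (classIota Φ n).range) := by
  obtain ⟨T, hT, hTc⟩ := exists_finite_idele_reps (R := 𝓞 K) (K := K)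
  obtain ⟨S, hS, hSc⟩ := exists_finite_rayUnit_reps (n := n) hn
  have : Finite (S ×ˢ T : Set _) := (hS.prod hT).to_subtype
  refine Finite.of_surjective (fun p : (S ×ˢ T : Set _) =>
    (classMk Φ n (p.1.1 * p.1.2) 0 : ClassC Φ n ⧸ (classIota Φ n).range)) fun q => ?_
  induction q using QuotientAddGroup.induction_on with
  | H c =>
    obtain ⟨a, x, rfl⟩ := classMk_surjective c
    obtain ⟨t, ht, α, u, hu, rfl⟩ := hTc a
    obtain ⟨s, hs, hsu⟩ := hSc u hu
    refine ⟨⟨(s, t), hs, ht⟩, ?_⟩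
    refine QuotientAddGroup.eq.mpr ?_
    refine ⟨x - fun i => Real.log ‖Φ.emb i (α : K)‖, ?_⟩
    rw [neg_add_eq_sub, eq_sub_iff_add_eq', classIota_apply, ← classMk_add, zero_add,
      show principalIdele α * t * u = principalIdele α * ((s⁻¹ * u) * (s * t)) by
        rw [mul_assoc]; congr 1; rw [mul_comm s t, mul_comm (s⁻¹ * u), mul_assoc t,
          mul_inv_cancel_left], mul_one,
      show x = fun i => (x - fun i => Real.log ‖Φ.emb i (α : K)‖) i +
        Real.log ‖Φ.emb i (α : K)‖ from funext fun i => by simp]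
    rw [classMk_principal, classMk_rayUnit hsu]
    congr 1
    funext i
    simp

end Fermat.Agent.LT.Aleph
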