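import Fermat.Agent.LT.Aleph.Operator

/-!
# The value of a polynomial operator on an eigenform
-/

set_option autoImplicit false
set_option linter.unusedSectionVars false

noncomputable section

namespace Fermat.Agent.LT.Aleph

open MeasureTheory NumberField IsDedekindDomain Matrix Filter
open Fermat.Agent.LT Fermat.Agent.LT.Adelic Fermat.Agent.LT.Descent

theorem sphTransform_abelKernel {A : ℝ → ℂ} (hA : AbelTest A) :
    sphTransform (abelKernel A) 0 = ∫ t, A t := by
  have hF : LocallyIntegrableOn (fun r : ℝ => (r : ℂ)) (Set.Ioi 0) :=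
    Complex.continuous_ofReal.locallyIntegrable.locallyIntegrableOn _
  rw [sphTransform]
  simp only [add_zero, Complex.cpow_one]
  rw [integral_abelKernel hA hF]
  refine integral_congr_ae (Eventually.of_forall fun t => ?_)
  simp only [HSpace.base, one_mul]
  rw [mul_assoc, ← Complex.ofReal_mul, ← Real.exp_add, neg_add_cancel, Real.exp_zero,
    Complex.ofReal_one, mul_one]

theorem integral_symShiftFun {A : ℝ → ℂ} (hA : AbelTest A) (L : ℝ) :
    ∫ t, symShiftFun L A t = 2 * ∫ t, A t := by
  have hI : Integrable A := hA.contDiff.continuous.integrable_of_hasCompactSupport hA.compact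
  simp only [symShiftFun]
  rw [integral_add (hI.comp_add_right L) (hI.comp_sub_right L), integral_add_right_eq_self,
    integral_sub_right_eq_self A L, two_mul]

variable {K : Type} [Field K] [NumberField K] {ι : Type} [Fintype ι] [DecidableEq ι]
  {Φ : Frame K ι} {U : Subgroup (GfK K)} {V W : Type}
  (place : W → ι) (len : W → ℝ) {A0 : ι → ℝ → ℂ}

theorem testOp_eigen (hU : IsLevel U) {A : ι → ℝ → ℂ} (hA : ∀ i, AbelTest (A i)) (f : HKer U)
    {φ : Space Φ U → ℂ} (hφ : IsNice φ) (hs : IsSphericalEigen φ 0) (c : ℂ)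
    (hf : ∀ τ y, kerApply f (fun y' => φ (Space.mk τ y')) y = c * φ (Space.mk τ y))
    (x : Space Φ U) :
    testOp (fun i => testPP (hA i)) f φ x = c * (∏ i, ∫ t, A i t) * φ x := by
  obtain ⟨C, hC⟩ := hφ.bounded
  have harch : ∀ y, archInt (fun i => testPP (hA i)) φ x.pt y =
      (∏ i, ∫ t, A i t) * φ (Space.mk x.pt y) := fun y =>
    integral_pi_eigen' hA (hφ.measurable y) (C := C) (fun _ => hC _) (fun i τ => by
      rw [← sphTransform_abelKernel (hA i)]
      exact hs _ (continuous_abelKernel (hA i)) (hasCompactSupport_abelKernel (hA i)) i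
        (Space.mk τ y)) x.pt
  rw [testOp_eq hU _ _ hφ, funext harch, kerApply, finsum_congr fun y =>
    (mul_left_comm (f x.fin y) (∏ i, ∫ t, A i t) (φ (Space.mk x.pt y))),
    ← mul_finsum]
  show (∏ i, ∫ t, A i t) * kerApply f (fun y' => φ (Space.mk x.pt y')) x.fin = _
  rw [hf, Space.mk_pt_fin]
  ring

theorem prod_integral_wordArch (hA0 : ∀ i, AbelTest (A0 i)) : ∀ l : List (V ⊕ W),
    ∏ i, ∫ t, wordArch place len A0 l i t =
      (l.map (Sum.elim (fun _ => (1 : ℂ)) fun _ => 2)).prod * ∏ i, ∫ t, A0 i t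
  | [] => by simp [wordArch]
  | Sum.inl _ :: l => by simp [wordArch, prod_integral_wordArch hA0 l]
  | Sum.inr w :: l => by
    set B := wordArch place len A0 l with hB
    have h : ∀ i, (∫ t, wordArch place len A0 (Sum.inr w :: l) i t) =
        (if i = place w then 2 else 1) * ∫ t, B i t := fun i => by
      rw [wordArch, ← hB]
      by_cases h : i = place w
      · subst h
        rw [Function.update_self, if_pos rfl,
          integral_symShiftFun (abelTest_wordArch place len hA0 l _)]
      · rw [Function.update_of_ne h, if_neg h, one_mul]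
    simp only [h, Finset.prod_mul_distrib, Finset.prod_ite_eq', Finset.mem_univ, if_true,
      List.map_cons, List.prod_cons, Sum.elim_inr]
    rw [hB, prod_integral_wordArch hA0 l, mul_assoc]

theorem kerApply_wordKer {gen : V → HKer U} {ψ : Yf U → ℂ} {lam : V → ℂ}
    (h : ∀ v, kerApply (gen v) ψ = lam v • ψ) : ∀ l : List (V ⊕ W),
    kerApply (wordKer gen l) ψ = (l.map (Sum.elim lam fun _ => (1 : ℂ))).prod • ψ
  | [] => by simp [wordKer, kerApply_id]
  | Sum.inl v :: l => by
    rw [wordKer, kerApply_comp, kerApply_wordKer h l]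
    funext y
    have hv := congrFun (h v) y
    simp only [kerApply, Pi.smul_apply, smul_eq_mul, List.map_cons, List.prod_cons,
      Sum.elim_inl] at hv ⊢
    rw [finsum_congr fun y' => mul_left_comm (gen v y y') _ (ψ y'),
      ← mul_finsum, hv]
    ring
  | Sum.inr w :: l => by simp [wordKer, kerApply_wordKer h l]

/-- **The scalar of `alephOp P` on an eigenform.** -/
theorem alephOp_eigen (hU : IsLevel U) (gen : V → HKer U) (hA0 : ∀ i, AbelTest (A0 i))
    (P : MvPolynomial (V ⊕ W) ℂ) {φ : Space Φ U → ℂ} (hφ : IsNice φ) (hs : IsSphericalEigen φ 0)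
    {lam : V → ℂ}
    (hgen : ∀ v τ, kerApply (gen v) (fun y => φ (Space.mk τ y)) =
      lam v • fun y => φ (Space.mk τ y)) (x : Space Φ U) :
    alephOp place len gen hA0 P φ x =
      MvPolynomial.eval (Sum.elim lam fun _ => 2) P * (∏ i, ∫ t, A0 i t) * φ x := by
  rw [alephOp, MvPolynomial.eval_eq, Finset.sum_mul, Finset.sum_mul]
  refine Finset.sum_congr rfl fun e _ => ?_
  rw [testOp_eigen hU _ _ hφ hs ((wordOf e).map (Sum.elim lam fun _ => (1 : ℂ))).prod
    fun τ y => congrFun (kerApply_wordKer (fun v => hgen v τ) (wordOf e)) y,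
    prod_integral_wordArch place len hA0, ← mul_assoc (List.prod _), ← List.prod_map_mul]
  have e1 : ((wordOf e).map fun s => Sum.elim lam (fun _ => (1 : ℂ)) s *
      Sum.elim (fun _ => (1 : ℂ)) (fun _ => 2) s).prod =
      ∏ s ∈ e.support, Sum.elim lam (fun _ => (2 : ℂ)) s ^ e s := by
    rw [List.map_congr_left (g := Sum.elim lam fun _ => (2 : ℂ)) fun s _ => by cases s <;> simp,
      ← Multiset.prod_coe, ← Multiset.map_coe, wordOf, Multiset.coe_toList,
      Finsupp.toMultiset_apply, Finsupp.sum, ← Multiset.coe_mapAddMonoidHom, map_sum,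
      Multiset.prod_sum]
    refine Finset.prod_congr rfl fun s _ => ?_
    simp [Multiset.map_nsmul, Multiset.prod_nsmul]
  rw [e1]
  ring

end Fermat.Agent.LT.Aleph
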