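import Fermat.Agent.LT.Aleph.Operator
import Fermat.Agent.LT.Aleph.Eigen
import Fermat.Agent.LT.Descent.TestOperator
import Fermat.Agent.LT.Descent.ArchCompose

/-!
# The matched operator on the base

Over a field with one complex place three archimedean factors become one composed kernel.  Its
constant term is the threefold convolution, so the same polynomial kills it.
-/

set_option autoImplicit false
set_option linter.unusedSectionVars false

noncomputable section

namespace Fermat.Agent.LT.Aleph

open MeasureTheory NumberField IsDedekindDomain Matrix Filter AddMonoidAlgebra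
open Fermat.Agent.LT Fermat.Agent.LT.Adelic Fermat.Agent.LT.Descent

/-- The composite of three kernels. -/
def composite3 (k : Fin 3 → PPKer) : PPKer := PPKer.comp (k 0) (PPKer.comp (k 1) (k 2))

theorem isComposite3_composite3 (k : Fin 3 → PPKer) : IsComposite3 (composite3 k) k :=
  fun _ _ => rfl

/-- Coordinates on three copies of the line. -/
def threeReal : (Fin 3 → ℝ) ≃ᵐ ℝ × ℝ × ℝ :=
  (MeasurableEquiv.piFinSuccAbove (fun _ => ℝ) 0).trans
    ((MeasurableEquiv.refl ℝ).prodCongr MeasurableEquiv.finTwoArrow)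

theorem threeReal_apply (t : Fin 3 → ℝ) : threeReal t = (t 0, t 1, t 2) := rfl

theorem measurePreserving_threeReal : MeasurePreserving threeReal :=
  (volume_preserving_piFinSuccAbove (fun _ : Fin 3 => ℝ) 0).trans
    ((MeasurePreserving.id volume).prod (volume_preserving_finTwoArrow ℝ))

/-- An integral over three lines of a function of the sum. -/
theorem integral_three_sum (f : Fin 3 → ℝ → ℂ) (hf : ∀ i, Integrable (f i)) {H : ℝ → ℂ}
    (hH : Measurable H) {C : ℝ} (hC : ∀ s, ‖H s‖ ≤ C) :
    ∫ t : Fin 3 → ℝ, (∏ i, f i (t i)) * H (∑ i, t i) =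
      ∫ a, f 0 a * ∫ b, f 1 b * ∫ c, f 2 c * H (a + (b + c)) := by
  let F : ℝ × ℝ × ℝ → ℂ := fun p => f 0 p.1 * (f 1 p.2.1 * (f 2 p.2.2 * H (p.1 + (p.2.1 + p.2.2))))
  have he : (fun t : Fin 3 → ℝ => (∏ i, f i (t i)) * H (∑ i, t i)) = F ∘ threeReal := by
    funext t
    simp only [Function.comp_apply, threeReal_apply, F, Fin.prod_univ_three, Fin.sum_univ_three,
      mul_assoc, add_assoc]
  have hint : Integrable fun t : Fin 3 → ℝ => (∏ i, f i (t i)) * H (∑ i, t i) := by
    rw [volume_pi]
    exact (Integrable.fintype_prod (E := ℝ) hf).mul_bdd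
      (hH.comp (Finset.measurable_sum _ fun i _ => measurable_pi_apply i)).aestronglyMeasurable
      (Eventually.of_forall fun t => hC _)
  have hF : Integrable F :=
    (measurePreserving_threeReal.integrable_comp_emb threeReal.measurableEmbedding).mp (he ▸ hint)
  rw [he, Function.comp_def,
    measurePreserving_threeReal.integral_comp threeReal.measurableEmbedding,
    Measure.volume_eq_prod, integral_prod F hF]
  refine integral_congr_ae (hF.prod_right_ae.mono fun a ha => ?_)
  simp only
  rw [Measure.volume_eq_prod, integral_prod _ ha, ← integral_const_mul]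
  refine integral_congr_ae (Eventually.of_forall fun b => ?_)
  simp only [F]
  rw [integral_const_mul, integral_const_mul]

theorem integral_unit_fun (F : ℝ → ℂ) : ∫ t : Unit → ℝ, F (t ()) = ∫ s, F s :=
  (volume_preserving_funUnique Unit ℝ).integral_comp' F

variable {K : Type} [Field K] [NumberField K] {U : Subgroup (GfK K)}

theorem id_comp_apply (f : HKer U) (y z : Yf U) : (HKer.id U).comp f y z = f y z := by
  classical
  show ∑ᶠ w, HKer.id U y w * f w z = f y z
  rw [finsum_eq_single _ y fun w hw => ?_]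
  · show (if y = y then (1 : ℂ) else 0) * _ = _
    rw [if_pos rfl, one_mul]
  · show (if y = w then (1 : ℂ) else 0) * _ = _
    rw [if_neg (Ne.symm hw), zero_mul]

theorem comp_id_apply (f : HKer U) (y z : Yf U) : f.comp (HKer.id U) y z = f y z := by
  classical
  show ∑ᶠ w, f y w * HKer.id U w z = f y z
  rw [finsum_eq_single _ z fun w hw => ?_]
  · show _ * (if z = z then (1 : ℂ) else 0) = _
    rw [if_pos rfl, mul_one]
  · show _ * (if w = z then (1 : ℂ) else 0) = _
    rw [if_neg hw, mul_zero]

theorem kerCT_id {ι : Type} (c : Yf U → (ι → ℝ) → ℂ) (y : Yf U) (x : ι → ℝ) :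
    kerCT (HKer.id U) c y x = c y x := by
  simp only [kerCT, kerApply_id]

section Nice

variable {ι : Type} [Fintype ι] {Φ : Frame K ι}

theorem IsNice.sliceInt (hU : IsLevel U) {φ : Space Φ U → ℂ} (hφ : IsNice φ) : SliceInt φ := by
  have := countable_yf hU
  obtain ⟨C, hC⟩ := hφ.bounded
  refine ⟨Space.measurable_iff.mpr hφ.measurable, fun y =>
    (locallyIntegrable_const C).mono (hφ.measurable y).aestronglyMeasurable
      (Eventually.of_forall fun τ => (hC _).trans (Real.le_norm_self C))⟩

/-- A test operator preserves the standing hypotheses. -/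
theorem IsNice.testOp (hU : IsLevel U) {φ : Space Φ U → ℂ} (hφ : IsNice φ) (k : ι → PPKer)
    (f : HKer U) : IsNice (testOp k f φ) := by
  have := countable_yf hU
  refine ⟨isInvariant_testOp k f hφ.invariant,
    fun y => (continuous_testOp k f (hφ.sliceInt hU) y).measurable, ?_⟩
  obtain ⟨C, hC⟩ := hφ.bounded
  obtain ⟨M, hM⟩ := exists_schurBound (Φ := Φ) k f
  refine ⟨(M : ℝ) * |C|, fun x => ?_⟩
  rw [Descent.testOp]
  have hle : ∫⁻ y, ‖testKernel k f x y‖ₑ ∂Space.measure Φ U ≤ (M : ENNReal) := hM.row x
  have hm : AEStronglyMeasurable (fun y => testKernel k f x y) (Space.measure Φ U) :=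
    (measurable_testKernel_comp k f (a := fun _ => x) measurable_const
      measurable_id).aestronglyMeasurable
  have hint : Integrable (fun y => testKernel k f x y) (Space.measure Φ U) :=
    ⟨hm, lt_of_le_of_lt hle ENNReal.coe_lt_top⟩
  refine (norm_integral_le_of_norm_le (hint.norm.mul_const |C|) (Eventually.of_forall fun y => ?_)).trans ?_
  · rw [norm_mul]
    exact mul_le_mul_of_nonneg_left ((hC y).trans (le_abs_self C)) (norm_nonneg _)
  · rw [integral_mul_const, integral_norm_eq_lintegral_enorm hm]
    exact mul_le_mul_of_nonneg_right (ENNReal.toReal_le_coe_of_le_coe hle) (abs_nonneg C)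

end Nice

variable {Φ : Frame K Unit}

/-- The sum of three lines. -/
def sumThree : (Fin 3 → ℝ) →+ (Unit → ℝ) where
  toFun t _ := ∑ i, t i
  map_zero' := funext fun _ => by simp
  map_add' t u := funext fun _ => by simp [Finset.sum_add_distrib]

theorem measurable_sumThree : Measurable sumThree :=
  measurable_pi_lambda _ fun _ => Finset.measurable_sum Finset.univ fun i _ => measurable_pi_apply i

/-- **The constant term of a composed test operator.** -/
theorem hasMean_testOp3 (hU : IsLevel U) {A : Fin 3 → ℝ → ℂ} (hA : ∀ i, AbelTest (A i))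
    (h : HKer U) {φ : Space Φ U → ℂ} (hφ : IsNice φ) (y : Yf U) (x : Unit → ℝ) :
    HasMean (fun z => testOp (fun _ => composite3 fun i => testPP (hA i)) h φ
          (Space.mk (horo x z) y))
        (∫ t : Fin 3 → ℝ, (∏ i, A i (t i) * (Real.exp (-(t i)) : ℂ)) *
          kerCT h (constTerm φ) y (x + sumThree t)) ∧
      Measurable (fun z => testOp (fun _ => composite3 fun i => testPP (hA i)) h φ
        (Space.mk (horo x z) y)) ∧
      ∃ C, ∀ z, ‖testOp (fun _ => composite3 fun i => testPP (hA i)) h φ
        (Space.mk (horo x z) y)‖ ≤ C := by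
  have := countable_yf hU
  set k : Fin 3 → (Unit → PPKer) := fun i _ => testPP (hA i) with hk
  set φ₂ := testOp (k 2) h φ with hφ₂
  set φ₁ := testOp (k 1) (HKer.id U) φ₂ with hφ₁
  have hn₂ : IsNice φ₂ := hφ.testOp hU _ _
  have hn₁ : IsNice φ₁ := hn₂.testOp hU _ _
  have heq : testOp (fun _ => composite3 fun i => testPP (hA i)) h φ =
      testOp (k 0) (HKer.id U) φ₁ := by
    rw [hφ₁, hφ₂, testOp_comp (k 0) (k 1) _ _ ((hφ.sliceInt hU).testOp _ _),
      testOp_comp _ (k 2) _ h (hφ.sliceInt hU)]
    refine congrFun (testOp_congr (fun _ p q => ?_) fun a b => ?_) φ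
    · exact (PPKer.comp_assoc _ _ _ p q).symm
    · have e : ∀ c d, (HKer.id U).comp (HKer.id U) c d = HKer.id U c d := id_comp_apply _
      show h a b = ∑ᶠ w, (HKer.id U).comp (HKer.id U) a w * h w b
      simp only [e]
      exact (id_comp_apply h a b).symm
  obtain ⟨hmean, hmeas, hbdd⟩ := hasMean_testOp hU (fun _ : Unit => hA 0) (HKer.id U) hn₁ y x
  rw [heq]
  refine ⟨?_, hmeas, hbdd⟩
  convert hmean using 1
  have hct₁ : ∀ x', constTerm φ₁ y x' = ∫ t : Unit → ℝ, (∏ i : Unit, A 1 (t i) *
      (Real.exp (-(t i)) : ℂ)) * constTerm φ₂ y (x' + t) := fun x' => by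
    refine (hasMean_constTerm hU hn₁ y x').unique ?_
    have := (hasMean_testOp hU (fun _ : Unit => hA 1) (HKer.id U) hn₂ y x').1
    simp only [kerCT_id] at this
    exact this
  have hct₂ : ∀ x', constTerm φ₂ y x' = ∫ t : Unit → ℝ, (∏ i : Unit, A 2 (t i) *
      (Real.exp (-(t i)) : ℂ)) * kerCT h (constTerm φ) y (x' + t) := fun x' =>
    (hasMean_constTerm hU hn₂ y x').unique (hasMean_testOp hU (fun _ : Unit => hA 2) h hφ y x').1
  have hu : ∀ t : Unit → ℝ, t = fun _ => t () := fun t => funext fun _ => rfl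
  have e1 : ∀ (g : ℝ → ℂ) (G : (Unit → ℝ) → ℂ),
      ∫ t : Unit → ℝ, (∏ i : Unit, g (t i)) * G t = ∫ s, g s * G fun _ => s := fun g G => by
    rw [← integral_unit_fun fun s => g s * G fun _ => s]
    refine integral_congr_ae (Eventually.of_forall fun t => ?_)
    simp only [Fintype.univ_punit, Finset.prod_singleton]
  simp only [kerCT_id, hct₁, hct₂]
  simp only [e1 (fun s => A 0 s * (Real.exp (-s) : ℂ)), e1 (fun s => A 1 s * (Real.exp (-s) : ℂ)),
    e1 (fun s => A 2 s * (Real.exp (-s) : ℂ))]
  obtain ⟨C, hC⟩ := hφ.bounded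
  set H : ℝ → ℂ := fun s => kerCT h (constTerm φ) y (x + fun _ => s) with hH
  have hHm : Measurable H := by
    simp only [hH, kerCT, kerApply_eq_sum]
    exact Finset.measurable_sum _ fun y' _ => measurable_const.mul
      ((measurable_constTerm hU hφ y').comp (measurable_pi_lambda _ fun i => measurable_const_add (x i)))
  have hHb : ∀ s, ‖H s‖ ≤ ∑ y' ∈ (h.finite_row y).toFinset, ‖h y y'‖ * C := fun s => by
    simp only [hH, kerCT, kerApply_eq_sum]
    refine (norm_sum_le _ _).trans (Finset.sum_le_sum fun y' _ => ?_)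
    rw [norm_mul]
    exact mul_le_mul_of_nonneg_left (norm_constTerm_le hU hφ hC y' _) (norm_nonneg _)
  have h3 := integral_three_sum (fun i s => A i s * (Real.exp (-s) : ℂ)) (fun i =>
    Continuous.integrable_of_hasCompactSupport ((hA i).contDiff.continuous.mul (by fun_prop))
      (hA i).compact.mul_right) hHm hHb
  refine Eq.trans (integral_congr_ae (Eventually.of_forall fun t => ?_)) (h3.trans ?_)
  · simp only [hH]
    rfl
  · simp only [hH, add_assoc]
    rfl

variable {V W : Type} (place : W → Fin 3) (len : W → ℝ) {A0 : Fin 3 → ℝ → ℂ}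

/-- The matched operator of a polynomial. -/
def alephOp3 (gen : V → HKer U) (hA0 : ∀ i, AbelTest (A0 i)) (P : MvPolynomial (V ⊕ W) ℂ)
    (φ : Space Φ U → ℂ) (x : Space Φ U) : ℂ :=
  ∑ e ∈ P.support, P.coeff e *
    testOp (fun _ => composite3 fun i => testPP (abelTest_wordArch place len hA0 (wordOf e) i))
      (wordKer gen (wordOf e)) φ x

variable (gen : V → HKer U) (hA0 : ∀ i, AbelTest (A0 i)) {n : 𝓞 K}

/-- **The image of the matched operator has zero constant term.** -/
theorem hasZeroMean_alephOp3 (hU : IsLevel U) (hnU : principalLevel K n ≤ U)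
    {X : V → AddMonoidAlgebra ℂ (ClassC Φ n)} (hgen : ∀ v, Realises Φ n (gen v) (X v))
    {P : MvPolynomial (V ⊕ W) ℂ}
    (hP : MvPolynomial.aeval (Sum.elim X (shiftAt place len ((classIota Φ n).comp sumThree))) P = 0)
    {φ : Space Φ U → ℂ} (hφ : IsNice φ) : HasZeroMean (alephOp3 place len gen hA0 P φ) :=
  hasZeroMean_of_sum P.support (fun e => P.coeff e) _ _
    (fun e y x => hasMean_testOp3 hU (fun i => abelTest_wordArch place len hA0 (wordOf e) i)
      (wordKer gen (wordOf e)) hφ y x)
    fun y x => sum_integral_word_eq_zero gen place len hA0 measurable_sumThree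
      (fun t => by simp [sumThree]) hU hnU hgen hP hφ y x

end Fermat.Agent.LT.Aleph
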