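import Fermat.Agent.LT.Adelic.Hyperbolic
import Fermat.Agent.LT.Aleph.Abel
import Mathlib.MeasureTheory.Function.JacobianOneDim
import Mathlib.MeasureTheory.Function.LocallyIntegrable

/-!
Point-pair operators on `z`-independent functions of hyperbolic three space: they become
convolutions with the Abel transform in `log r`, with the weight `r`.
-/

set_option autoImplicit false

noncomputable section

namespace Fermat.Agent.LT.Aleph

open MeasureTheory Set Real Function
open Fermat.Agent.LT.Adelic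

/-- The kernel (a function of `cosh` of the distance) with Abel transform `A`. -/
def abelKernel (A : ℝ → ℂ) (c : ℝ) : ℂ := invAbel A (2 * c - 2)

theorem continuous_abelKernel {A : ℝ → ℂ} (hA : AbelTest A) : Continuous (abelKernel A) :=
  (continuous_invAbel hA).comp (by fun_prop)

theorem hasCompactSupport_abelKernel {A : ℝ → ℂ} (hA : AbelTest A) :
    HasCompactSupport (abelKernel A) := by
  have := (hasCompactSupport_invAbel hA).comp_homeomorph
    ((Homeomorph.mulLeft₀ (2 : ℝ) two_ne_zero).trans (Homeomorph.subRight 2))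
  exact this

/-- The kernel in the variable `2 cosh d - 2`. -/
def kernelVar (k : ℝ → ℂ) (x : ℝ) : ℂ := k (1 + x / 2)

theorem kernelVar_abelKernel (A : ℝ → ℂ) : kernelVar (abelKernel A) = invAbel A := by
  funext x
  simp only [kernelVar, abelKernel]
  ring_nf

theorem integral_measure_coords (G : ℂ × ℝ → ℂ) :
    ∫ τ, G τ.coords ∂HSpace.measure = ∫ x in {x : ℂ × ℝ | 0 < x.2}, (x.2 ^ 3)⁻¹ • G x := by
  rw [← HSpace.measurableEmbedding_coords.integral_map, HSpace.measure,
    HSpace.measurableEmbedding_coords.map_comap, HSpace.range_coords,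
    setIntegral_withDensity_eq_setIntegral_toReal_smul (f := fun x : ℂ × ℝ =>
      ENNReal.ofReal ((x.2 ^ 3)⁻¹)) (by fun_prop) (Filter.Eventually.of_forall fun _ =>
      ENNReal.ofReal_lt_top) _ (isOpen_lt continuous_const continuous_snd).measurableSet]
  refine setIntegral_congr_fun (isOpen_lt continuous_const continuous_snd).measurableSet
    fun x hx => ?_
  have hx' : 0 < x.2 := hx
  rw [ENNReal.toReal_ofReal (by positivity)]

theorem exists_support_box (k : ℝ → ℂ) (hc : HasCompactSupport k) {r₀ : ℝ} (hr₀ : 0 < r₀)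
    (z₀ : ℂ) : ∃ a b R : ℝ, 0 < a ∧ ∀ z : ℂ, ∀ r : ℝ, 0 < r →
      k ((Complex.normSq (z₀ - z) + r₀ ^ 2 + r ^ 2) / (2 * r₀ * r)) ≠ 0 →
      z ∈ Metric.closedBall z₀ R ∧ r ∈ Icc a b := by
  obtain ⟨M, hM⟩ := hc.isCompact.isBounded.subset_closedBall 0
  set M' := max M 1 with hM'
  have hM'1 : 1 ≤ M' := le_max_right _ _
  refine ⟨r₀ / (2 * M'), 2 * M' * r₀, √(4 * M' ^ 2 * r₀ ^ 2), by positivity,
    fun z r hr hne => ?_⟩
  have h := hM (subset_tsupport _ hne)
  rw [Metric.mem_closedBall, dist_zero_right, Real.norm_eq_abs] at h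
  have h' := ((le_abs_self _).trans h).trans (le_max_left M 1)
  rw [← hM', div_le_iff₀ (by positivity)] at h'
  have hn := Complex.normSq_nonneg (z₀ - z)
  have hrb : r ≤ 2 * M' * r₀ := by nlinarith
  refine ⟨?_, ?_, hrb⟩
  · rw [mem_closedBall_iff_norm, ← norm_neg, neg_sub]
    refine le_sqrt_of_sq_le ?_
    rw [← Complex.normSq_eq_norm_sq]
    nlinarith
  · rw [div_le_iff₀ (by positivity)]
    nlinarith

/-- **Horospherical reduction.** -/
theorem integral_pointPair {k : ℝ → ℂ} (hk : Continuous k) (hc : HasCompactSupport k)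
    {F : ℝ → ℂ} (hF : LocallyIntegrableOn F (Ioi 0)) (p : HSpace) :
    ∫ τ, k (HSpace.coshDist p τ) * F τ.r ∂HSpace.measure =
      ∫ t : ℝ, abel (kernelVar k) t * (Real.exp (-t) : ℂ) * F (p.r * Real.exp t) := by
  set r₀ := p.r with hr₀def
  have hr₀ : 0 < r₀ := p.r_pos
  set g : ℂ × ℝ → ℂ := fun x =>
    k ((Complex.normSq (p.z - x.1) + r₀ ^ 2 + x.2 ^ 2) / (2 * r₀ * x.2)) with hg
  set G : ℂ × ℝ → ℂ := fun x => g x * F x.2 with hG
  rw [show (fun τ : HSpace => k (HSpace.coshDist p τ) * F τ.r) = fun τ => G τ.coords from rfl,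
    integral_measure_coords]
  obtain ⟨a, b, R, ha, hbox⟩ := exists_support_box k hc hr₀ p.z
  obtain ⟨B, hB⟩ := hc.exists_bound_of_continuous hk
  set H : ℂ × ℝ → ℂ := fun x => (x.2 ^ 3)⁻¹ • G x with hH
  have hdom : {x : ℂ × ℝ | 0 < x.2} = (univ : Set ℂ) ×ˢ Ioi (0 : ℝ) := by ext; simp
  have hbsub : Metric.closedBall p.z R ×ˢ Icc a b ⊆ {x : ℂ × ℝ | 0 < x.2} :=
    fun x hx => lt_of_lt_of_le ha hx.2.1
  have hint : IntegrableOn H {x : ℂ × ℝ | 0 < x.2} := by
    have h1 : IntegrableOn (fun x : ℂ × ℝ => F x.2) (Metric.closedBall p.z R ×ˢ Icc a b) := by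
      have hFi : IntegrableOn F (Icc a b) :=
        hF.integrableOn_compact_subset (fun x hx => lt_of_lt_of_le ha hx.1) isCompact_Icc
      have hone : IntegrableOn (fun _ : ℂ => (1 : ℂ)) (Metric.closedBall p.z R) :=
        integrableOn_const (measure_closedBall_lt_top).ne
      have := hone.mul_prod hFi
      rw [Measure.prod_restrict, ← Measure.volume_eq_prod] at this
      simpa [IntegrableOn] using this
    have hcont : ContinuousOn (fun x : ℂ × ℝ => (x.2 ^ 3)⁻¹ • g x) {x : ℂ × ℝ | 0 < x.2} := by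
      refine ContinuousOn.smul (ContinuousOn.inv₀
        (f := fun x : ℂ × ℝ => x.2 ^ 3) (by fun_prop) fun x (hx : 0 < x.2) =>
        pow_ne_zero 3 hx.ne') (hk.comp_continuousOn ?_)
      refine ContinuousOn.div ?_ (by fun_prop) fun x (hx : 0 < x.2) => by positivity
      exact ((((Complex.continuous_normSq.comp (continuous_const.sub continuous_fst)).add
        continuous_const).add (continuous_snd.pow 2))).continuousOn
    have h2 : IntegrableOn H (Metric.closedBall p.z R ×ˢ Icc a b) := by
      have h3 := IntegrableOn.mul_continuousOn h1 (hcont.mono hbsub)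
        ((isCompact_closedBall p.z R).prod isCompact_Icc)
      refine h3.congr_fun (fun x _ => ?_) (measurableSet_closedBall.prod measurableSet_Icc)
      simp only [hH, hG, Complex.real_smul]
      ring
    refine h2.of_forall_sdiff_eq_zero (isOpen_lt continuous_const continuous_snd).measurableSet
      fun x hx => ?_
    by_contra h
    refine hx.2 (hbox x.1 x.2 hx.1 fun h0 => h ?_)
    simp [hH, hG, hg, h0]
  rw [hdom] at hint ⊢
  rw [Measure.volume_eq_prod, ← setIntegral_prod_swap,
    setIntegral_prod _ (by rw [← Measure.volume_eq_prod] at *; exact hint.swap)]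
  simp only [Prod.swap_prod_mk, setIntegral_univ, hH, hG, hg]
  have hinner : ∀ r ∈ Ioi (0 : ℝ), (∫ z : ℂ, (r ^ 3)⁻¹ •
      (k ((Complex.normSq (p.z - z) + r₀ ^ 2 + r ^ 2) / (2 * r₀ * r)) * F r)) =
      ((r ^ 3)⁻¹ * (r₀ * r) : ℝ) • (abel (kernelVar k) (Real.log (r / r₀)) * F r) := by
    intro r hr
    simp only [mem_Ioi] at hr
    rw [integral_smul, integral_mul_const]
    have e1 : (∫ z : ℂ, k ((Complex.normSq (p.z - z) + r₀ ^ 2 + r ^ 2) / (2 * r₀ * r))) =
        ∫ z : ℂ, kernelVar k ((‖z‖ ^ 2 + (r - r₀) ^ 2) / (r₀ * r)) := by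
      rw [← integral_sub_left_eq_self (fun z : ℂ =>
        kernelVar k ((‖z‖ ^ 2 + (r - r₀) ^ 2) / (r₀ * r))) volume p.z]
      refine integral_congr_ae (Filter.Eventually.of_forall fun z => ?_)
      simp only [kernelVar, ← Complex.normSq_eq_norm_sq]
      congr 1
      field_simp
      ring
    have e2 : (r - r₀) ^ 2 / (r₀ * r) = 2 * cosh (Real.log (r / r₀)) - 2 := by
      rw [cosh_log (by positivity)]
      field_simp
      ring
    rw [e1, integral_norm_sq_comp _ (mul_pos hr₀ hr), e2, abel, Complex.real_smul, Complex.real_smul]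
    push_cast
    ring
  rw [setIntegral_congr_fun measurableSet_Ioi hinner]
  have himg : (fun t => r₀ * Real.exp t) '' univ = Ioi 0 := by
    ext r
    simp only [image_univ, mem_range, mem_Ioi]
    constructor
    · rintro ⟨t, rfl⟩; positivity
    · intro hr; exact ⟨Real.log (r / r₀), by rw [exp_log (by positivity)]; field_simp⟩
  rw [← himg, integral_image_eq_integral_abs_deriv_smul MeasurableSet.univ
    (fun t _ => ((hasDerivAt_exp t).const_mul r₀).hasDerivWithinAt)
    (fun t _ t' _ h => exp_injective (mul_left_cancel₀ hr₀.ne' h)), setIntegral_univ]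
  refine integral_congr_ae (Filter.Eventually.of_forall fun t => ?_)
  have e3 : Real.log (r₀ * Real.exp t / r₀) = t := by
    rw [mul_div_assoc, mul_comm, div_mul_cancel₀ _ hr₀.ne', log_exp]
  simp only [e3, smul_smul]
  rw [abs_of_pos (mul_pos hr₀ (exp_pos t))]
  have e4 : r₀ * Real.exp t * (((r₀ * Real.exp t) ^ 3)⁻¹ * (r₀ * (r₀ * Real.exp t))) =
      Real.exp (-t) := by
    rw [Real.exp_neg]
    field_simp
  rw [e4, Complex.real_smul]
  ring

/-- The operator of `abelKernel A` on `z`-independent functions. -/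
theorem integral_abelKernel {A : ℝ → ℂ} (hA : AbelTest A) {F : ℝ → ℂ}
    (hF : LocallyIntegrableOn F (Ioi 0)) (p : HSpace) :
    ∫ τ, abelKernel A (HSpace.coshDist p τ) * F τ.r ∂HSpace.measure =
      ∫ t : ℝ, A t * (Real.exp (-t) : ℂ) * F (p.r * Real.exp t) := by
  rw [integral_pointPair (continuous_abelKernel hA) (hasCompactSupport_abelKernel hA) hF,
    kernelVar_abelKernel]
  simp only [abel_invAbel hA]

end Fermat.Agent.LT.Aleph
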