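import Fermat.Agent.LT.Aleph.Abel

/-! The kernels `invAbel A` are Lipschitz. -/

set_option autoImplicit false

noncomputable section

namespace Fermat.Agent.LT.Aleph

open Real Set Filter Topology
open scoped ContDiff NNReal

/-- The numerator of the derivative of `A'/sinh`. -/
def derivNum (A : ℝ → ℂ) (t : ℝ) : ℂ :=
  deriv (deriv A) t * (sinh t : ℂ) - deriv A t * (cosh t : ℂ)

theorem hasDerivAt_derivNum {A : ℝ → ℂ} (hA : AbelTest A) (t : ℝ) :
    HasDerivAt (derivNum A) ((deriv (deriv (deriv A)) t - deriv A t) * (sinh t : ℂ)) t := by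
  have h3 : ContDiff ℝ 2 (deriv (deriv A)) := by
    have := hA.contDiff_deriv
    rw [show (3 : ℕ∞ω) = 2 + 1 by norm_num, contDiff_succ_iff_deriv] at this
    exact this.2.2
  have d1 := ((hA.contDiff_deriv.differentiable (by norm_num)) t).hasDerivAt
  have d2 := ((h3.differentiable (by norm_num)) t).hasDerivAt
  have ds := (hasDerivAt_sinh t).ofReal_comp
  have dc := (hasDerivAt_cosh t).ofReal_comp
  exact ((d2.mul ds).sub (d1.mul dc)).congr_deriv (by ring)

theorem norm_derivNum_le {A : ℝ → ℂ} (hA : AbelTest A) (R : ℝ) :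
    ∃ C : ℝ, 0 ≤ C ∧ ∀ t ∈ Icc (-R) R, ‖derivNum A t‖ ≤ C * |t| ^ 3 := by
  set h := fun t => deriv (deriv (deriv A)) t - deriv A t with hh
  have hh1 : ContDiff ℝ 1 h := by
    have h2 : ContDiff ℝ 2 (deriv (deriv A)) := by
      have := hA.contDiff_deriv
      rw [show (3 : ℕ∞ω) = 2 + 1 by norm_num, contDiff_succ_iff_deriv] at this
      exact this.2.2
    have h3 : ContDiff ℝ 1 (deriv (deriv (deriv A))) := by
      rw [show (2 : ℕ∞ω) = 1 + 1 by norm_num, contDiff_succ_iff_deriv] at h2
      exact h2.2.2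
    exact h3.sub (hA.contDiff_deriv.of_le (by norm_num))
  have hh0 : h 0 = 0 := by
    have hodd : ∀ t, deriv A (-t) = -deriv A t := fun t => by
      have h1 : HasDerivAt (fun t => A (-t)) (-deriv A (-t)) t := by
        simpa [Function.comp_def] using
          (HasDerivAt.scomp t (g₁ := A) (hA.hasDerivAt (-t)) (hasDerivAt_neg t))
      have h2 : HasDerivAt (fun t => A (-t)) (deriv A t) t := by
        simpa [funext hA.even] using hA.hasDerivAt t
      linear_combination -(h1.unique h2)
    have d2 : ∀ t, deriv (deriv A) (-t) = deriv (deriv A) t := fun t => by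
      have h1 : HasDerivAt (fun t => deriv A (-t)) (-deriv (deriv A) (-t)) t := by
        simpa [Function.comp_def] using HasDerivAt.scomp t (g₁ := deriv A)
          ((hA.contDiff_deriv.differentiable (by norm_num)) (-t)).hasDerivAt (hasDerivAt_neg t)
      have h2 : HasDerivAt (fun t => deriv A (-t)) (-deriv (deriv A) t) t := by
        simp_rw [hodd]
        exact ((hA.contDiff_deriv.differentiable (by norm_num)) t).hasDerivAt.neg
      exact neg_injective (h1.unique h2)
    have hd : DifferentiableAt ℝ (deriv (deriv A)) 0 := by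
      have := hA.contDiff_deriv
      rw [show (3 : ℕ∞ω) = 2 + 1 by norm_num, contDiff_succ_iff_deriv] at this
      exact this.2.2.differentiable (by norm_num) 0
    have h1 : HasDerivAt (fun t => deriv (deriv A) (-t)) (-deriv (deriv (deriv A)) 0) 0 := by
      simpa [Function.comp_def] using HasDerivAt.scomp (0 : ℝ) (g₁ := deriv (deriv A))
        (by simpa using hd.hasDerivAt) (hasDerivAt_neg (0 : ℝ))
    have h2 : HasDerivAt (fun t => deriv (deriv A) (-t)) (deriv (deriv (deriv A)) 0) 0 := by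
      simpa [funext d2] using hd.hasDerivAt
    have h3 := h1.unique h2
    simp only [hh, hA.deriv_zero]
    linear_combination (-1 / 2 : ℂ) * h3
  obtain ⟨C, hC⟩ : ∃ C, ∀ t ∈ Icc (-R) R, ‖deriv h t‖ ≤ C :=
    isCompact_Icc.exists_bound_of_continuousOn ((hh1.continuous_deriv le_rfl).continuousOn)
  refine ⟨max C 0 * cosh R, by positivity, fun t ht => ?_⟩
  have hsub : uIcc 0 t ⊆ Icc (-R) R :=
    uIcc_subset_Icc ⟨by linarith [ht.1, ht.2], by linarith [ht.1, ht.2]⟩ ht
  have habs : ∀ s ∈ uIcc 0 t, |s| ≤ |t| := fun s hs => by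
    simpa using Set.abs_sub_left_of_mem_uIcc hs
  have hb1 : ∀ s ∈ uIcc 0 t, ‖h s‖ ≤ max C 0 * |s| := fun s hs => by
    have := (convex_Icc (-R) R).norm_image_sub_le_of_norm_hasDerivWithin_le (f := h)
      (fun u _ => ((hh1.differentiable (by norm_num)) u).hasDerivAt.hasDerivWithinAt)
      (fun u hu => (hC u hu).trans (le_max_left _ 0))
      (show (0 : ℝ) ∈ Icc (-R) R from hsub left_mem_uIcc) (hsub hs)
    simpa [hh0] using this
  have hb2 : ∀ s ∈ uIcc 0 t, |sinh s| ≤ |s| * cosh R := fun s hs => by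
    have := (convex_Icc (-R) R).norm_image_sub_le_of_norm_hasDerivWithin_le (f := sinh)
      (fun u _ => (hasDerivAt_sinh u).hasDerivWithinAt)
      (fun u hu => by
        rw [Real.norm_eq_abs, abs_of_pos (cosh_pos u), ← cosh_abs u]
        exact cosh_le_cosh.mpr (abs_le_abs_of_nonneg (abs_nonneg _) (abs_le.mpr ⟨hu.1, hu.2⟩)))
      (show (0 : ℝ) ∈ Icc (-R) R from hsub left_mem_uIcc) (hsub hs)
    simpa [mul_comm] using this
  have := (convex_uIcc (0 : ℝ) t).norm_image_sub_le_of_norm_hasDerivWithin_le (f := derivNum A)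
    (fun u _ => (hasDerivAt_derivNum hA u).hasDerivWithinAt)
    (C := max C 0 * cosh R * |t| ^ 2) (fun u hu => ?_) left_mem_uIcc right_mem_uIcc
  · simp only [derivNum, hA.deriv_zero, sinh_zero, Complex.ofReal_zero, mul_zero, zero_mul,
      sub_zero] at this
    calc ‖derivNum A t‖ ≤ max C 0 * cosh R * |t| ^ 2 * ‖t‖ := this
      _ = _ := by rw [Real.norm_eq_abs]; ring
  · rw [norm_mul, Complex.norm_real, Real.norm_eq_abs]
    calc ‖h u‖ * |sinh u| ≤ (max C 0 * |u|) * (|u| * cosh R) :=
          mul_le_mul (hb1 u hu) (hb2 u hu) (abs_nonneg _) (by positivity)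
      _ ≤ (max C 0 * |t|) * (|t| * cosh R) :=
          mul_le_mul (mul_le_mul_of_nonneg_left (habs u hu) (le_max_right _ _))
            (mul_le_mul_of_nonneg_right (habs u hu) (cosh_pos R).le) (by positivity) (by positivity)
      _ = _ := by ring

/-- The kernel as a function on `[0, ∞)`. -/
def kernelPos (A : ℝ → ℂ) (x : ℝ) : ℂ := -derivDivSinh A (radius x) / (2 * π)

theorem norm_deriv_kernelPos_le {A : ℝ → ℂ} (hA : AbelTest A) :
    ∃ C : ℝ, 0 ≤ C ∧ ∀ x : ℝ, 0 < x →
      ∃ D : ℂ, HasDerivAt (kernelPos A) D x ∧ ‖D‖ ≤ C := by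
  obtain ⟨R, hR⟩ := (hA.compact.deriv).isCompact.isBounded.subset_closedBall 0
  obtain ⟨C, hC0, hC⟩ := norm_derivNum_le hA R
  refine ⟨C, hC0, fun x hx => ?_⟩
  have hd : HasDerivAt radius ((√((1 + x / 2) ^ 2 - 1))⁻¹ * (1 / 2)) x :=
    (HasDerivAt.comp (h₂ := arcosh) (h := fun y : ℝ => 1 + y / 2) x
      (hasDerivAt_arcosh (mem_Ioi.mpr (by linarith)))
      (((hasDerivAt_id x).div_const 2).const_add 1)).congr_of_eventuallyEq (by
        filter_upwards [eventually_gt_nhds hx] with y hy
        simp [radius, max_eq_left hy.le])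
  have hx1 : (1 : ℝ) ≤ 1 + x / 2 := by linarith
  have ht : 0 < radius x := by
    rw [radius, max_eq_left hx.le]
    exact arcosh_pos (by linarith)
  have hs : sinh (radius x) = √((1 + x / 2) ^ 2 - 1) := by
    rw [radius, max_eq_left hx.le, sinh_arcosh hx1]
  set t := radius x with htdef
  have hst : 0 < sinh t := sinh_pos_iff.mpr ht
  have hst' : (sinh t : ℂ) ≠ 0 := Complex.ofReal_ne_zero.mpr hst.ne'
  have hq : HasDerivAt (derivDivSinh A) (derivNum A t / (sinh t : ℂ) ^ 2) t := by
    refine (((hA.contDiff_deriv.differentiable (by norm_num) t).hasDerivAt.div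
      (hasDerivAt_sinh t).ofReal_comp hst').congr_deriv (by rw [derivNum])).congr_of_eventuallyEq ?_
    filter_upwards [eventually_gt_nhds ht] with u hu
    exact derivDivSinh_of_ne hA hu.ne'
  refine ⟨_, ((HasDerivAt.scomp x hq hd).neg.div_const (2 * π : ℂ)), ?_⟩
  rw [← hs, norm_div, norm_neg, norm_smul, norm_div, norm_pow, Complex.norm_real,
    Real.norm_eq_abs (sinh t), abs_of_pos hst]
  have hden : (1 : ℝ) ≤ ‖(2 * π : ℂ)‖ := by
    simp [abs_of_pos pi_pos]
    linarith [two_le_pi]
  rw [Real.norm_eq_abs, abs_of_pos (by positivity)]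
  have hN : ‖derivNum A t‖ ≤ C * sinh t ^ 3 := by
    by_cases htR : t ≤ R
    · refine (hC t ⟨by linarith, htR⟩).trans ?_
      rw [abs_of_pos ht]
      exact mul_le_mul_of_nonneg_left (pow_le_pow_left₀ ht.le (self_le_sinh_iff.mpr ht.le) 3) hC0
    · have hz : ∀ u, R < u → deriv A u = 0 := fun u hu => by
        by_contra h
        have := hR (subset_tsupport _ h)
        rw [Metric.mem_closedBall, dist_zero_right, Real.norm_eq_abs] at this
        linarith [le_abs_self u]
      have hz2 : deriv (deriv A) t = 0 := by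
        have : deriv A =ᶠ[𝓝 t] fun _ => 0 := by
          filter_upwards [eventually_gt_nhds (not_le.mp htR)] with u hu using hz u hu
        rw [this.deriv_eq, deriv_const]
      simp [derivNum, hz t (not_le.mp htR), hz2]
      positivity
  calc (sinh t)⁻¹ * (1 / 2) * (‖derivNum A t‖ / sinh t ^ 2) / ‖(2 * π : ℂ)‖
      ≤ (sinh t)⁻¹ * (1 / 2) * (‖derivNum A t‖ / sinh t ^ 2) := div_le_self (by positivity) hden
    _ ≤ (sinh t)⁻¹ * (1 / 2) * (C * sinh t ^ 3 / sinh t ^ 2) := by gcongr
    _ = C / 2 := by field_simp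
    _ ≤ C := by linarith

/-- **The kernel is Lipschitz.** -/
theorem lipschitzWith_invAbel {A : ℝ → ℂ} (hA : AbelTest A) :
    ∃ K : ℝ≥0, LipschitzWith K (invAbel A) := by
  obtain ⟨C, hC0, hC⟩ := norm_deriv_kernelPos_le hA
  choose D hD hDb using hC
  have hcont : Continuous (kernelPos A) :=
    (((continuous_derivDivSinh hA).comp continuous_radius).neg).div_const _
  have h1 : LipschitzOnWith ⟨C, hC0⟩ (kernelPos A) (Ioi (0 : ℝ)) :=
    (convex_Ioi (0 : ℝ)).lipschitzOnWith_of_nnnorm_hasDerivWithin_le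
      (f' := fun x => if hx : 0 < x then D x hx else 0)
      (fun x hx => by
        rw [dif_pos (mem_Ioi.mp hx)]
        exact (hD x hx).hasDerivWithinAt)
      (fun x hx => by
        rw [dif_pos (mem_Ioi.mp hx)]
        exact_mod_cast hDb x hx)
  have h2 : LipschitzOnWith ⟨C, hC0⟩ (kernelPos A) (Ici (0 : ℝ)) := by
    rw [← closure_Ioi]
    exact h1.closure (hcont.continuousOn)
  have h3 : LipschitzWith ⟨C, hC0⟩ (fun x => kernelPos A (max x 0)) := by
    refine LipschitzWith.of_dist_le_mul fun x y => ?_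
    refine (h2.dist_le_mul _ (le_max_right x 0) _ (le_max_right y 0)).trans
      (mul_le_mul_of_nonneg_left ?_ hC0)
    simpa [Real.dist_eq] using abs_max_sub_max_le_max x 0 y 0
  set c : ℝ → ℂ := fun x => ((max 0 (1 + min x 0) : ℝ) : ℂ) with hc
  have h4 : LipschitzWith 1 c := by
    refine LipschitzWith.of_dist_le_mul fun x y => ?_
    simp only [hc, dist_eq_norm, ← Complex.ofReal_sub, Complex.norm_real, Real.norm_eq_abs,
      NNReal.coe_one, one_mul]
    calc |max 0 (1 + min x 0) - max 0 (1 + min y 0)|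
        ≤ |(1 + min x 0) - (1 + min y 0)| := by
          simpa using abs_max_sub_max_le_max 0 (1 + min x 0) 0 (1 + min y 0)
      _ ≤ |x - y| := by simpa using abs_min_sub_min_le_max x 0 y 0
  obtain ⟨B, hB⟩ := (hasCompactSupport_invAbel hA).exists_bound_of_continuous
    (continuous_invAbel hA)
  have e : invAbel A = fun x => kernelPos A (max x 0) * c x := by
    funext x
    simp [invAbel, kernelPos, hc, radius]
  obtain ⟨B₀, hB₀⟩ : ∃ B₀ : ℝ, ∀ x, ‖kernelPos A (max x 0)‖ ≤ B₀ := ⟨B, fun x => by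
    have := hB (max x 0)
    simpa [invAbel, kernelPos] using this⟩
  refine ⟨⟨C + max B₀ 0, by positivity⟩, LipschitzWith.of_dist_le_mul fun x y => ?_⟩
  have hc1 : ‖c x‖ ≤ 1 := by
    simp only [hc, Complex.norm_real, Real.norm_eq_abs]
    rw [abs_of_nonneg (le_max_left _ _)]
    exact max_le zero_le_one (by linarith [min_le_right x 0])
  rw [e, dist_eq_norm]
  have d3 := h3.dist_le_mul x y
  have d4 := h4.dist_le_mul x y
  simp only [dist_eq_norm, NNReal.coe_one, one_mul] at d3 d4 ⊢
  calc ‖kernelPos A (max x 0) * c x - kernelPos A (max y 0) * c y‖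
      = ‖(kernelPos A (max x 0) - kernelPos A (max y 0)) * c x +
          kernelPos A (max y 0) * (c x - c y)‖ := by ring_nf
    _ ≤ ‖kernelPos A (max x 0) - kernelPos A (max y 0)‖ * ‖c x‖ +
          ‖kernelPos A (max y 0)‖ * ‖c x - c y‖ := by
        refine (norm_add_le _ _).trans ?_
        rw [norm_mul, norm_mul]
    _ ≤ C * ‖x - y‖ * 1 + max B₀ 0 * ‖x - y‖ :=
        add_le_add (mul_le_mul d3 hc1 (norm_nonneg _) (mul_nonneg hC0 (norm_nonneg _)))
          (mul_le_mul ((hB₀ y).trans (le_max_left _ _)) d4 (norm_nonneg _) (le_max_right _ _))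
    _ = (C + max B₀ 0) * ‖x - y‖ := by ring

end Fermat.Agent.LT.Aleph
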