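import Mathlib.MeasureTheory.Measure.Lebesgue.Complex
import Mathlib.MeasureTheory.Measure.Lebesgue.EqHaar
import Mathlib.MeasureTheory.Measure.Haar.NormedSpace
import Mathlib.MeasureTheory.Integral.Average
import Mathlib.MeasureTheory.Integral.Prod
import Mathlib.MeasureTheory.Group.Integral
import Mathlib.MeasureTheory.Group.FundamentalDomain
import Mathlib.MeasureTheory.Integral.DominatedConvergence
import Mathlib.Analysis.Convex.Measure
import Mathlib.Analysis.Normed.Module.Convex

/-!
# Means of bounded functions on `ℂ^ι`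

`HasMean f m`: the averages of `f` over dilates of every polydisc tend to `m`.  Bounded periodic
functions have a mean; means are invariant under translations and coordinatewise scalings and
commute with integrals in a parameter.
-/

set_option autoImplicit false

noncomputable section

namespace Fermat.Agent.LT.Aleph

open MeasureTheory Metric Filter Set
open scoped Topology ENNReal Pointwise

variable {ι : Type*} [Fintype ι]

/-- The closed polydisc of radii `ρ`. -/
def polydisc (ρ : ι → ℝ) : Set (ι → ℂ) := Set.univ.pi fun i => closedBall 0 (ρ i)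

omit [Fintype ι] in
theorem isCompact_polydisc (ρ : ι → ℝ) : IsCompact (polydisc ρ) :=
  isCompact_univ_pi fun _ => isCompact_closedBall _ _

theorem measurableSet_polydisc (ρ : ι → ℝ) : MeasurableSet (polydisc ρ) :=
  (isCompact_polydisc ρ).isClosed.measurableSet

theorem volume_polydisc_ne_top (ρ : ι → ℝ) : volume (polydisc ρ) ≠ ⊤ :=
  (isCompact_polydisc ρ).measure_ne_top

theorem volume_polydisc_toReal_pos {ρ : ι → ℝ} (hρ : ∀ i, 0 < ρ i) :
    0 < (volume (polydisc ρ)).toReal := by
  refine ENNReal.toReal_pos ?_ (volume_polydisc_ne_top ρ)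
  rw [polydisc, volume_pi, Measure.pi_pi]
  exact Finset.prod_ne_zero_iff.mpr fun i _ => (measure_closedBall_pos _ _ (hρ i)).ne'

theorem volume_frontier_polydisc (ρ : ι → ℝ) : volume (frontier (polydisc ρ)) = 0 :=
  (convex_pi fun i _ => convex_closedBall (0 : ℂ) (ρ i)).addHaar_frontier _

/-- A bounded function is integrable on a set of finite measure. -/
theorem integrableOn_of_bounded {X : Type*} [MeasurableSpace X] {μ : Measure X} {s : Set X}
    (hs : μ s ≠ ⊤) {f : X → ℂ} (hf : Measurable f) {C : ℝ} (hC : ∀ x, ‖f x‖ ≤ C) :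
    IntegrableOn f s μ :=
  Measure.integrableOn_of_bounded hs hf.aestronglyMeasurable (Eventually.of_forall hC)

/-- Translation by `o(R)` does not change the averages. -/
theorem tendsto_shift_sub {f : (ι → ℂ) → ℂ} (hf : Measurable f) {C : ℝ} (hC : ∀ z, ‖f z‖ ≤ C)
    (ρ : ι → ℝ) (a : ι → ℂ) :
    Tendsto (fun R : ℝ => (∫ z in polydisc ρ, f (R • z + a)) - ∫ z in polydisc ρ, f (R • z))
      atTop (𝓝 0) := by
  set D := polydisc ρ with hD
  set g : (ι → ℂ) → ℝ := D.indicator fun _ => 1 with hg
  have hint : ∀ b : ι → ℂ, Integrable (fun z => g (z + b)) volume := fun b => by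
    have h0 : Integrable g volume :=
      (integrable_indicator_iff (measurableSet_polydisc ρ)).mpr
        (integrableOn_const (volume_polydisc_ne_top ρ))
    exact (measurePreserving_add_right volume b).integrable_comp_of_integrable h0
  have key : Tendsto (fun R : ℝ => ∫ z, C * |g (z + -(R⁻¹ • a)) - g z|) atTop (𝓝 0) := by
    have hC0 : 0 ≤ C := le_trans (norm_nonneg _) (hC 0)
    set big : Set (ι → ℂ) := polydisc (fun i => |ρ i| + ‖a‖) with hbig
    have h := tendsto_integral_filter_of_dominated_convergence (μ := (volume : Measure (ι → ℂ)))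
      (l := atTop) (F := fun R : ℝ => fun z => C * |g (z + -(R⁻¹ • a)) - g z|) (f := fun _ => 0)
      (big.indicator fun _ => C * 2) ?_ ?_ ?_ ?_
    · simpa using h
    · exact Eventually.of_forall fun R => (((hint _).sub (by simpa using hint 0)).abs.const_mul C
        ).aestronglyMeasurable
    · filter_upwards [eventually_ge_atTop 1] with R hR
      refine Eventually.of_forall fun z => ?_
      rw [Real.norm_eq_abs, abs_mul, abs_of_nonneg hC0, abs_abs]
      by_cases hz : z ∈ big
      · rw [indicator_of_mem hz]
        refine mul_le_mul_of_nonneg_left ?_ hC0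
        simp only [hg, indicator]
        split <;> split <;> simp
      · rw [indicator_of_notMem hz]
        have h1 : z ∉ D := fun hzD => hz fun i _ => by
          have := hzD i (mem_univ i)
          rw [mem_closedBall_zero_iff] at this ⊢
          linarith [le_abs_self (ρ i), norm_nonneg a]
        have h2 : z + -(R⁻¹ • a) ∉ D := fun hzD => hz fun i _ => by
          have h3 := hzD i (mem_univ i)
          rw [mem_closedBall_zero_iff] at h3 ⊢
          have h4 : ‖(R⁻¹ • a) i‖ ≤ ‖a‖ := by
            refine (norm_le_pi_norm _ i).trans ?_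
            rw [norm_smul, Real.norm_eq_abs, abs_inv, abs_of_pos (lt_of_lt_of_le one_pos hR)]
            exact mul_le_of_le_one_left (norm_nonneg _) (inv_le_one_of_one_le₀ hR)
          have e : z i = (z + -(R⁻¹ • a)) i + (R⁻¹ • a) i := by simp
          rw [e]
          exact (norm_add_le _ _).trans (by linarith [le_abs_self (ρ i)])
        simp [hg, h1, h2]
    · exact (integrable_indicator_iff (measurableSet_polydisc _)).mpr
        (integrableOn_const (volume_polydisc_ne_top _))
    · filter_upwards [measure_eq_zero_iff_ae_notMem.mp (volume_frontier_polydisc ρ)] with z hz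
      have hlim : Tendsto (fun R : ℝ => z + -(R⁻¹ • a)) atTop (𝓝 z) := by
        have := ((tendsto_inv_atTop_zero (𝕜 := ℝ)).smul_const a).neg.const_add z
        simpa using this
      refine tendsto_const_nhds.congr' ?_
      by_cases hzD : z ∈ D
      · have hi : z ∈ interior D := by
          by_contra hn
          exact hz ⟨subset_closure hzD, hn⟩
        filter_upwards [hlim.eventually (isOpen_interior.mem_nhds hi)] with R hR
        simp [hg, hzD, interior_subset hR]
      · filter_upwards [hlim.eventually ((isCompact_polydisc ρ).isClosed.isOpen_compl.mem_nhds hzD)]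
          with R hR
        have hR' : z + -(R⁻¹ • a) ∉ D := hR
        simp [hg, hzD, hR']
  refine squeeze_zero_norm' ?_ key
  filter_upwards [eventually_gt_atTop 0] with R hR
  have e : ∀ b : ι → ℂ, ∫ z in D, f (R • z + b) =
      ∫ z, (g (z + -(R⁻¹ • b)) : ℂ) * f (R • z) := fun b => by
    rw [← integral_indicator (measurableSet_polydisc ρ),
      ← integral_add_right_eq_self (fun z => D.indicator (fun z => f (R • z + b)) z) (-(R⁻¹ • b))]
    refine integral_congr_ae (Eventually.of_forall fun z => ?_)
    simp only [hg]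
    by_cases h : z + -(R⁻¹ • b) ∈ D
    · simp only [indicator_of_mem h]
      simp [smul_add, smul_smul, mul_inv_cancel₀ hR.ne']
    · simp [indicator_of_notMem h]
  have e0 := e 0
  simp only [add_zero, smul_zero, neg_zero] at e0
  have hmf : ∀ b, Integrable (fun z => (g (z + b) : ℂ) * f (R • z)) volume := fun b =>
    (hint b).ofReal.mul_bdd (hf.comp (measurable_const_smul R)).aestronglyMeasurable
      (Eventually.of_forall fun z => hC _)
  rw [e a, e0, ← integral_sub (hmf _) (by simpa using hmf 0)]
  refine norm_integral_le_of_norm_le (((hint _).sub (by simpa using hint 0)).abs.const_mul C)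
    (Eventually.of_forall fun z => ?_)
  rw [← sub_mul, ← Complex.ofReal_sub, norm_mul, Complex.norm_real, Real.norm_eq_abs, mul_comm]
  exact mul_le_mul_of_nonneg_right (hC _) (abs_nonneg _)

/-- The averages of `f` over dilates of every polydisc tend to `m`. -/
def HasMean (f : (ι → ℂ) → ℂ) (m : ℂ) : Prop :=
  ∀ ρ : ι → ℝ, (∀ i, 0 < ρ i) →
    Tendsto (fun R : ℝ => ∫ z in polydisc ρ, f (R • z)) atTop
      (𝓝 (((volume (polydisc ρ)).toReal : ℂ) * m))

theorem HasMean.unique {f : (ι → ℂ) → ℂ} {m m' : ℂ} (h : HasMean f m) (h' : HasMean f m') :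
    m = m' := by
  have hρ : ∀ i : ι, (0 : ℝ) < (fun _ => 1) i := fun _ => one_pos
  refine mul_left_cancel₀ ?_ (tendsto_nhds_unique (h _ hρ) (h' _ hρ))
  exact_mod_cast (volume_polydisc_toReal_pos hρ).ne'

theorem hasMean_const (c : ℂ) : HasMean (fun _ : ι → ℂ => c) c := fun ρ _ => by
  simp [Measure.real, Complex.real_smul]

theorem HasMean.const_mul {f : (ι → ℂ) → ℂ} {m : ℂ} (c : ℂ) (h : HasMean f m) :
    HasMean (fun z => c * f z) (c * m) := fun ρ hρ => by
  have := (h ρ hρ).const_mul c
  simpa only [integral_const_mul, mul_left_comm] using this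

theorem HasMean.sum {α : Type*} (s : Finset α) {f : α → (ι → ℂ) → ℂ} {m : α → ℂ}
    (h : ∀ a ∈ s, HasMean (f a) (m a)) (hf : ∀ a ∈ s, Measurable (f a)) {C : α → ℝ}
    (hC : ∀ a ∈ s, ∀ z, ‖f a z‖ ≤ C a) :
    HasMean (fun z => ∑ a ∈ s, f a z) (∑ a ∈ s, m a) := fun ρ hρ => by
  rw [Finset.mul_sum]
  refine (tendsto_finsetSum s fun a ha => h a ha ρ hρ).congr fun R => ?_
  exact (integral_finsetSum _ fun a ha => integrableOn_of_bounded (volume_polydisc_ne_top ρ)
    ((hf a ha).comp (measurable_const_smul R)) fun z => hC a ha _).symm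

theorem HasMean.translate {f : (ι → ℂ) → ℂ} (hf : Measurable f) {C : ℝ} (hC : ∀ z, ‖f z‖ ≤ C)
    {m : ℂ} (h : HasMean f m) (a : ι → ℂ) : HasMean (fun z => f (z + a)) m := fun ρ hρ => by
  have := (tendsto_shift_sub hf hC ρ a).add (h ρ hρ)
  simpa using this

/-- Coordinatewise scaling as a linear map. -/
def scaleMap (c : ι → ℂ) : (ι → ℂ) →ₗ[ℝ] (ι → ℂ) where
  toFun z := fun i => c i * z i
  map_add' x y := by ext i; simp [mul_add]
  map_smul' t x := by ext i; simp; ring

theorem HasMean.scale {f : (ι → ℂ) → ℂ} (hf : Measurable f) {m : ℂ} (h : HasMean f m) {c : ι → ℂ}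
    (hc : ∀ i, c i ≠ 0) : HasMean (fun z => f fun i => c i * z i) m := by
  intro ρ hρ
  set ρ' : ι → ℝ := fun i => ‖c i‖ * ρ i with hρ'
  have hinj : Function.Injective (scaleMap c) := fun x y hxy => funext fun i =>
    mul_left_cancel₀ (hc i) (congrFun hxy i)
  have hdet : LinearMap.det (scaleMap c) ≠ 0 := fun h0 =>
    (LinearMap.bot_lt_ker_of_det_eq_zero h0).ne' (LinearMap.ker_eq_bot.mpr hinj)
  have hmap := Measure.map_linearMap_addHaar_eq_smul_addHaar (μ := (volume : Measure (ι → ℂ))) hdet
  set k : ℝ := |(LinearMap.det (scaleMap c))⁻¹|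
  have hpre : scaleMap c ⁻¹' polydisc ρ' = polydisc ρ := by
    ext z
    simp only [polydisc, Set.mem_preimage, Set.mem_univ_pi, mem_closedBall_zero_iff, hρ']
    refine forall_congr' fun i => ?_
    show ‖c i * z i‖ ≤ _ ↔ _
    rw [norm_mul, mul_le_mul_iff_of_pos_left (norm_pos_iff.mpr (hc i))]
  have hcont : Continuous (scaleMap c) := LinearMap.continuous_of_finiteDimensional _
  have hsub : ∀ g : (ι → ℂ) → ℂ, Measurable g →
      ∫ z in polydisc ρ, g (scaleMap c z) = (k : ℂ) * ∫ w in polydisc ρ', g w := by
    intro g hg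
    rw [← hpre, ← setIntegral_map (measurableSet_polydisc ρ') hg.aestronglyMeasurable
      hcont.measurable.aemeasurable, hmap, Measure.restrict_smul, integral_smul_measure,
      ENNReal.toReal_ofReal (abs_nonneg _), Complex.real_smul]
  have hvol := hsub (fun _ => 1) measurable_const
  simp only [setIntegral_const, Measure.real, Complex.real_smul, mul_one] at hvol
  have hlim := (h ρ' fun i => mul_pos (norm_pos_iff.mpr (hc i)) (hρ i)).const_mul (k : ℂ)
  rw [← mul_assoc, ← hvol] at hlim
  refine hlim.congr fun R => ?_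
  rw [← hsub (fun w => f (R • w)) (hf.comp (measurable_const_smul R))]
  refine setIntegral_congr_fun (measurableSet_polydisc ρ) fun z _ => ?_
  show f _ = f _
  congr 1
  ext i
  simp [scaleMap]
  ring

/-- Bounded periodic functions have a mean. -/
theorem hasMean_of_periodic {L : AddSubgroup (ι → ℂ)} [Countable L] {B : Set (ι → ℂ)} {M : ℝ}
    (hB : IsAddFundamentalDomain L B volume) (hBb : B ⊆ closedBall 0 M) 
    (hB0 : volume B ≠ 0) {f : (ι → ℂ) → ℂ} (hf : Measurable f) {C : ℝ} (hC : ∀ z, ‖f z‖ ≤ C)
    (hper : ∀ (l : L) z, f ((l : ι → ℂ) + z) = f z) :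
    HasMean f (((volume B).toReal : ℂ)⁻¹ * ∫ x in B, f x) := by
  intro ρ hρ
  have hBf : volume B ≠ ⊤ :=
    ((measure_mono hBb).trans_lt measure_closedBall_lt_top).ne
  have : IsFiniteMeasure ((volume : Measure (ι → ℂ)).restrict B) :=
    ⟨by rw [Measure.restrict_apply_univ]; exact hBf.lt_top⟩
  have : IsFiniteMeasure ((volume : Measure (ι → ℂ)).restrict (polydisc ρ)) :=
    ⟨by rw [Measure.restrict_apply_univ]; exact (volume_polydisc_ne_top ρ).lt_top⟩
  set V : ℂ := ((volume B).toReal : ℂ)
  have hV : V ≠ 0 := Complex.ofReal_ne_zero.mpr (ENNReal.toReal_pos hB0 hBf).ne'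
  set J : ℝ → ℂ := fun R => ∫ x in B, ∫ z in polydisc ρ, f (R • z + x)
  have hjm : ∀ R : ℝ, Measurable fun p : (ι → ℂ) × (ι → ℂ) => f (R • p.2 + p.1) := fun R =>
    hf.comp ((measurable_snd.const_smul R).add measurable_fst)
  have hJ : ∀ R, J R = ((volume (polydisc ρ)).toReal : ℂ) * ∫ x in B, f x := by
    intro R
    show ∫ x in B, ∫ z in polydisc ρ, f (R • z + x) = _
    rw [integral_integral_swap (f := fun x z => f (R • z + x))
      (Integrable.of_bound (hjm R).aestronglyMeasurable C (Eventually.of_forall fun _ => hC _))]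
    have : ∀ z, ∫ x in B, f (R • z + x) = ∫ x in B, f x := fun z => by
      have htr : IsAddFundamentalDomain L ((R • z) +ᵥ B) volume := hB.vadd_of_comm (R • z)
      have e := htr.setIntegral_eq hB (f := f) (fun l x => hper l x)
      rw [← e, ← measurePreserving_add_left volume (R • z) |>.setIntegral_image_emb
        (MeasurableEquiv.addLeft (R • z)).measurableEmbedding]
      rfl
    simp only [this, setIntegral_const, Measure.real, Complex.real_smul]
  have hdiff : Tendsto (fun R : ℝ => J R - V * ∫ z in polydisc ρ, f (R • z)) atTop (𝓝 0) := by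
    have h := tendsto_integral_filter_of_dominated_convergence
      (μ := (volume : Measure (ι → ℂ)).restrict B) (l := atTop)
      (F := fun R : ℝ => fun x => (∫ z in polydisc ρ, f (R • z + x)) -
        ∫ z in polydisc ρ, f (R • z)) (f := fun _ => 0)
      (fun _ => 2 * (C * (volume (polydisc ρ)).toReal)) ?_ ?_ (integrable_const _) ?_
    · simp only [integral_zero] at h
      refine h.congr fun R => ?_
      rw [integral_sub, setIntegral_const, Measure.real, Complex.real_smul]
      · exact (Integrable.of_bound (hjm R).aestronglyMeasurable C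
          (Eventually.of_forall fun _ => hC _)).integral_prod_left
      · exact integrable_const _
    · exact Eventually.of_forall fun R =>
        ((hjm R).stronglyMeasurable.integral_prod_right'.sub stronglyMeasurable_const
          ).aestronglyMeasurable
    · refine Eventually.of_forall fun R => Eventually.of_forall fun x => ?_
      refine (norm_sub_le _ _).trans ?_
      rw [two_mul]
      exact add_le_add
        (norm_setIntegral_le_of_norm_le_const (volume_polydisc_ne_top ρ).lt_top fun z _ => hC _)
        (norm_setIntegral_le_of_norm_le_const (volume_polydisc_ne_top ρ).lt_top fun z _ => hC _)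
    · exact Eventually.of_forall fun x => tendsto_shift_sub hf hC ρ x
  simp only [hJ] at hdiff
  have h2 := (tendsto_const_nhds (x := ((volume (polydisc ρ)).toReal : ℂ) * ∫ x in B, f x)).sub hdiff
  simp only [sub_sub_cancel, sub_zero] at h2
  have h3 := h2.const_mul V⁻¹
  simp only [← mul_assoc, inv_mul_cancel₀ hV, one_mul] at h3
  convert h3 using 2
  ring
  
/-- Means commute with integrals in a parameter. -/
theorem HasMean.integral {T : Type*} [MeasurableSpace T] {ν : Measure T} [SFinite ν]
    {k : T → ℂ} (hk : Integrable k ν) {f : T → (ι → ℂ) → ℂ}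
    (hf : Measurable (Function.uncurry f)) {C : ℝ} (hC : ∀ t z, ‖f t z‖ ≤ C) {m : T → ℂ}
    (h : ∀ t, HasMean (f t) (m t)) :
    HasMean (fun z => ∫ t, k t * f t z ∂ν) (∫ t, k t * m t ∂ν) := by
  intro ρ hρ
  have : IsFiniteMeasure ((volume : Measure (ι → ℂ)).restrict (polydisc ρ)) :=
    ⟨by rw [Measure.restrict_apply_univ]; exact (volume_polydisc_ne_top ρ).lt_top⟩
  have hlim := tendsto_integral_filter_of_dominated_convergence (μ := ν) (l := atTop)
    (F := fun R : ℝ => fun t => k t * ∫ z in polydisc ρ, f t (R • z))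
    (f := fun t => k t * (((volume (polydisc ρ)).toReal : ℂ) * m t))
    (fun t => ‖k t‖ * (C * (volume (polydisc ρ)).toReal)) ?_ ?_ ?_ ?_
  · have e : ∫ t, k t * (((volume (polydisc ρ)).toReal : ℂ) * m t) ∂ν =
        ((volume (polydisc ρ)).toReal : ℂ) * ∫ t, k t * m t ∂ν := by
      rw [← integral_const_mul]
      exact integral_congr_ae (Eventually.of_forall fun t => by ring)
    rw [e] at hlim
    refine hlim.congr fun R => ?_
    have hm : Measurable fun p : T × (ι → ℂ) => f p.1 (R • p.2) :=
      hf.comp (measurable_fst.prodMk (measurable_snd.const_smul R))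
    simp only [← integral_const_mul]
    refine integral_integral_swap ?_
    exact (hk.comp_fst _).mul_bdd hm.aestronglyMeasurable (Eventually.of_forall fun p => hC _ _)
  · refine Eventually.of_forall fun R => hk.aestronglyMeasurable.mul ?_
    have hm : Measurable fun p : T × (ι → ℂ) => f p.1 (R • p.2) :=
      hf.comp (measurable_fst.prodMk (measurable_snd.const_smul R))
    exact hm.stronglyMeasurable.integral_prod_right'.aestronglyMeasurable
  · refine Eventually.of_forall fun R => Eventually.of_forall fun t => ?_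
    rw [norm_mul]
    exact mul_le_mul_of_nonneg_left (norm_setIntegral_le_of_norm_le_const
      (volume_polydisc_ne_top ρ).lt_top fun z _ => hC t _) (norm_nonneg _)
  · exact hk.norm.mul_const _
  · exact Eventually.of_forall fun t => (h t ρ hρ).const_mul _

/-- The averages over dilated polydiscs of a common radius tend to the mean. -/
theorem HasMean.tendsto_average {f : (ι → ℂ) → ℂ} {m : ℂ} (h : HasMean f m) :
    Tendsto (fun R : ℝ => ⨍ z in Set.univ.pi (fun _ : ι => closedBall (0 : ℂ) R), f z)
      atTop (𝓝 m) := by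
  have hρ : ∀ i : ι, (0 : ℝ) < (fun _ => 1) i := fun _ => one_pos
  have hV : ((volume (polydisc fun _ : ι => (1 : ℝ))).toReal : ℂ) ≠ 0 := by
    exact_mod_cast (volume_polydisc_toReal_pos hρ).ne'
  have h1 := (h _ hρ).const_mul ((volume (polydisc fun _ : ι => (1 : ℝ))).toReal : ℂ)⁻¹
  rw [← mul_assoc, inv_mul_cancel₀ hV, one_mul] at h1
  refine h1.congr' ?_
  filter_upwards [eventually_gt_atTop 0] with R hR
  have hset : R • polydisc (fun _ : ι => (1 : ℝ)) = Set.univ.pi fun _ : ι => closedBall (0 : ℂ) R := by
    ext z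
    rw [Set.mem_smul_set_iff_inv_smul_mem₀ hR.ne']
    simp only [polydisc, Set.mem_univ_pi, mem_closedBall_zero_iff, Pi.smul_apply, norm_smul,
      Real.norm_eq_abs, abs_of_pos (inv_pos.mpr hR)]
    refine forall_congr' fun i => ?_
    rw [inv_mul_le_iff₀ hR, mul_one]
  rw [setAverage_eq, ← hset, Measure.setIntegral_comp_smul_of_pos _ f _ hR, Measure.real,
    Measure.addHaar_smul_of_nonneg _ hR.le, ENNReal.toReal_mul,
    ENNReal.toReal_ofReal (pow_nonneg hR.le _), mul_inv, Complex.real_smul, Complex.real_smul]
  push_cast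
  ring

end Fermat.Agent.LT.Aleph
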