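import Fermat.Agent.LT.Aleph.Realise
import Mathlib.Algebra.MvPolynomial.Eval
import Mathlib.Data.Finsupp.Multiset

/-!
# Operators given by polynomials in Hecke matrices and symmetrised archimedean shifts

For a polynomial `P` in variables `inl v` (matrices realising elements `X v`) and `inr w` (shifts by
`± len w` at the place `place w`), `alephOp P` is a combination of test operators.  If `P` vanishes
at the corresponding elements of the group algebra, the image of `alephOp P` has zero constant term.
-/

set_option autoImplicit false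
set_option linter.unusedSectionVars false

noncomputable section

namespace Fermat.Agent.LT.Aleph

open MeasureTheory NumberField IsDedekindDomain Matrix AddMonoidAlgebra Filter
open Fermat.Agent.LT Fermat.Agent.LT.Adelic Fermat.Agent.LT.Descent

variable {K : Type} [Field K] [NumberField K] {ι : Type} [Fintype ι] [DecidableEq ι]
  {Φ : Frame K ι} {U : Subgroup (GfK K)} {n : 𝓞 K} {V W : Type}

/-- `A (t + L) + A (t - L)`. -/
def symShiftFun (L : ℝ) (A : ℝ → ℂ) (t : ℝ) : ℂ := A (t + L) + A (t - L)

/-- The matrix of a word. -/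
def wordKer (gen : V → HKer U) : List (V ⊕ W) → HKer U
  | [] => HKer.id U
  | Sum.inl v :: l => (gen v).comp (wordKer gen l)
  | Sum.inr _ :: l => wordKer gen l

/-- The Abel transforms of a word. -/
def wordArch (place : W → ι) (len : W → ℝ) (A0 : ι → ℝ → ℂ) : List (V ⊕ W) → ι → ℝ → ℂ
  | [] => A0
  | Sum.inl _ :: l => wordArch place len A0 l
  | Sum.inr w :: l => Function.update (wordArch place len A0 l) (place w)
      (symShiftFun (len w) (wordArch place len A0 l (place w)))

variable (place : W → ι) (len : W → ℝ) {A0 : ι → ℝ → ℂ}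

theorem abelTest_wordArch (hA0 : ∀ i, AbelTest (A0 i)) :
    ∀ (l : List (V ⊕ W)) (i : ι), AbelTest (wordArch place len A0 l i)
  | [], i => hA0 i
  | Sum.inl _ :: l, i => abelTest_wordArch hA0 l i
  | Sum.inr w :: l, i => by
    rw [wordArch]
    by_cases h : i = place w
    · subst h
      rw [Function.update_self]
      exact (abelTest_wordArch hA0 l _).symShift (len w)
    · rw [Function.update_of_ne h]
      exact abelTest_wordArch hA0 l i

/-- The word of a monomial. -/
def wordOf (e : (V ⊕ W) →₀ ℕ) : List (V ⊕ W) := e.toMultiset.toList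

/-- The operator of a polynomial. -/
def alephOp (gen : V → HKer U) (hA0 : ∀ i, AbelTest (A0 i)) (P : MvPolynomial (V ⊕ W) ℂ)
    (φ : Space Φ U → ℂ) (x : Space Φ U) : ℂ :=
  ∑ e ∈ P.support, P.coeff e *
    testOp (fun i => testPP (abelTest_wordArch place len hA0 (wordOf e) i))
      (wordKer gen (wordOf e)) φ x

/-- Integrability against products of test functions along the real vector group. -/
def Tame {C : Type} [AddCommGroup C] (j : (ι → ℝ) →+ C) (G : C → ℂ) : Prop :=
  ∀ (A : ι → ℝ → ℂ), (∀ i, AbelTest (A i)) → ∀ q : C,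
    Integrable fun t : ι → ℝ => (∏ i, A i (t i)) * G (q + j t)

theorem Tame.actHom {C : Type} [AddCommGroup C] {j : (ι → ℝ) →+ C} {G : C → ℂ} (hG : Tame j G)
    (f : AddMonoidAlgebra ℂ C) : Tame j (Aleph.actHom f G) := by
  intro A hA q
  induction f using AddMonoidAlgebra.induction_linear with
  | zero => simp
  | add f g hf hg =>
    simp only [map_add, LinearMap.add_apply, Pi.add_apply, mul_add]
    exact hf.add hg
  | single X a =>
    simp only [actHom_single, mul_left_comm _ a]
    refine Integrable.const_mul ?_ a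
    simpa only [add_right_comm] using hG A hA (q + X)

/-- The shifts of a word along a homomorphism. -/
def shiftAt {C : Type} [AddCommGroup C] (j : (ι → ℝ) →+ C) (w : W) : AddMonoidAlgebra ℂ C :=
  symElt (j (Pi.single (place w) (len w)))

/-- The shifts of a word. -/
abbrev shiftEl (Φ : Frame K ι) (n : 𝓞 K) (w : W) : AddMonoidAlgebra ℂ (ClassC Φ n) :=
  shiftAt place len (classIota Φ n) w

/-- The shift part of a word. -/
def wordShift {C : Type} [AddCommGroup C] (j : (ι → ℝ) →+ C) :
    List (V ⊕ W) → AddMonoidAlgebra ℂ C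
  | [] => 1
  | Sum.inl _ :: l => wordShift j l
  | Sum.inr w :: l => shiftAt place len j w * wordShift j l

/-- The matrix part of a word. -/
def wordKerEl {C : Type} [AddCommGroup C] (X : V → AddMonoidAlgebra ℂ C) :
    List (V ⊕ W) → AddMonoidAlgebra ℂ C
  | [] => 1
  | Sum.inl v :: l => X v * wordKerEl X l
  | Sum.inr _ :: l => wordKerEl X l

theorem word_prod {C : Type} [AddCommGroup C] (j : (ι → ℝ) →+ C)
    (X : V → AddMonoidAlgebra ℂ C) : ∀ l : List (V ⊕ W),
    (l.map (Sum.elim X (shiftAt place len j))).prod = wordShift place len j l * wordKerEl X l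
  | [] => by simp [wordShift, wordKerEl]
  | Sum.inl v :: l => by simp [wordShift, wordKerEl, word_prod j X l, mul_left_comm]
  | Sum.inr w :: l => by simp [wordShift, wordKerEl, word_prod j X l, mul_assoc]

theorem realises_wordKer {gen : V → HKer U} {X : V → AddMonoidAlgebra ℂ (ClassC Φ n)}
    (hgen : ∀ v, Realises Φ n (gen v) (X v)) :
    ∀ l : List (V ⊕ W), Realises Φ n (wordKer gen l) (wordKerEl X l)
  | [] => realises_id
  | Sum.inl v :: l => (hgen v).comp (realises_wordKer hgen l)
  | Sum.inr _ :: l => realises_wordKer hgen l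

/-- Shifting the test functions is acting by the shift elements. -/
theorem integral_wordArch {C : Type} [AddCommGroup C] (j : (ι → ℝ) →+ C)
    (hA0 : ∀ i, AbelTest (A0 i)) :
    ∀ (l : List (V ⊕ W)) (G : C → ℂ), Tame j G → ∀ q : C,
      ∫ t : ι → ℝ, (∏ i, wordArch place len A0 l i (t i)) * G (q + j t) =
        ∫ t : ι → ℝ, (∏ i, A0 i (t i)) *
          actHom (wordShift place len j l) G (q + j t)
  | [], G, _, q => by simp [wordShift, wordArch]
  | Sum.inl _ :: l, G, hG, q => integral_wordArch j hA0 l G hG q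
  | Sum.inr w :: l, G, hG, q => by
    have hcomm : actHom (wordShift place len j (Sum.inr w :: l)) G =
        actHom (wordShift place len j l) (actHom (shiftAt place len j w) G) := by
      rw [wordShift, mul_comm, map_mul]; rfl
    simp only [hcomm]
    rw [← integral_wordArch j hA0 l _ (hG.actHom _) q]
    set A := wordArch place len A0 l with hA
    set d : ι → ℝ := Pi.single (place w) (len w) with hd
    have hsplit : ∀ t : ι → ℝ, (∏ i, wordArch place len A0 (Sum.inr w :: l) i (t i)) =
        (∏ i, A i ((t + d) i)) + ∏ i, A i ((t - d) i) := fun t => by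
      rw [wordArch, ← hA, ← Finset.mul_prod_erase _ _ (Finset.mem_univ (place w)),
        ← Finset.mul_prod_erase _ (fun i => A i ((t + d) i)) (Finset.mem_univ (place w)),
        ← Finset.mul_prod_erase _ (fun i => A i ((t - d) i)) (Finset.mem_univ (place w))]
      have h1 : ∀ i ∈ Finset.univ.erase (place w), d i = 0 := fun i hi => by
        rw [hd, Pi.single_eq_of_ne (Finset.ne_of_mem_erase hi)]
      have e0 : ∀ i ∈ Finset.univ.erase (place w), Function.update A (place w)
          (symShiftFun (len w) (A (place w))) i (t i) = A i (t i) := fun i hi => by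
        rw [Function.update_of_ne (Finset.ne_of_mem_erase hi)]
      have e1 : ∀ i ∈ Finset.univ.erase (place w), A i ((t + d) i) = A i (t i) := fun i hi => by
        rw [Pi.add_apply, h1 i hi, add_zero]
      have e2 : ∀ i ∈ Finset.univ.erase (place w), A i ((t - d) i) = A i (t i) := fun i hi => by
        rw [Pi.sub_apply, h1 i hi, sub_zero]
      rw [Finset.prod_congr rfl e0, Finset.prod_congr rfl e1, Finset.prod_congr rfl e2]
      simp only [Function.update_self, symShiftFun, Pi.add_apply, Pi.sub_apply, hd,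
        Pi.single_eq_same]
      ring
    have hA' := abelTest_wordArch place len hA0 l
    have hp : Integrable fun u : ι → ℝ =>
        (∏ i, A i (u i)) * G (q - j d + j u) := hG A hA' _
    have hm : Integrable fun u : ι → ℝ =>
        (∏ i, A i (u i)) * G (q + j d + j u) := hG A hA' _
    have hp' : Integrable fun t : ι → ℝ => (∏ i, A i ((t + d) i)) * G (q + j t) :=
      (hp.comp_add_right d).congr (Eventually.of_forall fun t => by
        simp only [Pi.add_apply, map_add]; congr 2; abel)
    have hm' : Integrable fun t : ι → ℝ => (∏ i, A i ((t - d) i)) * G (q + j t) :=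
      (hm.comp_add_right (-d)).congr (Eventually.of_forall fun t => by
        simp only [← sub_eq_add_neg, Pi.sub_apply, map_sub]; congr 2; abel)
    simp only [hsplit, add_mul]
    rw [integral_add hp' hm',
      ← integral_add_right_eq_self (fun t => (∏ i, A i ((t + d) i)) * G (q + j t)) (-d),
      ← integral_add_right_eq_self (fun t => (∏ i, A i ((t - d) i)) * G (q + j t)) d,
      ← integral_add]
    · refine integral_congr_ae (Eventually.of_forall fun t => ?_)
      simp only [shiftAt, ← hd, actHom_symElt, neg_add_cancel_right, add_sub_cancel_right, map_add,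
        map_neg]
      rw [mul_add, add_comm]
      congr 3 <;> abel
    · exact hp'.comp_add_right (-d)
    · exact hm'.comp_add_right d

variable (gen : V → HKer U) (hA0 : ∀ i, AbelTest (A0 i))

theorem integrable_prod_test {A : ι → ℝ → ℂ} (hA : ∀ i, AbelTest (A i)) :
    Integrable fun t : ι → ℝ => ∏ i, A i (t i) * (Real.exp (-(t i)) : ℂ) := by
  rw [volume_pi]
  exact Integrable.fintype_prod (E := ℝ) (f := fun i t => A i t * (Real.exp (-t) : ℂ)) fun i =>
    Continuous.integrable_of_hasCompactSupport ((hA i).contDiff.continuous.mul (by fun_prop))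
      (hA i).compact.mul_right

theorem tame_ctLift {ι' : Type} [Fintype ι'] [DecidableEq ι'] {jv : (ι' → ℝ) →+ (ι → ℝ)} (hjm : Measurable jv)
    (hjs : ∀ t, ∑ i, jv t i = ∑ i, t i) (hU : IsLevel U) (hnU : principalLevel K n ≤ U)
    {φ : Space Φ U → ℂ} (hφ : IsNice φ) {κ : GfK K} (hκ : κ ∈ principalLevel K (1 : 𝓞 K)) :
    Tame ((classIota Φ n).comp jv) (ctLift Φ n (constTerm φ) κ) := by
  intro A hA q
  obtain ⟨a, x, rfl⟩ := classMk_surjective q
  obtain ⟨C, hC⟩ := hφ.bounded
  set y : Yf U := ((diag2 a 1 * κ : GfK K) : Yf U)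
  have h1 : Integrable fun t : ι' → ℝ =>
      (∏ i, A i (t i) * (Real.exp (-(t i)) : ℂ)) * constTerm φ y (x + jv t) :=
    (integrable_prod_test hA).mul_bdd ((measurable_constTerm hU hφ y).comp
      (hjm.const_add x)).aestronglyMeasurable
      (Eventually.of_forall fun t => norm_constTerm_le hU hφ hC y _)
  refine (h1.const_mul ((normChar a)⁻¹ * (Real.exp (-∑ i, x i) : ℂ))).congr
    (Eventually.of_forall fun t => ?_)
  simp only
  rw [AddMonoidHom.comp_apply, classIota_apply, ← classMk_add, mul_one,
    ctLift_classMk hnU (isCTFun_constTerm hU hφ) hκ, ctPre, Finset.prod_mul_distrib]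
  simp only [← Complex.ofReal_prod, ← Real.exp_sum, Pi.add_apply, Finset.sum_add_distrib, hjs,
    neg_add, Real.exp_add, Complex.ofReal_mul, Finset.sum_neg_distrib]
  ring

theorem continuous_prod_ppker {X : Type} [TopologicalSpace X] (k : ι → PPKer) (τ : ι → HSpace) :
    Continuous fun p : X × (ι → HSpace) => ∏ i, k i (τ i) (p.2 i) :=
  continuous_finsetProd _ fun i _ =>
    (k i).continuous'.comp ((continuous_const (y := τ i)).prodMk
      ((continuous_apply i).comp continuous_snd))

theorem measurable_archIntegrand {A : ι → ℝ → ℂ} (hA : ∀ i, AbelTest (A i)) {φ : Space Φ U → ℂ}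
    (hφ : IsNice φ) (y : Yf U) (x : ι → ℝ) :
    Measurable fun p : (ι → ℂ) × (ι → HSpace) => (∏ i, testPP (hA i) (horo x 0 i) (p.2 i)) *
      slice φ y (fun i => Real.log (p.2 i).r) (p.1 + fun i => (p.2 i).z) := by
  refine (continuous_prod_ppker (fun i => testPP (hA i)) (horo x 0)).measurable.mul ?_
  refine (hφ.measurable y).comp
    (continuous_horo_uncurry.comp (Continuous.prodMk ?_ ?_)).measurable
  · exact continuous_pi fun i => Real.continuousOn_log.comp_continuous
      (HSpace.continuous_r.comp ((continuous_apply i).comp continuous_snd))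
      fun p => (p.2 i).r_pos.ne'
  · exact continuous_fst.add (continuous_pi fun i =>
      HSpace.continuous_z.comp ((continuous_apply i).comp continuous_snd))

theorem measurable_archInt_horo {A : ι → ℝ → ℂ} (hA : ∀ i, AbelTest (A i)) {φ : Space Φ U → ℂ}
    (hφ : IsNice φ) (y : Yf U) (x : ι → ℝ) :
    Measurable fun z => archInt (fun i => testPP (hA i)) φ (horo x z) y := by
  rw [funext (archInt_horo hA φ y x)]
  exact (measurable_archIntegrand hA hφ y x).stronglyMeasurable.integral_prod_right'
    (ν := Measure.pi fun _ : ι => HSpace.measure) |>.measurable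

theorem exists_norm_archInt_horo_le {A : ι → ℝ → ℂ} (hA : ∀ i, AbelTest (A i))
    {φ : Space Φ U → ℂ} (hφ : IsNice φ) (x : ι → ℝ) :
    ∃ M : ℝ, ∀ y z, ‖archInt (fun i => testPP (hA i)) φ (horo x z) y‖ ≤ M := by
  obtain ⟨C, hC⟩ := hφ.bounded
  refine ⟨∫ τ, ‖∏ i, testPP (hA i) (horo x 0 i) (τ i)‖ * C
    ∂Measure.pi fun _ : ι => HSpace.measure, fun y z => ?_⟩
  rw [archInt_horo hA φ y x z]
  refine norm_integral_le_of_norm_le ((integrable_prod_ppker _ _).norm.mul_const C)
    (Eventually.of_forall fun τ => ?_)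
  rw [norm_mul]
  exact mul_le_mul_of_nonneg_left (hC _) (norm_nonneg _)

theorem hasMean_testOp (hU : IsLevel U) {A : ι → ℝ → ℂ} (hA : ∀ i, AbelTest (A i)) (h : HKer U)
    {φ : Space Φ U → ℂ} (hφ : IsNice φ) (y : Yf U) (x : ι → ℝ) :
    HasMean (fun z => testOp (fun i => testPP (hA i)) h φ (Space.mk (horo x z) y))
        (∫ t : ι → ℝ, (∏ i, A i (t i) * (Real.exp (-(t i)) : ℂ)) *
          kerCT h (constTerm φ) y (x + t)) ∧
      Measurable (fun z => testOp (fun i => testPP (hA i)) h φ (Space.mk (horo x z) y)) ∧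
      ∃ C, ∀ z, ‖testOp (fun i => testPP (hA i)) h φ (Space.mk (horo x z) y)‖ ≤ C := by
  obtain ⟨C, hC⟩ := hφ.bounded
  obtain ⟨M, hb⟩ := exists_norm_archInt_horo_le hA hφ x
  have hm := fun y' => measurable_archInt_horo hA hφ y' x
  set S := (h.finite_row y).toFinset
  have he : ∀ z, testOp (fun i => testPP (hA i)) h φ (Space.mk (horo x z) y) =
      ∑ y' ∈ S, h y y' * archInt (fun i => testPP (hA i)) φ (horo x z) y' := fun z => by
    rw [testOp_eq hU _ _ hφ, kerApply_eq_sum]; rfl
  simp only [he]
  refine ⟨?_, Finset.measurable_sum _ fun y' _ => (hm y').const_mul _,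
    ∑ y' ∈ S, ‖h y y'‖ * M, fun z => (norm_sum_le _ _).trans (Finset.sum_le_sum fun y' _ => by
      rw [norm_mul]; exact mul_le_mul_of_nonneg_left (hb y' z) (norm_nonneg _))⟩
  have hmean := HasMean.sum S (fun y' _ => (hasMean_archInt hU hA hφ y' x).const_mul (h y y'))
    (fun y' _ => (hm y').const_mul _) (C := fun y' => ‖h y y'‖ * M) fun y' _ z => by
      rw [norm_mul]; exact mul_le_mul_of_nonneg_left (hb y' z) (norm_nonneg _)
  convert hmean using 1
  simp only [kerCT, kerApply_eq_sum, Finset.mul_sum, ← integral_const_mul]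
  rw [integral_finsetSum]
  · exact Finset.sum_congr rfl fun y' _ => integral_congr_ae (Eventually.of_forall fun t => by
      simp only; ring)
  · intro y' _
    exact ((integrable_prod_test hA).mul_bdd (c := ‖h y y'‖ * C)
      ((measurable_const.mul ((measurable_constTerm hU hφ y').comp
        (measurable_const_add x))).aestronglyMeasurable)
      (Eventually.of_forall fun t => by
        rw [norm_mul]
        exact mul_le_mul_of_nonneg_left (norm_constTerm_le hU hφ hC y' _) (norm_nonneg _)))

/-- The combination of the constant terms of the words vanishes. -/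
theorem sum_integral_word_eq_zero {ι' : Type} [Fintype ι'] [DecidableEq ι'] (pl : W → ι')
    (ln : W → ℝ) {B0 : ι' → ℝ → ℂ} (hB0 : ∀ i, AbelTest (B0 i)) {jv : (ι' → ℝ) →+ (ι → ℝ)}
    (hjm : Measurable jv) (hjs : ∀ t, ∑ i, jv t i = ∑ i, t i) (hU : IsLevel U)
    (hnU : principalLevel K n ≤ U) {X : V → AddMonoidAlgebra ℂ (ClassC Φ n)}
    (hgen : ∀ v, Realises Φ n (gen v) (X v)) {P : MvPolynomial (V ⊕ W) ℂ}
    (hP : MvPolynomial.aeval (Sum.elim X (shiftAt pl ln ((classIota Φ n).comp jv))) P = 0)
    {φ : Space Φ U → ℂ} (hφ : IsNice φ) (y : Yf U) (x : ι → ℝ) :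
    ∑ e ∈ P.support, P.coeff e *
      ∫ t : ι' → ℝ, (∏ i, wordArch pl ln B0 (wordOf e) i (t i) * (Real.exp (-(t i)) : ℂ)) *
        kerCT (wordKer gen (wordOf e)) (constTerm φ) y (x + jv t) = 0 := by
  obtain ⟨g, rfl⟩ := QuotientGroup.mk_surjective y
  obtain ⟨s, a', b, κ, hκ, rfl⟩ := exists_iwasawa g
  set a := a' * b⁻¹
  set y₀ : Yf U := ((diag2 a 1 * κ : GfK K) : Yf U)
  have hy : ((unipotent s * diag2 a' b * κ : GfK K) : Yf U) = unipotent s • y₀ := by
    have e : (diag2 a' b : GfK K) = scalarHom (𝓞 K) K b * diag2 a 1 := by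
      refine Units.ext (Matrix.ext fun i j => ?_)
      fin_cases i <;> fin_cases j <;> simp [Matrix.mul_apply, scalarHom, a]
      rw [mul_left_comm, Units.mul_inv, mul_one]
    rw [e, mul_assoc (unipotent s), mul_assoc (scalarHom (𝓞 K) K b), centerGf_comm ⟨b, rfl⟩]
    show ((unipotent s * _ : GfK K) : Yf U) = ((unipotent s * _ : GfK K) : Yf U)
    symm
    refine QuotientGroup.eq.mpr ?_
    rw [_root_.mul_inv_rev, mul_assoc _ (unipotent s)⁻¹, inv_mul_cancel_left, inv_mul_cancel_left]
    exact (le_sup_right : centerGf (𝓞 K) K ≤ levelZ U) ⟨b, rfl⟩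
  have hct := isCTFun_constTerm (Φ := Φ) hU hφ
  simp only [hy, (hct.kerCT _).unip]
  set ψ := ctLift Φ n (constTerm φ) κ
  set q := classMk Φ n a x
  set J := (classIota Φ n).comp jv with hJ
  set c0 : ℂ := normChar a * (Real.exp (∑ i, x i) : ℂ) with hc0
  have hterm : ∀ e : (V ⊕ W) →₀ ℕ,
      ∫ t : ι' → ℝ, (∏ i, wordArch pl ln B0 (wordOf e) i (t i) * (Real.exp (-(t i)) : ℂ)) *
          kerCT (wordKer gen (wordOf e)) (constTerm φ) y₀ (x + jv t) =
        c0 * ∫ t : ι' → ℝ, (∏ i, B0 i (t i)) *
          actHom ((wordOf e).map (Sum.elim X (shiftAt pl ln J))).prod ψ (q + J t) := by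
    intro e
    rw [word_prod, map_mul]
    simp only [Module.End.mul_apply]
    rw [← integral_wordArch pl ln J hB0 (wordOf e) _
      ((tame_ctLift hjm hjs hU hnU hφ hκ).actHom _) q, ← integral_const_mul]
    refine integral_congr_ae (Eventually.of_forall fun t => ?_)
    simp only [hJ, AddMonoidHom.comp_apply]
    rw [← realises_wordKer hgen (wordOf e) _ hct κ hκ, classIota_apply, ← classMk_add, mul_one,
      ctLift_classMk hnU (hct.kerCT _) hκ, ctPre, Finset.prod_mul_distrib, hc0]
    simp only [← Complex.ofReal_prod, ← Real.exp_sum, Pi.add_apply, Finset.sum_add_distrib, hjs,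
      neg_add, Real.exp_add, Complex.ofReal_mul, Finset.sum_neg_distrib]
    have := normChar_ne_zero (K := K) a
    rw [Real.exp_neg (∑ i, x i), Complex.ofReal_inv]
    have hexp : (Real.exp (∑ i, x i) : ℂ) ≠ 0 := Complex.ofReal_ne_zero.mpr (Real.exp_pos _).ne'
    field_simp
    ring
  simp only [hterm, mul_left_comm (P.coeff _) c0, ← Finset.mul_sum, ← integral_const_mul (P.coeff _)]
  rw [← integral_finsetSum]
  swap
  · exact fun e _ => (((tame_ctLift hjm hjs hU hnU hφ hκ).actHom _) B0 hB0 q).const_mul _
  have hzero : ∀ t : ι' → ℝ, ∑ e ∈ P.support, P.coeff e * ((∏ i, B0 i (t i)) *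
      actHom ((wordOf e).map (Sum.elim X (shiftAt pl ln J))).prod ψ (q + J t)) = 0 := by
    intro t
    have hsum : (∑ e ∈ P.support,
        P.coeff e • ((wordOf e).map (Sum.elim X (shiftAt pl ln J))).prod) = 0 := by
      rw [← hP, MvPolynomial.aeval_def, MvPolynomial.eval₂_eq]
      refine Finset.sum_congr rfl fun e _ => ?_
      rw [Algebra.smul_def]
      congr 1
      rw [← Multiset.prod_coe, ← Multiset.map_coe, wordOf, Multiset.coe_toList,
        Finsupp.toMultiset_apply, Finsupp.sum, ← Multiset.coe_mapAddMonoidHom, map_sum,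
        Multiset.prod_sum]
      refine Finset.prod_congr rfl fun s _ => ?_
      simp [Multiset.map_nsmul, Multiset.prod_nsmul]
    have h := congrArg (fun f => (∏ i, B0 i (t i)) * actHom f ψ (q + J t)) hsum
    simp only [map_sum, map_smul, LinearMap.sum_apply, Finset.sum_apply, LinearMap.smul_apply,
      Pi.smul_apply, smul_eq_mul, map_zero, LinearMap.zero_apply, Pi.zero_apply, mul_zero,
      Finset.mul_sum] at h
    rw [← h]
    exact Finset.sum_congr rfl fun e _ => by ring
  simp only [hzero, integral_zero, mul_zero]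

/-- A combination of functions with means has zero mean when the means combine to zero. -/
theorem hasZeroMean_of_sum {κ : Type} (s : Finset κ) (c : κ → ℂ) (F : κ → Space Φ U → ℂ)
    (m : κ → Yf U → (ι → ℝ) → ℂ)
    (h : ∀ e y x, HasMean (fun z => F e (Space.mk (horo x z) y)) (m e y x) ∧
      Measurable (fun z => F e (Space.mk (horo x z) y)) ∧
      ∃ C, ∀ z, ‖F e (Space.mk (horo x z) y)‖ ≤ C)
    (hzero : ∀ y x, ∑ e ∈ s, c e * m e y x = 0) :
    HasZeroMean fun p => ∑ e ∈ s, c e * F e p := by
  intro y r hr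
  set x : ι → ℝ := fun i => Real.log (r i) with hx
  choose hmean hmeas hbdd using fun e => h e y x
  choose C hC using hbdd
  have h := HasMean.sum s (fun e _ => (hmean e).const_mul (c e))
    (fun e _ => (hmeas e).const_mul _) (C := fun e => ‖c e‖ * C e) fun e _ z => by
      rw [norm_mul]; exact mul_le_mul_of_nonneg_left (hC e z) (norm_nonneg _)
  rw [hzero] at h
  convert h.tendsto_average using 2 with R
  congr 1
  funext z
  have hz : (fun i => (⟨z i, r i, hr i⟩ : HSpace)) = horo x z :=
    funext fun i => HSpace.ext rfl (Real.exp_log (hr i)).symm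
  rw [hz]

/-- **The image of `alephOp P` has zero constant term** when `P` vanishes in the group algebra. -/
theorem hasZeroMean_alephOp (hU : IsLevel U) (hnU : principalLevel K n ≤ U)
    {X : V → AddMonoidAlgebra ℂ (ClassC Φ n)} (hgen : ∀ v, Realises Φ n (gen v) (X v))
    {P : MvPolynomial (V ⊕ W) ℂ}
    (hP : MvPolynomial.aeval (Sum.elim X (shiftEl place len Φ n)) P = 0)
    {φ : Space Φ U → ℂ} (hφ : IsNice φ) : HasZeroMean (alephOp place len gen hA0 P φ) :=
  hasZeroMean_of_sum P.support (fun e => P.coeff e) _ _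
    (fun e y x => hasMean_testOp hU (fun i => abelTest_wordArch place len hA0 (wordOf e) i)
      (wordKer gen (wordOf e)) hφ y x)
    fun y x => sum_integral_word_eq_zero (jv := AddMonoidHom.id (ι → ℝ)) gen place len hA0
      measurable_id (fun _ => rfl) hU hnU hgen (by simpa using hP) hφ y x

end Fermat.Agent.LT.Aleph
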