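import Fermat.Agent.LT.Aleph.Operator

/-!
# The product over ray class characters as a polynomial

`alephMv e sel` vanishes when `inl η` is evaluated at `[sel η] + [-sel η]` and `inr (η, j)` at the
symmetrised shift by `shiftLen`; at `inr = 2` its value is `∏ η (λ η - η (sel η) - η (sel η)⁻¹)^(2^N)`.
-/

set_option autoImplicit false
set_option linter.unusedSectionVars false

noncomputable section

namespace Fermat.Agent.LT.Aleph

open NumberField IsDedekindDomain AddMonoidAlgebra
open Fermat.Agent.LT.Adelic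

variable {K : Type} [Field K] [NumberField K] {ι : Type} [Fintype ι] (Φ : Frame K ι) (n : 𝓞 K)

/-- An enumeration of the infinite places. -/
def placeFin (ι : Type) [Fintype ι] : Fin (Fintype.card ι) ≃ ι := (Fintype.equivFin ι).symm

/-- The real vector group in coordinates. -/
def vecIota : (Fin (Fintype.card ι) → ℝ) →+ ClassC Φ n :=
  (classIota Φ n).comp
    { toFun := fun t i => t ((placeFin ι).symm i)
      map_zero' := rfl
      map_add' := fun _ _ => rfl }

theorem range_vecIota : (vecIota Φ n).range = (classIota Φ n).range := by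
  ext c
  constructor
  · rintro ⟨t, rfl⟩; exact ⟨_, rfl⟩
  · rintro ⟨t, rfl⟩
    refine ⟨fun j => t (placeFin ι j), ?_⟩
    show classIota Φ n _ = _
    congr 1
    funext i
    show t (placeFin ι ((placeFin ι).symm i)) = t i
    rw [Equiv.apply_symm_apply]

/-- The characters of the ray class group. -/
abbrev RayChar : Type := AddChar (ClassC Φ n ⧸ (vecIota Φ n).range) ℂ

theorem finite_quotient_vecIota (hn : n ≠ 0) : Finite (ClassC Φ n ⧸ (vecIota Φ n).range) := by
  rw [range_vecIota]; exact finite_classQuot Φ n hn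

/-- `η c + η (-c)`. -/
def charTrace (η : RayChar Φ n) (c : ClassC Φ n) : ℂ :=
  η (c : ClassC Φ n ⧸ (vecIota Φ n).range) + η (-(c : ClassC Φ n ⧸ (vecIota Φ n).range))

variable [Finite (ClassC Φ n ⧸ (vecIota Φ n).range)]

/-- The polynomial. -/
def alephMv (sel : RayChar Φ n → ClassC Φ n) :
    MvPolynomial (RayChar Φ n ⊕ RayChar Φ n × Fin (Fintype.card ι)) ℂ :=
  ∏ η : RayChar Φ n, alephPoly (Fintype.card ι) (MvPolynomial.X (Sum.inl η))
    (Fin.snoc (fun j => MvPolynomial.X (Sum.inr (η, j)))
      (MvPolynomial.C (charTrace Φ n η (sel η))))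

theorem map_alephMv {B : Type} [CommRing B] [Algebra ℂ B] (sel : RayChar Φ n → ClassC Φ n)
    (X : RayChar Φ n → B) (Y : RayChar Φ n × Fin (Fintype.card ι) → B) :
    MvPolynomial.aeval (Sum.elim X Y) (alephMv Φ n sel) =
      ∏ η : RayChar Φ n, alephPoly (Fintype.card ι) (X η)
        (Fin.snoc (fun j => Y (η, j)) (algebraMap ℂ B (charTrace Φ n η (sel η)))) := by
  rw [alephMv, map_prod]
  refine Finset.prod_congr rfl fun η _ => ?_
  refine (map_alephPoly (R := MvPolynomial (RayChar Φ n ⊕ RayChar Φ n × Fin (Fintype.card ι)) ℂ) (S := B)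
    _ ((MvPolynomial.aeval (R := ℂ) (Sum.elim X Y)).toRingHom) _ _).trans ?_
  congr 1
  · simp
  · funext i
    refine Fin.lastCases ?_ (fun j => ?_) i <;> simp

theorem eval_alephMv (sel : RayChar Φ n → ClassC Φ n) (lam : RayChar Φ n → ℂ) :
    MvPolynomial.eval (Sum.elim lam fun _ => 2) (alephMv Φ n sel) =
      ∏ η : RayChar Φ n, (lam η - charTrace Φ n η (sel η)) ^ 2 ^ Fintype.card ι := by
  rw [← MvPolynomial.aeval_eq_eval, map_alephMv]
  refine Finset.prod_congr rfl fun η _ => ?_
  rw [alephPoly_twos _ _ _ fun j => by simp]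
  simp

theorem eval_alephMv_ne_zero (sel : RayChar Φ n → ClassC Φ n) {lam : RayChar Φ n → ℂ}
    (h : ∀ η, lam η ≠ charTrace Φ n η (sel η)) :
    MvPolynomial.eval (Sum.elim lam fun _ => 2) (alephMv Φ n sel) ≠ 0 := by
  rw [eval_alephMv]
  exact Finset.prod_ne_zero_iff.mpr fun η _ => pow_ne_zero _ (sub_ne_zero.mpr (h η))

/-- **Shift lengths making the polynomial vanish in the group algebra.** -/
theorem exists_shiftLen [DecidableEq ι] :
    ∃ ℓ : ClassC Φ n → Fin (Fintype.card ι) → ℝ, ∀ sel : RayChar Φ n → ClassC Φ n,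
      MvPolynomial.aeval (Sum.elim (fun η => symElt (sel η))
        (shiftEl (fun p : RayChar Φ n × Fin (Fintype.card ι) => placeFin ι p.2)
          (fun p => ℓ (sel p.1) p.2) Φ n)) (alephMv Φ n sel) = 0 := by
  obtain ⟨ℓ, hℓ⟩ := exists_shift_alephElt_eq_zero (vecIota Φ n)
  refine ⟨ℓ, fun sel => ?_⟩
  rw [map_alephMv, ← hℓ sel, alephElt]
  refine Finset.prod_congr rfl fun η _ => ?_
  congr 1
  funext i
  refine Fin.lastCases ?_ (fun j => ?_) i
  · simp [alephVars, charTrace]
  · simp only [alephVars, Fin.snoc_castSucc, shiftAt]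
    congr 1
    show classIota Φ n _ = classIota Φ n _
    congr 1
    funext i
    by_cases h : (placeFin ι).symm i = j
    · subst h; simp
    · rw [Pi.single_eq_of_ne fun h' => h (by rw [h', Equiv.symm_apply_apply])]
      simp [Pi.single_eq_of_ne h]

end Fermat.Agent.LT.Aleph
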