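import Fermat.Agent.LT.Aleph.Composite
import Fermat.Agent.LT.Aleph.Product
import Fermat.Agent.LT.Aleph.Eigen

/-!
# The polynomial of a pair of fields

One polynomial in shared variables kills the constant terms of both matched operators: it is the
product of the polynomials of the two class groups.
-/

set_option autoImplicit false
set_option linter.unusedSectionVars false

noncomputable section

namespace Fermat.Agent.LT.Aleph

open MeasureTheory NumberField IsDedekindDomain AddMonoidAlgebra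
open Fermat.Agent.LT Fermat.Agent.LT.Adelic Fermat.Agent.LT.Descent

section Matched

variable {K : Type} [Field K] [NumberField K] {U : Subgroup (GfK K)} {ι : Type} [Fintype ι]
  {Φ : Frame K ι} {n : 𝓞 K}

/-- `T` for degree one, `T ^ 3 - 3 T` for degree three, `T` the normalised Hecke matrix. -/
def matchedKer (hU : IsLevel U) (v : HeightOneSpectrum (𝓞 K)) (ϖ : (FiniteAdeleRing (𝓞 K) K)ˣ)
    (f : ℕ) : HKer U :=
  if f = 3 then
    hkerAdd ((heckeKer hU v ϖ).comp ((heckeKer hU v ϖ).comp (heckeKer hU v ϖ)))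
      (hkerSmul (-3) (heckeKer hU v ϖ))
  else heckeKer hU v ϖ

theorem symElt_cube {C : Type} [AddCommGroup C] (c : C) :
    symElt c * (symElt c * symElt c) + (-3 : ℂ) • symElt c = symElt (3 • c) := by
  simp only [symElt, mul_add, add_mul, single_mul_single, mul_one, smul_add, smul_single,
    smul_eq_mul]
  rw [show c + (c + c) = 3 • c by abel, show c + (c + -c) = c by abel, show c + (-c + c) = c by abel,
    show c + (-c + -c) = -c by abel, show -c + (c + c) = c by abel,
    show -c + (c + -c) = -c by abel, show -c + (-c + c) = -c by abel,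
    show -c + (-c + -c) = -(3 • c) by abel]
  have h3 : ∀ d : C, single d (-3 : ℂ) = -(single d 1 + single d 1 + single d 1) := fun d => by
    rw [← single_add, ← single_add, ← single_neg]
    norm_num
  rw [h3, h3]
  abel

theorem realises_matchedKer (hU : IsLevel U) (hnU : principalLevel K n ≤ U)
    (hU1 : U ≤ principalLevel K (1 : 𝓞 K)) {v : HeightOneSpectrum (𝓞 K)}
    (hv : v.intValuation n = 1) {ϖ : (FiniteAdeleRing (𝓞 K) K)ˣ} (hϖ : IsUniformiserAt v ϖ)
    {f : ℕ} (hf : f = 1 ∨ f = 3) :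
    Realises Φ n (matchedKer hU v ϖ f) (symElt (f • classMk Φ n ϖ 0)) := by
  have h := realises_heckeKer (Φ := Φ) hU hnU hU1 hv hϖ
  rcases hf with rfl | rfl
  · rw [matchedKer, if_neg (by norm_num), one_smul]; exact h
  · rw [matchedKer, if_pos rfl, ← symElt_cube]
    exact (h.comp (h.comp h)).add hnU (h.smul hnU (-3))

/-- A Hecke eigen equation in terms of the normalised matrix. -/
theorem kerApply_heckeKer_eigen (hU : IsLevel U) {φ : Space Φ U → ℂ}
    {v : HeightOneSpectrum (𝓞 K)} {a : ℂ} (h : IsHeckeEigenAt φ v a)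
    {ϖ : (FiniteAdeleRing (𝓞 K) K)ˣ} (hϖ : IsUniformiserAt v ϖ) (τ : ι → HSpace) :
    kerApply (heckeKer hU v ϖ) (fun y => φ (Space.mk τ y)) = a • fun y => φ (Space.mk τ y) := by
  funext y
  have h1 := congrFun (h ϖ hϖ) (Space.mk τ y)
  rw [heckeOp_eq_kerMap hU] at h1
  simp only [Pi.smul_apply, smul_eq_mul] at h1 ⊢
  have h2 : kerApply (HKer.ofDoubleCoset hU (heckeMatrix K ϖ)) (fun y' => φ (Space.mk τ y')) y =
      (Real.sqrt (Ideal.absNorm v.asIdeal) : ℂ) * a * φ (Space.mk τ y) := h1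
  rw [heckeKer, kerApply_smul]
  simp only [h2]
  have hs : (Real.sqrt (Ideal.absNorm v.asIdeal) : ℂ) ≠ 0 := by
    rw [Complex.ofReal_ne_zero, Real.sqrt_ne_zero (Nat.cast_nonneg _), Nat.cast_ne_zero]
    exact fun h0 => v.ne_bot (Ideal.absNorm_eq_zero_iff.mp h0)
  rw [Complex.ofReal_inv, mul_assoc, inv_mul_cancel_left₀ hs]

end Matched

theorem isNice_of_isCuspEigen {K : Type} [Field K] [NumberField K] {ι : Type} [Fintype ι]
    [DecidableEq ι] {Φ : Frame K ι} {U : Subgroup (GfK K)} {φ : Space Φ U → ℂ}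
    (h : IsCuspEigen φ) : IsNice φ :=
  ⟨h.invariant, fun y => (h.continuous y).measurable, h.bounded⟩

variable {K K' : Type} [Field K] [NumberField K] [Field K'] [NumberField K']
  {Φ : Frame K Unit} {Φ' : Frame K' (Fin 3)} {n : 𝓞 K} {n' : 𝓞 K'}

variable (Φ Φ' n n') in
/-- The variables carried by Hecke matrices: one for each character upstairs and below. -/
abbrev PairVar : Type := RayChar Φ' n' ⊕ RayChar Φ n

variable (Φ Φ' n n') in
/-- The variables carried by shifts. -/
abbrev PairShift : Type :=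
  (RayChar Φ' n' × Fin (Fintype.card (Fin 3))) ⊕ (RayChar Φ n × Fin (Fintype.card Unit))

/-- The place of a shift. -/
def pairPlace : PairShift Φ Φ' n n' → Fin 3 :=
  Sum.elim (fun p => placeFin (Fin 3) p.2) fun _ => 0

/-- The length of a shift. -/
def pairLen (ℓ' : ClassC Φ' n' → Fin (Fintype.card (Fin 3)) → ℝ)
    (ℓ : ClassC Φ n → Fin (Fintype.card Unit) → ℝ) (sel' : RayChar Φ' n' → ClassC Φ' n')
    (sel : RayChar Φ n → ClassC Φ n) : PairShift Φ Φ' n n' → ℝ :=
  Sum.elim (fun p => ℓ' (sel' p.1) p.2) fun p => ℓ (sel p.1) p.2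

variable [Finite (ClassC Φ n ⧸ (vecIota Φ n).range)]
  [Finite (ClassC Φ' n' ⧸ (vecIota Φ' n').range)]

/-- The polynomial. -/
def pairMv (sel' : RayChar Φ' n' → ClassC Φ' n') (sel : RayChar Φ n → ClassC Φ n) :
    MvPolynomial (PairVar Φ Φ' n n' ⊕ PairShift Φ Φ' n n') ℂ :=
  MvPolynomial.rename (Sum.map Sum.inl Sum.inl) (alephMv Φ' n' sel') *
    MvPolynomial.rename (Sum.map Sum.inr Sum.inr) (alephMv Φ n sel)

theorem eval_pairMv_ne_zero (sel' : RayChar Φ' n' → ClassC Φ' n')
    (sel : RayChar Φ n → ClassC Φ n) {lam : PairVar Φ Φ' n n' → ℂ}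
    (h' : ∀ η, lam (Sum.inl η) ≠ charTrace Φ' n' η (sel' η))
    (h : ∀ θ, lam (Sum.inr θ) ≠ charTrace Φ n θ (sel θ)) :
    MvPolynomial.eval (Sum.elim lam fun _ => 2) (pairMv sel' sel) ≠ 0 := by
  rw [pairMv, map_mul, MvPolynomial.eval_rename, MvPolynomial.eval_rename, Sum.elim_comp_map,
    Sum.elim_comp_map]
  exact mul_ne_zero (eval_alephMv_ne_zero Φ' n' sel' h') (eval_alephMv_ne_zero Φ n sel h)

variable {U : Subgroup (GfK K)} {U' : Subgroup (GfK K')} (hU : IsLevel U) (hU' : IsLevel U')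
  (hnU : principalLevel K n ≤ U) (hnU' : principalLevel K' n' ≤ U')

include hU hU' hnU hnU' in
/-- **Both matched operators have image with zero constant term.** -/
theorem exists_pairLen :
    ∃ (ℓ' : ClassC Φ' n' → Fin (Fintype.card (Fin 3)) → ℝ)
      (ℓ : ClassC Φ n → Fin (Fintype.card Unit) → ℝ),
    ∀ (sel' : RayChar Φ' n' → ClassC Φ' n') (sel : RayChar Φ n → ClassC Φ n)
      (gen' : PairVar Φ Φ' n n' → HKer U') (gen : PairVar Φ Φ' n n' → HKer U)
      (X' : PairVar Φ Φ' n n' → AddMonoidAlgebra ℂ (ClassC Φ' n'))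
      (X : PairVar Φ Φ' n n' → AddMonoidAlgebra ℂ (ClassC Φ n)),
      (∀ i, Realises Φ' n' (gen' i) (X' i)) → (∀ i, Realises Φ n (gen i) (X i)) →
      (∀ η, X' (Sum.inl η) = symElt (sel' η)) → (∀ θ, X (Sum.inr θ) = symElt (sel θ)) →
      ∀ (A0 : Fin 3 → ℝ → ℂ) (hA0 : ∀ i, AbelTest (A0 i)),
        (∀ φ : Space Φ' U' → ℂ, IsNice φ → HasZeroMean
          (alephOp pairPlace (pairLen ℓ' ℓ sel' sel) gen' hA0 (pairMv sel' sel) φ)) ∧
        ∀ (place : PairShift Φ Φ' n n' → Fin 3) (φ : Space Φ U → ℂ), IsNice φ → HasZeroMean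
          (alephOp3 place (pairLen ℓ' ℓ sel' sel) gen hA0 (pairMv sel' sel) φ) := by
  obtain ⟨ℓ', hℓ'⟩ := exists_shiftLen Φ' n'
  obtain ⟨ℓ, hℓ⟩ := exists_shiftLen Φ n
  refine ⟨ℓ', ℓ, fun sel' sel gen' gen X' X hg' hg hX' hX A0 hA0 =>
    ⟨fun φ hφ => hasZeroMean_alephOp _ _ gen' hA0 hU' hnU' hg' ?_ hφ,
      fun place φ hφ => hasZeroMean_alephOp3 place _ gen hA0 hU hnU hg ?_ hφ⟩⟩
  · have h := hℓ' sel'
    rw [pairMv, map_mul, MvPolynomial.aeval_rename, Sum.elim_comp_map,
      show X' ∘ Sum.inl = fun η => symElt (sel' η) from funext hX']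
    exact mul_eq_zero_of_left h _
  · have h := hℓ sel
    rw [pairMv, map_mul, MvPolynomial.aeval_rename, MvPolynomial.aeval_rename, Sum.elim_comp_map,
      Sum.elim_comp_map]
    refine mul_eq_zero_of_right _ ?_
    rw [show X ∘ Sum.inr = fun θ => symElt (sel θ) from funext hX]
    refine Eq.trans ?_ h
    congr 2
    refine congrArg _ (funext fun p => ?_)
    simp only [Function.comp_apply, shiftEl, shiftAt, pairLen, Sum.elim_inr,
      AddMonoidHom.comp_apply]
    congr 2
    funext u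
    simp [sumThree, Subsingleton.elim u (placeFin Unit p.2)]

end Fermat.Agent.LT.Aleph
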