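import Mathlib.Algebra.QuadraticAlgebra.Basic
import Mathlib.Algebra.BigOperators.Fin
import Mathlib.Tactic.LinearCombination

/-!
The polynomial behind the cuspidal projector.

`alephPoly n T s` is a polynomial in `T, s 0, …, s n` vanishing whenever `s i = y i + (y i)⁻¹` and
`T = ∏ y i + ∏ (y i)⁻¹`. It is obtained by iterated norms from quadratic algebras, merging two
variables at a time.
-/

set_option autoImplicit false

namespace Fermat.Agent.LT.Aleph

universe u

open QuadraticAlgebra

variable {R : Type u} [CommRing R]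

/-- The coefficients `(-r, p)` of the quadratic relation satisfied by `y₀y₁ + (y₀y₁)⁻¹`. -/
def mergeA (s t : R) : R := -(s ^ 2 + t ^ 2 - 4)

/-- See `mergeA`. -/
def mergeB (s t : R) : R := s * t

/-- The polynomial. -/
def alephPoly : (n : ℕ) → {R : Type u} → [CommRing R] → R → (Fin (n + 1) → R) → R
  | 0, _, _, T, s => T - s 0
  | n + 1, R, _, T, s =>
    QuadraticAlgebra.norm (alephPoly n
      (algebraMap R (QuadraticAlgebra R (mergeA (s 0) (s 1)) (mergeB (s 0) (s 1))) T)
      (Fin.cons (⟨0, 1⟩ : QuadraticAlgebra R (mergeA (s 0) (s 1)) (mergeB (s 0) (s 1)))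
        fun i : Fin n => algebraMap R _ (s i.succ.succ)))

/-- Functorial map of quadratic algebras. -/
def quadMap {S : Type u} [CommRing S] (φ : R →+* S) {a b : R} {a' b' : S} (ha : φ a = a')
    (hb : φ b = b') : QuadraticAlgebra R a b →+* QuadraticAlgebra S a' b' where
  toFun z := ⟨φ z.re, φ z.im⟩
  map_zero' := by ext <;> simp
  map_one' := by ext <;> simp
  map_add' z w := by ext <;> simp
  map_mul' z w := by ext <;> simp [← ha, ← hb]

theorem norm_quadMap {S : Type u} [CommRing S] (φ : R →+* S) {a b : R} {a' b' : S} (ha : φ a = a')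
    (hb : φ b = b') (z : QuadraticAlgebra R a b) :
    QuadraticAlgebra.norm (quadMap φ ha hb z) = φ (QuadraticAlgebra.norm z) := by
  simp [norm_def, quadMap, ← ha, ← hb]

theorem map_alephPoly : ∀ (n : ℕ) {R S : Type u} [CommRing R] [CommRing S] (φ : R →+* S) (T : R)
    (s : Fin (n + 1) → R), φ (alephPoly n T s) = alephPoly n (φ T) (φ ∘ s)
  | 0, _, _, _, _, φ, T, s => by simp [alephPoly]
  | n + 1, R, S, _, _, φ, T, s => by
    have ha : φ (mergeA (s 0) (s 1)) = mergeA ((φ ∘ s) 0) ((φ ∘ s) 1) := by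
      simp [mergeA, map_ofNat]
    have hb : φ (mergeB (s 0) (s 1)) = mergeB ((φ ∘ s) 0) ((φ ∘ s) 1) := by simp [mergeB]
    rw [alephPoly, alephPoly, ← norm_quadMap φ ha hb, map_alephPoly n]
    congr 1
    congr 1
    · ext <;> simp [quadMap]
    · funext i
      refine Fin.cases ?_ (fun j => ?_) i <;> ext <;> simp [quadMap]

theorem norm_eq_lift_mul {a b : R} (φ : QuadraticAlgebra R a b →ₐ[R] R)
    (z : QuadraticAlgebra R a b) : QuadraticAlgebra.norm z = φ z * φ (star z) := by
  have h : algebraMap R (QuadraticAlgebra R a b) (QuadraticAlgebra.norm z) = z * star z := by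
    ext <;> simp [norm_def] <;> ring
  rw [← map_mul, ← h, AlgHom.commutes, Algebra.algebraMap_self, RingHom.id_apply]

theorem lift_alephPoly (n : ℕ) {R : Type u} [CommRing R] (T : R) (s : Fin (n + 2) → R) (u : R)
    (hu : u * u = mergeA (s 0) (s 1) + mergeB (s 0) (s 1) * u) :
    ∃ φ : QuadraticAlgebra R (mergeA (s 0) (s 1)) (mergeB (s 0) (s 1)) →ₐ[R] R,
      φ (alephPoly n (algebraMap R _ T) (Fin.cons
          (⟨0, 1⟩ : QuadraticAlgebra R (mergeA (s 0) (s 1)) (mergeB (s 0) (s 1)))
          fun i : Fin n => algebraMap R _ (s i.succ.succ))) =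
        alephPoly n T (Fin.cons u fun i : Fin n => s i.succ.succ) ∧
      φ ⟨0, 1⟩ = u := by
  let φ := QuadraticAlgebra.lift (a := mergeA (s 0) (s 1)) (b := mergeB (s 0) (s 1)) (A := R)
    ⟨u, by simp [hu]⟩
  have hω : φ ⟨0, 1⟩ = u := by simp [φ]
  refine ⟨φ, ?_, hω⟩
  have h := map_alephPoly n (φ : _ →+* R) (algebraMap R _ T)
    (Fin.cons (⟨0, 1⟩ : QuadraticAlgebra R (mergeA (s 0) (s 1)) (mergeB (s 0) (s 1)))
      fun i : Fin n => algebraMap R _ (s i.succ.succ))
  refine h.trans ?_
  congr 1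
  · exact φ.commutes T
  · funext i
    refine Fin.cases ?_ (fun j => ?_) i
    · simpa using hω
    · simp

/-- **Vanishing.** -/
theorem alephPoly_eq_zero : ∀ (n : ℕ) {R : Type u} [CommRing R] (y y' : Fin (n + 1) → R)
    (_ : ∀ i, y i * y' i = 1),
    alephPoly n (∏ i, y i + ∏ i, y' i) (fun i => y i + y' i) = 0
  | 0, _, _, y, y', _ => by simp [alephPoly]
  | n + 1, R, _, y, y', h => by
    set s := fun i => y i + y' i with hs
    obtain ⟨φ, hφ, -⟩ := lift_alephPoly n (∏ i, y i + ∏ i, y' i) s (y 0 * y 1 + y' 0 * y' 1) (by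
      simp only [hs, mergeA, mergeB]
      linear_combination (2 - y 1 ^ 2 - y' 1 ^ 2) * h 0 + (2 - y 0 ^ 2 - y' 0 ^ 2) * h 1)
    rw [alephPoly, norm_eq_lift_mul φ, hφ]
    let z : Fin (n + 1) → R := Fin.cons (y 0 * y 1) fun i => y i.succ.succ
    let z' : Fin (n + 1) → R := Fin.cons (y' 0 * y' 1) fun i => y' i.succ.succ
    have hz : ∀ i, z i * z' i = 1 := by
      intro i
      refine Fin.cases ?_ (fun j => ?_) i
      · simp only [z, z', Fin.cons_zero]
        linear_combination (y 1 * y' 1) * h 0 + h 1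
      · simpa [z, z'] using h j.succ.succ
    have hpr : ∀ w : Fin (n + 2) → R, ∏ i, w i =
        ∏ i, (Fin.cons (w 0 * w 1) fun i : Fin n => w i.succ.succ : Fin (n + 1) → R) i := by
      intro w
      simp [Fin.prod_univ_succ, mul_assoc]
    have heq : (Fin.cons (y 0 * y 1 + y' 0 * y' 1) fun i : Fin n => s i.succ.succ) =
        fun i => z i + z' i := by
      funext i
      refine Fin.cases ?_ (fun j => ?_) i <;> simp [z, z', hs]
    have h0 : alephPoly n (∏ i, y i + ∏ i, y' i)
        (Fin.cons (y 0 * y 1 + y' 0 * y' 1) fun i : Fin n => s i.succ.succ) = 0 := by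
      rw [heq, hpr y, hpr y']
      exact alephPoly_eq_zero n z z' hz
    rw [h0, zero_mul]

/-- A coordinate equal to `2` squares the polynomial in the remaining ones. -/
theorem alephPoly_succ_of_two (n : ℕ) (T : R) (s : Fin (n + 2) → R) (h : s 0 = 2) :
    alephPoly (n + 1) T s = alephPoly n T (Fin.tail s) ^ 2 := by
  obtain ⟨φ, hφ, hω⟩ := lift_alephPoly n T s (s 1) (by simp [mergeA, mergeB, h]; ring)
  have key : ∀ z, φ z = z.re + z.im * s 1 := fun z => by
    conv_lhs => rw [show z = algebraMap R _ z.re + z.im • ⟨0, 1⟩ by ext <;> simp]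
    simp only [map_add, map_smul, AlgHom.commutes, hω, Algebra.algebraMap_self, RingHom.id_apply,
      smul_eq_mul]
  have hstar : ∀ z, φ (star z) = φ z := fun z => by
    have hb : mergeB (s 0) (s 1) = 2 * s 1 := by simp [mergeB, h]
    rw [key, key, re_star, im_star]
    linear_combination z.im * hb
  rw [alephPoly, norm_eq_lift_mul φ, hstar, hφ, sq]
  congr 2 <;> funext i <;> refine Fin.cases ?_ (fun j => ?_) i <;> simp [Fin.tail]

/-- The value when all but the last coordinate are `2`. -/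
theorem alephPoly_twos : ∀ (n : ℕ) (T : R) (s : Fin (n + 1) → R),
    (∀ i : Fin n, s i.castSucc = 2) → alephPoly n T s = (T - s (Fin.last n)) ^ 2 ^ n
  | 0, T, s, _ => by simp [alephPoly]
  | n + 1, T, s, h => by
    rw [alephPoly_succ_of_two n T s (h 0), alephPoly_twos n T (Fin.tail s) (fun i => h i.succ),
      ← pow_mul, ← pow_succ]
    rfl

end Fermat.Agent.LT.Aleph
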