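import Mathlib.Algebra.Category.Grp.Injective
import Mathlib.Analysis.Fourier.FiniteAbelian.PontryaginDuality
import Mathlib.GroupTheory.QuotientGroup.Basic
import Fermat.Agent.LT.Aleph.Poly

/-!
The cuspidal projector in the group algebra of `C = F^× \ 𝔸^× / U`.

`ι : ℝⁿ → C` is the identity component, with finite quotient (a ray class group). For any choice of
elements `sel η : C`, one for each character `η` of the quotient, the product
`alephElt = ∏_η P(T(sel η), symmetrised shifts, η + η⁻¹)` vanishes.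
-/

set_option autoImplicit false

noncomputable section

namespace Fermat.Agent.LT.Aleph

open AddMonoidAlgebra Finset

variable {C : Type} [AddCommGroup C] {n : ℕ}

/-- `[c] + [-c]`. -/
def symElt (c : C) : AddMonoidAlgebra ℂ C := single c 1 + single (-c) 1

/-- The variables fed to `alephPoly`. -/
def alephVars (ι : (Fin n → ℝ) →+ C) (ℓ : Fin n → ℝ) (c : ℂ) : Fin (n + 1) → AddMonoidAlgebra ℂ C :=
  Fin.snoc (fun j => symElt (ι (Pi.single j (ℓ j)))) (algebraMap ℂ _ c)

/-- The product over all characters of the finite quotient. -/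
def alephElt (ι : (Fin n → ℝ) →+ C) [Finite (C ⧸ ι.range)] (sel : AddChar (C ⧸ ι.range) ℂ → C)
    (ℓ : C → Fin n → ℝ) : AddMonoidAlgebra ℂ C :=
  ∏ η : AddChar (C ⧸ ι.range) ℂ, alephPoly n (symElt (sel η))
    (alephVars ι (ℓ (sel η)) (η (sel η : C ⧸ ι.range) + η (-(sel η : C ⧸ ι.range))))

/-- The image of a real vector space is divisible. -/
theorem exists_retraction (ι : (Fin n → ℝ) →+ C) :
    ∃ r : C →+ ι.range, ∀ x : ι.range, r x = x := by
  classical
  let : DivisibleBy ι.range ℤ :=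
    { div := fun x m => if m = 0 then 0 else
        ⟨ι ((m : ℝ)⁻¹ • Classical.choose x.2), ⟨_, rfl⟩⟩
      div_zero := fun x => if_pos rfl
      div_cancel := fun {m} x hm => by
        rw [if_neg hm]
        apply Subtype.ext
        show m • ι ((m : ℝ)⁻¹ • Classical.choose x.2) = (x : C)
        rw [← map_zsmul, ← Int.cast_smul_eq_zsmul ℝ m, smul_smul,
          mul_inv_cancel₀ (Int.cast_ne_zero.mpr hm), one_smul]
        exact Classical.choose_spec x.2 }
  obtain ⟨r, hr⟩ := (Module.Baer.of_divisible (A := ι.range)).extension_property_addMonoidHom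
    ι.range.subtype Subtype.val_injective (AddMonoidHom.id _)
  exact ⟨r, fun x => DFunLike.congr_fun hr x⟩

variable (ι : (Fin n → ℝ) →+ C) [Finite (C ⧸ ι.range)]

/-- Shifts `ℓ` and a homomorphic section of the finite quotient. -/
theorem exists_section : ∃ (ℓ : C → Fin n → ℝ) (σ : (C ⧸ ι.range) →+ C),
    (∀ q, (σ q : C ⧸ ι.range) = q) ∧ ∀ c : C, σ c + ι (ℓ c) = c := by
  obtain ⟨r, hr⟩ := exists_retraction ι
  choose g hg using fun c : C => (r c).2
  refine ⟨g, QuotientAddGroup.lift ι.range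
    (AddMonoidHom.id C - ι.range.subtype.comp r) (fun x hx => ?_), fun q => ?_, fun c => ?_⟩
  · simp [hr ⟨x, hx⟩]
  · induction q using QuotientAddGroup.induction_on with
    | H x =>
      rw [QuotientAddGroup.lift_mk, QuotientAddGroup.eq]
      simp
  · rw [QuotientAddGroup.lift_mk, hg c]
    simp

/-- The idempotent of a character of the quotient. -/
def charIdem (σ : (C ⧸ ι.range) →+ C) (η : AddChar (C ⧸ ι.range) ℂ) : AddMonoidAlgebra ℂ C :=
  letI := Fintype.ofFinite (C ⧸ ι.range)
  ∑ q : C ⧸ ι.range, single (σ q) ((Fintype.card (C ⧸ ι.range) : ℂ)⁻¹ * η (-q))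

theorem sum_charIdem (σ : (C ⧸ ι.range) →+ C) : ∑ η, charIdem ι σ η = 1 := by
  classical
  let := Fintype.ofFinite (C ⧸ ι.range)
  simp only [charIdem]
  rw [Finset.sum_comm]
  have hs : ∀ q : C ⧸ ι.range, (∑ η : AddChar (C ⧸ ι.range) ℂ,
      single (σ q) ((Fintype.card (C ⧸ ι.range) : ℂ)⁻¹ * η (-q))) =
      if q = 0 then 1 else 0 := fun q => by
    rw [show (∑ η : AddChar (C ⧸ ι.range) ℂ,
        single (σ q) ((Fintype.card (C ⧸ ι.range) : ℂ)⁻¹ * η (-q))) =
        single (σ q) (∑ η : AddChar (C ⧸ ι.range) ℂ, (Fintype.card (C ⧸ ι.range) : ℂ)⁻¹ * η (-q))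
      from (map_sum (AddMonoidAlgebra.singleAddHom (σ q)) _ _).symm, ← Finset.mul_sum,
      AddChar.sum_apply_eq_ite]
    rcases eq_or_ne q 0 with rfl | hq
    · simp [AddMonoidAlgebra.one_def]
    · simp [hq]
  simp [hs]

theorem single_mul_charIdem (σ : (C ⧸ ι.range) →+ C) (η : AddChar (C ⧸ ι.range) ℂ)
    (q : C ⧸ ι.range) : single (σ q) (1 : ℂ) * charIdem ι σ η =
      algebraMap ℂ _ (η q) * charIdem ι σ η := by
  let := Fintype.ofFinite (C ⧸ ι.range)
  simp only [charIdem, Finset.mul_sum]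
  refine Fintype.sum_equiv (Equiv.addLeft q) _ _ fun p => ?_
  simp only [Equiv.coe_addLeft, AddMonoidAlgebra.coe_algebraMap, Function.comp_apply,
    single_mul_single, map_add, one_mul, zero_add]
  congr 1
  simp only [Algebra.algebraMap_self, RingHom.id_apply]
  rw [mul_left_comm, ← AddChar.map_add_eq_mul, ← sub_eq_add_neg, show q - (q + p) = -p by abel]

/-- An element annihilated by multiplication factors through the character. -/
theorem alephPoly_mul_charIdem (ℓ : C → Fin n → ℝ) (σ : (C ⧸ ι.range) →+ C)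
    (hσ : ∀ c : C, σ c + ι (ℓ c) = c) (η : AddChar (C ⧸ ι.range) ℂ) (X : C) :
    alephPoly n (symElt X) (alephVars ι (ℓ X) (η (X : C ⧸ ι.range) + η (-(X : C ⧸ ι.range)))) *
      charIdem ι σ η = 0 := by
  set e := charIdem ι σ η
  set I := Ideal.span ({1 - e} : Set (AddMonoidAlgebra ℂ C))
  set π := Ideal.Quotient.mk I with hπ
  have he : ∀ x, π (x * e) = π x := fun x => by
    rw [hπ, Ideal.Quotient.eq, show x * e - x = -x * (1 - e) by ring]
    exact I.mul_mem_left _ (Ideal.mem_span_singleton_self _)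
  set ζ := algebraMap ℂ (AddMonoidAlgebra ℂ C) (η (X : C ⧸ ι.range))
  set ζ' := algebraMap ℂ (AddMonoidAlgebra ℂ C) (η (-(X : C ⧸ ι.range)))
  have hX : π (single (σ (X : C ⧸ ι.range)) 1) = π ζ := by
    rw [← he (single _ _), single_mul_charIdem, he]
  have hX' : π (single (σ (-(X : C ⧸ ι.range))) 1) = π ζ' := by
    rw [← he (single _ _), single_mul_charIdem, he]
  let y : Fin (n + 1) → AddMonoidAlgebra ℂ C :=
    Fin.snoc (fun j => single (ι (Pi.single j (ℓ X j))) 1) ζ
  let y' : Fin (n + 1) → AddMonoidAlgebra ℂ C :=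
    Fin.snoc (fun j => single (-ι (Pi.single j (ℓ X j))) 1) ζ'
  have hy : ∀ i, y i * y' i = 1 := by
    intro i
    refine Fin.lastCases ?_ (fun j => ?_) i
    · simp only [y, y', Fin.snoc_last, ζ, ζ', ← map_mul, ← AddChar.map_add_eq_mul, add_neg_cancel,
        AddChar.map_zero_eq_one, map_one]
    · simp only [y, y', Fin.snoc_castSucc, single_mul_single, add_neg_cancel, mul_one]
      exact AddMonoidAlgebra.one_def.symm
  have hv : alephVars ι (ℓ X) (η (X : C ⧸ ι.range) + η (-(X : C ⧸ ι.range))) =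
      fun i => y i + y' i := by
    funext i
    refine Fin.lastCases ?_ (fun j => ?_) i <;> simp [alephVars, y, y', symElt, ζ, ζ']
  have hsum : ι (ℓ X) = ∑ j, ι (Pi.single j (ℓ X j)) := by
    rw [← map_sum, Finset.univ_sum_single]
  have hprod : ∀ (f : Fin n → C), ∏ j, single (f j) (1 : ℂ) = single (∑ j, f j) 1 := fun f => by
    rw [AddMonoidAlgebra.prod_single]; simp
  have h1 : π (∏ i, y i + ∏ i, y' i) = π (symElt X) := by
    have hXe : X = σ (X : C ⧸ ι.range) + ι (ℓ X) := (hσ X).symm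
    have hXn : -X = σ (-(X : C ⧸ ι.range)) + -ι (ℓ X) := by
      conv_lhs => rw [hXe]
      simp [neg_add]
      abel
    have s1 : single X (1 : ℂ) = single (σ (X : C ⧸ ι.range)) 1 * single (ι (ℓ X)) 1 := by
      rw [single_mul_single, ← hXe, one_mul]
    have s2 : single (-X) (1 : ℂ) = single (σ (-(X : C ⧸ ι.range))) 1 * single (-ι (ℓ X)) 1 := by
      rw [single_mul_single, ← hXn, one_mul]
    rw [symElt, s1, s2, map_add, map_add, map_mul, map_mul, hX, hX', Fin.prod_univ_castSucc,
      Fin.prod_univ_castSucc]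
    simp only [y, y', Fin.snoc_castSucc, Fin.snoc_last]
    rw [hprod, hprod, ← hsum, Finset.sum_neg_distrib, ← hsum, map_mul, map_mul]
    ring
  have key : π (alephPoly n (symElt X)
      (alephVars ι (ℓ X) (η (X : C ⧸ ι.range) + η (-(X : C ⧸ ι.range))))) = 0 := by
    rw [map_alephPoly, ← h1, ← map_alephPoly, hv, alephPoly_eq_zero n y y' hy, map_zero]
  obtain ⟨a, ha⟩ := Ideal.mem_span_singleton'.mp (Ideal.Quotient.eq_zero_iff_mem.mp key)
  have hidem : e * e = e := by
    let := Fintype.ofFinite (C ⧸ ι.range)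
    have h2 : ∀ q : C ⧸ ι.range, single (σ q) ((Fintype.card (C ⧸ ι.range) : ℂ)⁻¹ * η (-q)) * e =
        algebraMap ℂ _ ((Fintype.card (C ⧸ ι.range) : ℂ)⁻¹) * e := fun q => by
      rw [show single (σ q) ((Fintype.card (C ⧸ ι.range) : ℂ)⁻¹ * η (-q)) =
        algebraMap ℂ (AddMonoidAlgebra ℂ C) ((Fintype.card (C ⧸ ι.range) : ℂ)⁻¹ * η (-q)) *
          single (σ q) 1 by simp [AddMonoidAlgebra.coe_algebraMap, single_mul_single],
        mul_assoc, single_mul_charIdem, ← mul_assoc, ← map_mul, mul_assoc,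
        ← AddChar.map_add_eq_mul]
      simp [e]
    calc e * e = ∑ q : C ⧸ ι.range,
        single (σ q) ((Fintype.card (C ⧸ ι.range) : ℂ)⁻¹ * η (-q)) * e := Finset.sum_mul _ _ _
      _ = e := by
        simp only [h2, Finset.sum_const, Finset.card_univ, nsmul_eq_mul, ← mul_assoc,
          ← map_natCast (algebraMap ℂ (AddMonoidAlgebra ℂ C)), ← map_mul]
        rw [mul_inv_cancel₀ (Nat.cast_ne_zero.mpr Fintype.card_ne_zero), map_one, one_mul]
  rw [← ha, mul_assoc, sub_mul, one_mul, hidem, sub_self, mul_zero]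

/-- **The cuspidal projector kills the constant term**: there are shifts `ℓ` (depending only on
`ι`) such that `alephElt` vanishes for every selection. -/
theorem exists_shift_alephElt_eq_zero :
    ∃ ℓ : C → Fin n → ℝ, ∀ sel : AddChar (C ⧸ ι.range) ℂ → C, alephElt ι sel ℓ = 0 := by
  obtain ⟨ℓ, σ, -, hσ⟩ := exists_section ι
  refine ⟨ℓ, fun sel => ?_⟩
  rw [← mul_one (alephElt ι sel ℓ), ← sum_charIdem ι σ, Finset.mul_sum]
  refine Finset.sum_eq_zero fun η _ => ?_
  rw [alephElt, ← Finset.prod_erase_mul _ _ (Finset.mem_univ η), mul_assoc,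
    alephPoly_mul_charIdem ι ℓ σ hσ η (sel η), mul_zero]

end Fermat.Agent.LT.Aleph
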