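import Fermat.Agent.LT.Aleph.ArchCT
import Fermat.Agent.LT.Aleph.ClassGroup
import Fermat.Agent.LT.Aleph.HeckeCoset
import Fermat.Agent.LT.Aleph.Vanish

/-!
# Finite matrices acting on constant terms through the group algebra of the ray class group

A function `c` on `Yf U × ℝ^ι` with the invariances of a constant term gives, for each `κ ∈ GL₂(Ô)`,
a function on `ClassC Φ n`.  `Realises h f` says that the matrix `h` acts on all of these as the
element `f` of the group algebra; `T_v / √q` realises `[v] + [-v]`.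
-/

set_option autoImplicit false
set_option linter.unusedSectionVars false

noncomputable section

namespace Fermat.Agent.LT.Aleph

open NumberField IsDedekindDomain Matrix AddMonoidAlgebra
open Fermat.Agent.LT.Adelic Fermat.Agent.LT.Descent

variable {K : Type} [Field K] [NumberField K] {ι : Type} [Fintype ι] {Φ : Frame K ι}
  {U : Subgroup (GfK K)} {n : 𝓞 K}

local notation "Af" => FiniteAdeleRing (𝓞 K) K

/-- The invariances of a constant term. -/
structure IsCTFun (Φ : Frame K ι) (c : Yf U → (ι → ℝ) → ℂ) : Prop where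
  unip : ∀ (t : Af) (y : Yf U) x, c (unipotent t • y) x = c y x
  diag : ∀ (α : Kˣ) (y : Yf U) (x : ι → ℝ),
    c (diag2 (FiniteAdeleRing.unitEmbedding (𝓞 K) K α) 1 • y)
      (fun i => x i + Real.log ‖Φ.emb i (α : K)‖) = c y x

theorem isCTFun_constTerm (hU : IsLevel U) {φ : Space Φ U → ℂ} (hφ : IsNice φ) :
    IsCTFun Φ (constTerm φ) :=
  ⟨fun t y x => constTerm_unipotent hU hφ t y x, fun α y x => constTerm_diag hU hφ α y x⟩

/-- A matrix applied pointwise. -/
def kerCT (h : HKer U) (c : Yf U → (ι → ℝ) → ℂ) (y : Yf U) (x : ι → ℝ) : ℂ :=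
  kerApply h (fun y' => c y' x) y

theorem IsCTFun.kerCT {c : Yf U → (ι → ℝ) → ℂ} (hc : IsCTFun Φ c) (h : HKer U) :
    IsCTFun Φ (kerCT h c) :=
  ⟨fun t y x => kerApply_translate h _ _ _ (fun y' => hc.unip t y' x) y,
    fun α y x => kerApply_translate h _ _ _ (fun y' => hc.diag α y' x) y⟩

theorem kerCT_comp (h g : HKer U) (c : Yf U → (ι → ℝ) → ℂ) :
    kerCT (h.comp g) c = kerCT h (kerCT g c) := by
  funext y x
  simp only [kerCT, kerApply_comp]

/-- The normalised constant term at `diag (a, 1) κ`. -/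
def ctPre (c : Yf U → (ι → ℝ) → ℂ) (κ : GfK K) (a : Afˣ) (x : ι → ℝ) : ℂ :=
  c ((diag2 a 1 * κ : GfK K) : Yf U) x * ((normChar a)⁻¹ * (Real.exp (-∑ i, x i) : ℂ))

theorem diag2_mul_left (a b : Afˣ) :
    (diag2 (a * b) 1 : GfK K) = diag2 a 1 * diag2 b 1 := by
  refine Units.ext (Matrix.ext fun i j => ?_)
  fin_cases i <;> fin_cases j <;> simp [Matrix.mul_apply]

theorem conj_mem_principalLevel {e κ : GfK K} (he : e ∈ principalLevel K n)
    (hκ : κ ∈ principalLevel K (1 : 𝓞 K)) : κ⁻¹ * e * κ ∈ principalLevel K n := by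
  obtain ⟨h1, h2⟩ := mem_principalLevel_one.mp hκ
  have key : ∀ e : GfK K, MatMemMul n ((e : Matrix (Fin 2) (Fin 2) Af) - 1) →
      MatMemMul n (((κ⁻¹ * e * κ : GfK K) : Matrix (Fin 2) (Fin 2) Af) - 1) := by
    intro e he
    have e1 : ((κ⁻¹ * e * κ : GfK K) : Matrix (Fin 2) (Fin 2) Af) - 1 =
        ((κ⁻¹ : GfK K) : Matrix (Fin 2) (Fin 2) Af) * ((e : Matrix (Fin 2) (Fin 2) Af) - 1) *
          (κ : Matrix (Fin 2) (Fin 2) Af) := by
      rw [Units.val_mul, Units.val_mul, mul_sub, mul_one, sub_mul, Units.inv_mul]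
    rw [e1]
    have := (h2.mul he).mul h1
    simpa using this
  exact ⟨key e he.1, by rw [_root_.mul_inv_rev, _root_.mul_inv_rev, inv_inv, ← mul_assoc];
                        exact key _ he.2⟩

theorem diag2_mem_principalLevel {u : Afˣ} (hu : u ∈ rayUnits n) :
    (diag2 u 1 : GfK K) ∈ principalLevel K n := by
  have key : ∀ u : Afˣ, u ∈ rayUnits n →
      MatMemMul n (((diag2 u 1 : GfK K) : Matrix (Fin 2) (Fin 2) Af) - 1) := by
    intro u hu i j
    fin_cases i <;> fin_cases j <;> simp [memMul_zero_right, hu.2]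
  refine ⟨key u hu, ?_⟩
  have e : (diag2 u 1 : GfK K)⁻¹ = diag2 u⁻¹ 1 := inv_eq_of_mul_eq_one_right (by
    rw [← diag2_mul_left, mul_inv_cancel]
    refine Units.ext (Matrix.ext fun i j => ?_)
    fin_cases i <;> fin_cases j <;> simp)
  rw [e]
  exact key _ (inv_mem hu)

theorem exists_ctLift (hnU : principalLevel K n ≤ U) {c : Yf U → (ι → ℝ) → ℂ} (hc : IsCTFun Φ c)
    {κ : GfK K} (hκ : κ ∈ principalLevel K (1 : 𝓞 K)) :
    ∃ G : ClassC Φ n → ℂ, ∀ a x, G (classMk Φ n a x) = ctPre c κ a x := by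
  refine exists_lift (ctPre c κ) (fun α a x => ?_) fun u hu a x => ?_
  · have h1 := hc.diag α ((diag2 a 1 * κ : GfK K) : Yf U) x
    have h2 : ((diag2 (principalIdele α * a) 1 * κ : GfK K) : Yf U) =
        diag2 (FiniteAdeleRing.unitEmbedding (𝓞 K) K α) 1 • ((diag2 a 1 * κ : GfK K) : Yf U) := by
      rw [diag2_mul_left, mul_assoc]; rfl
    rw [ctPre, h2, h1, ctPre]
    congr 1
    have hpos : 0 < ∏ i, ‖Φ.emb i (α : K)‖ :=
      Finset.prod_pos fun i _ => norm_pos_iff.mpr (by simp)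
    have hp := normChar_principal Φ α
    rw [Finset.sum_add_distrib, ← Real.log_prod (fun i _ => by simp), neg_add, Real.exp_add,
      Real.exp_neg (Real.log _), Real.exp_log hpos, normChar_mul, Complex.ofReal_mul,
      Complex.ofReal_inv, eq_inv_of_mul_eq_one_left hp]
    field_simp
    have hne : ((∏ i, ‖Φ.emb i (α : K)‖ : ℝ) : ℂ) ≠ 0 := Complex.ofReal_ne_zero.mpr hpos.ne'
    have := normChar_ne_zero a
    field_simp
  · have h2 : ((diag2 (u * a) 1 * κ : GfK K) : Yf U) = ((diag2 a 1 * κ : GfK K) : Yf U) := by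
      symm
      refine QuotientGroup.eq.mpr (le_levelZ U (hnU ?_))
      have e : (diag2 a 1 * κ)⁻¹ * (diag2 (u * a) 1 * κ) = κ⁻¹ * diag2 u 1 * κ := by
        rw [mul_comm u a, diag2_mul_left]
        group
      rw [e]
      exact conj_mem_principalLevel (diag2_mem_principalLevel hu) hκ
    rw [ctPre, h2, normChar_mul, normChar_eq_one hu.1, one_mul, ctPre]

open Classical in
/-- The function on the ray class group attached to `c` and `κ`. -/
def ctLift (Φ : Frame K ι) (n : 𝓞 K) (c : Yf U → (ι → ℝ) → ℂ) (κ : GfK K) : ClassC Φ n → ℂ :=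
  if h : ∃ G : ClassC Φ n → ℂ, ∀ a x, G (classMk Φ n a x) = ctPre c κ a x then h.choose else 0

theorem ctLift_classMk (hnU : principalLevel K n ≤ U) {c : Yf U → (ι → ℝ) → ℂ}
    (hc : IsCTFun Φ c) {κ : GfK K} (hκ : κ ∈ principalLevel K (1 : 𝓞 K)) (a : Afˣ) (x : ι → ℝ) :
    ctLift Φ n c κ (classMk Φ n a x) = ctPre c κ a x := by
  have h := exists_ctLift (n := n) hnU hc hκ
  rw [ctLift, dif_pos h]
  exact h.choose_spec a x

section Act

variable {C : Type} [AddCommGroup C]

/-- Translations. -/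
def shiftHom : Multiplicative C →* Module.End ℂ (C → ℂ) where
  toFun X :=
    { toFun := fun G q => G (q + X.toAdd)
      map_add' := fun _ _ => rfl
      map_smul' := fun _ _ => rfl }
  map_one' := LinearMap.ext fun G => funext fun q => by simp
  map_mul' X Y := LinearMap.ext fun G => funext fun q => by simp [add_assoc]

/-- The action of the group algebra. -/
def actHom : AddMonoidAlgebra ℂ C →ₐ[ℂ] Module.End ℂ (C → ℂ) :=
  AddMonoidAlgebra.lift ℂ (Module.End ℂ (C → ℂ)) C shiftHom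

theorem actHom_single (X : C) (a : ℂ) (G : C → ℂ) (q : C) :
    actHom (single X a) G q = a * G (q + X) := by
  simp [actHom, shiftHom]

theorem actHom_symElt (X : C) (G : C → ℂ) (q : C) :
    actHom (symElt X) G q = G (q + X) + G (q - X) := by
  simp [symElt, actHom_single, sub_eq_add_neg]

end Act

variable (Φ n) in
/-- `h` acts on every constant term as `f`. -/
def Realises (h : HKer U) (f : AddMonoidAlgebra ℂ (ClassC Φ n)) : Prop :=
  ∀ c : Yf U → (ι → ℝ) → ℂ, IsCTFun Φ c → ∀ κ ∈ principalLevel K (1 : 𝓞 K),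
    ctLift Φ n (kerCT h c) κ = actHom f (ctLift Φ n c κ)

theorem realises_id : Realises Φ n (HKer.id U) 1 := by
  intro c _ κ _
  have : kerCT (HKer.id U) c = c := by funext y x; rw [kerCT, kerApply_id]
  rw [this, map_one]
  rfl

theorem Realises.comp {h g : HKer U} {f f' : AddMonoidAlgebra ℂ (ClassC Φ n)}
    (h1 : Realises Φ n h f) (h2 : Realises Φ n g f') : Realises Φ n (h.comp g) (f * f') := by
  intro c hc κ hκ
  rw [kerCT_comp, h1 _ (hc.kerCT g) κ hκ, h2 c hc κ hκ, map_mul]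
  rfl

theorem Realises.smul (hnU : principalLevel K n ≤ U) {h : HKer U}
    {f : AddMonoidAlgebra ℂ (ClassC Φ n)} (h1 : Realises Φ n h f) (r : ℂ) :
    Realises Φ n (hkerSmul r h) (r • f) := by
  intro c hc κ hκ
  funext q
  obtain ⟨a, x, rfl⟩ := classMk_surjective q
  rw [map_smul, LinearMap.smul_apply, Pi.smul_apply, ← h1 c hc κ hκ,
    ctLift_classMk hnU (hc.kerCT _) hκ, ctLift_classMk hnU (hc.kerCT _) hκ, smul_eq_mul]
  simp only [ctPre, kerCT, kerApply_smul]
  ring

/-- The sum of two matrices. -/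
def hkerAdd (f g : HKer U) : HKer U where
  toFun y z := f y z + g y z
  smul' γ y z := by simp only [f.smul', g.smul']
  finite_row y := ((f.finite_row y).union (g.finite_row y)).subset (Function.support_add _ _)
  finite_col z := ((f.finite_col z).union (g.finite_col z)).subset (Function.support_add _ _)

theorem kerApply_add (f g : HKer U) (ψ : Yf U → ℂ) :
    kerApply (hkerAdd f g) ψ = fun y => kerApply f ψ y + kerApply g ψ y := by
  funext y
  simp only [kerApply]
  rw [← finsum_add_distrib]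
  · exact finsum_congr fun z => add_mul _ _ _
  · exact (f.finite_row y).subset fun _ hz => left_ne_zero_of_mul hz
  · exact (g.finite_row y).subset fun _ hz => left_ne_zero_of_mul hz

theorem Realises.add (hnU : principalLevel K n ≤ U) {h g : HKer U}
    {f f' : AddMonoidAlgebra ℂ (ClassC Φ n)} (h1 : Realises Φ n h f) (h2 : Realises Φ n g f') :
    Realises Φ n (hkerAdd h g) (f + f') := by
  intro c hc κ hκ
  funext q
  obtain ⟨a, x, rfl⟩ := classMk_surjective q
  rw [map_add, LinearMap.add_apply, Pi.add_apply, ← h1 c hc κ hκ, ← h2 c hc κ hκ,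
    ctLift_classMk hnU (hc.kerCT _) hκ, ctLift_classMk hnU (hc.kerCT _) hκ,
    ctLift_classMk hnU (hc.kerCT _) hκ]
  simp only [ctPre, kerCT, kerApply_add]
  ring

/-- `T_v / √q`. -/
def heckeKer (hU : IsLevel U) (v : HeightOneSpectrum (𝓞 K)) (ϖ : Afˣ) : HKer U :=
  hkerSmul ((Real.sqrt (Ideal.absNorm v.asIdeal))⁻¹ : ℝ) (HKer.ofDoubleCoset hU (heckeMatrix K ϖ))

theorem natCard_residue (v : HeightOneSpectrum (𝓞 K)) :
    Nat.card (𝓞 K ⧸ v.asIdeal) = Ideal.absNorm v.asIdeal := by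
  rw [Ideal.absNorm_apply, Submodule.cardQuot_apply]

theorem realises_heckeKer (hU : IsLevel U) (hnU : principalLevel K n ≤ U)
    (hU1 : U ≤ principalLevel K (1 : 𝓞 K)) {v : HeightOneSpectrum (𝓞 K)}
    (hv : v.intValuation n = 1) {ϖ : Afˣ} (hϖ : IsUniformiserAt v ϖ) :
    Realises Φ n (heckeKer hU v ϖ) (symElt (classMk Φ n ϖ 0)) := by
  intro c hc κ hκ
  funext q
  obtain ⟨a, x, rfl⟩ := classMk_surjective q
  have : Finite (𝓞 K ⧸ v.asIdeal) := Ring.HasFiniteQuotients.finiteQuotient v.ne_bot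
  let _ : Fintype (𝓞 K ⧸ v.asIdeal) := Fintype.ofFinite _
  have hu : UnifAt v ϖ := ⟨hϖ.1, hϖ.2⟩
  have hnone : ((diag2 a 1 * diag2 1 ϖ * κ : GfK K) : Yf U) =
      ((diag2 (a * ϖ⁻¹) 1 * κ : GfK K) : Yf U) := by
    have e : (diag2 a 1 * diag2 1 ϖ : GfK K) = scalarHom (𝓞 K) K ϖ * diag2 (a * ϖ⁻¹) 1 := by
      refine Units.ext (Matrix.ext fun i j => ?_)
      fin_cases i <;> fin_cases j <;>
        simp [Matrix.mul_apply, scalarHom]
      rw [mul_left_comm, Units.mul_inv, mul_one]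
    rw [e, mul_assoc, centerGf_comm ⟨ϖ, rfl⟩]
    refine (QuotientGroup.eq.mpr ?_).symm
    rw [inv_mul_cancel_left]
    exact (le_sup_right : centerGf (𝓞 K) K ≤ levelZ U) ⟨ϖ, rfl⟩
  have hsome : ∀ t : Af, c ((diag2 a 1 * (unipotent t * diag2 ϖ 1) * κ : GfK K) : Yf U) x =
      c ((diag2 (a * ϖ) 1 * κ : GfK K) : Yf U) x := by
    intro t
    have e : (diag2 a 1 * (unipotent t * diag2 ϖ 1) : GfK K) =
        unipotent ((a : Af) * t) * diag2 (a * ϖ) 1 := by
      refine Units.ext (Matrix.ext fun i j => ?_)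
      fin_cases i <;> fin_cases j <;> simp [Matrix.mul_apply]
    rw [e, mul_assoc]
    exact hc.unip ((a : Af) * t) ((diag2 (a * ϖ) 1 * κ : GfK K) : Yf U) x
  set s : ℝ := Real.sqrt (Ideal.absNorm v.asIdeal) with hs
  have hker : kerCT (heckeKer hU v ϖ) c ((diag2 a 1 * κ : GfK K) : Yf U) x =
      ((s⁻¹ : ℝ) : ℂ) * (c ((diag2 (a * ϖ⁻¹) 1 * κ : GfK K) : Yf U) x +
        (s : ℂ) ^ 2 * c ((diag2 (a * ϖ) 1 * κ : GfK K) : Yf U) x) := by
    simp only [kerCT, heckeKer, kerApply_smul, kerApply_ofDoubleCoset]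
    rw [heckeMatrix, hu.finsum_nbrs hnU hU1 hv _ hκ, hnone]
    congr 2
    rw [Finset.sum_congr rfl fun r _ => hsome _, Finset.sum_const, Finset.card_univ,
      nsmul_eq_mul, ← Nat.card_eq_fintype_card, natCard_residue]
    congr 1
    rw [hs, ← Complex.ofReal_pow, Real.sq_sqrt (Nat.cast_nonneg _), Complex.ofReal_natCast]
  have hadd : classMk Φ n a x + classMk Φ n ϖ 0 = classMk Φ n (a * ϖ) x := by
    rw [← classMk_add, add_zero]
  have hsub : classMk Φ n a x - classMk Φ n ϖ 0 = classMk Φ n (a * ϖ⁻¹) x := by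
    rw [sub_eq_iff_eq_add, ← classMk_add, inv_mul_cancel_right, add_zero]
  rw [actHom_symElt, hadd, hsub, ctLift_classMk hnU (hc.kerCT _) hκ, ctLift_classMk hnU hc hκ,
    ctLift_classMk hnU hc hκ, ctPre, hker, ctPre, ctPre, normChar_mul, normChar_mul]
  have hmϖ : normChar ϖ = ((s⁻¹ : ℝ) : ℂ) := normChar_uniformiser hϖ
  have hinv : normChar ϖ⁻¹ = (s : ℂ) := by
    have h1 : normChar ϖ * normChar ϖ⁻¹ = 1 := by
      rw [← normChar_mul, mul_inv_cancel, normChar_eq_one]
      exact fun w => by rw [Units.val_one, coe_apply_one, map_one]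
    rw [eq_inv_of_mul_eq_one_right h1, hmϖ, Complex.ofReal_inv, inv_inv]
  have hs0 : (s : ℂ) ≠ 0 := by
    intro h0
    have := normChar_ne_zero (K := K) ϖ
    rw [hmϖ, Complex.ofReal_inv, h0, _root_.inv_zero] at this
    exact this rfl
  rw [hmϖ, hinv, Complex.ofReal_inv]
  have := normChar_ne_zero (K := K) a
  field_simp
  ring

end Fermat.Agent.LT.Aleph
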